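import Mathlib.RingTheory.AdicCompletion.Completeness
import Mathlib.RingTheory.AdicCompletion.RingHom
import Mathlib.RingTheory.MvPowerSeries.Inverse
import Mathlib.RingTheory.MvPowerSeries.Equiv
import Mathlib.RingTheory.MvPolynomial.Ideal
import Mathlib.RingTheory.LocalRing.ResidueField.Basic

/-!
# Power series rings over complete local rings

* `FA.Patch.evalHom`: evaluation of power series at elements of an ideal of definition.
* completeness of `O⟦σ⟧` for its maximal ideal, finiteness of its residue field.
-/

set_option autoImplicit false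

noncomputable section

open MvPowerSeries IsLocalRing

namespace FA.Patch

variable {σ O A : Type*} [CommRing O] [CommRing A]

section Eval

variable [Finite σ] (I : Ideal A) [IsAdicComplete I A] (f : O →+* A) (a : σ → A)

omit [Finite σ] [IsAdicComplete I A] in
lemma map_idealOfVars_pow_le {a : σ → A} (ha : ∀ i, a i ∈ I) (n : ℕ) :
    MvPolynomial.idealOfVars σ O ^ n ≤ Ideal.comap (MvPolynomial.eval₂Hom f a) (I ^ n) := by
  refine le_trans (Ideal.pow_right_mono ?_ n) (Ideal.le_comap_pow _ n)
  rw [MvPolynomial.idealOfVars, Ideal.span_le]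
  rintro _ ⟨i, rfl⟩
  simpa using ha i

/-- Truncation followed by evaluation. -/
def evalLevel {a : σ → A} (ha : ∀ i, a i ∈ I) (n : ℕ) : MvPowerSeries σ O →+* A ⧸ I ^ n :=
  (Ideal.quotientMap (I ^ n) (MvPolynomial.eval₂Hom f a) (map_idealOfVars_pow_le I f ha n)).comp
    (truncTotalAlgHom σ O n).toRingHom

omit [IsAdicComplete I A] in
lemma evalLevel_compat {a : σ → A} (ha : ∀ i, a i ∈ I) {m n : ℕ} (hle : m ≤ n) :
    (Ideal.Quotient.factorPow I hle).comp (evalLevel I f ha n) = evalLevel I f ha m := by
  refine RingHom.ext fun p => ?_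
  simp only [evalLevel, AlgHom.toRingHom_eq_coe, RingHom.coe_comp, RingHom.coe_coe,
    Function.comp_apply, truncTotalAlgHom_apply, Ideal.quotientMap_mk,
    Ideal.Quotient.factor_mk]
  rw [Ideal.Quotient.mk_eq_mk_iff_sub_mem, ← map_sub]
  exact map_idealOfVars_pow_le I f ha m
    (truncTotal_sub_truncTotal_mem_pow_idealOfVars hle le_rfl p)

/-- Evaluation of a power series at elements of an ideal of definition. -/
def evalHom (ha : ∀ i, a i ∈ I) : MvPowerSeries σ O →+* A :=
  IsAdicComplete.liftRingHom I (evalLevel I f ha) fun hle => evalLevel_compat I f ha hle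

variable {a} (ha : ∀ i, a i ∈ I)

lemma mk_evalHom (n : ℕ) (p : MvPowerSeries σ O) :
    Ideal.Quotient.mk (I ^ n) (evalHom I f a ha p) =
      Ideal.Quotient.mk (I ^ n) (MvPolynomial.eval₂ f a (truncTotal n p)) := by
  unfold evalHom
  rw [IsAdicComplete.mk_liftRingHom I (evalLevel I f ha) fun hle => evalLevel_compat I f ha hle]
  rfl

lemma evalHom_coe (p : MvPolynomial σ O) :
    evalHom I f a ha (p : MvPowerSeries σ O) = MvPolynomial.eval₂ f a p := by
  refine (IsHausdorff.eq_iff_smodEq (I := I)).mpr fun n => ?_
  rw [SModEq.sub_mem, smul_eq_mul, Ideal.mul_top, ← Ideal.Quotient.mk_eq_mk_iff_sub_mem,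
    mk_evalHom, Ideal.Quotient.mk_eq_mk_iff_sub_mem,
    ← MvPolynomial.coe_eval₂Hom, ← map_sub]
  refine map_idealOfVars_pow_le I f ha n ((MvPolynomial.mem_pow_idealOfVars_iff' ..).mpr fun x hx => ?_)
  rw [MvPolynomial.coeff_sub, coeff_truncTotal _ hx, MvPolynomial.coeff_coe, sub_self]

@[simp]
lemma evalHom_X (i : σ) : evalHom I f a ha (X i) = a i := by
  rw [← MvPolynomial.coe_X, evalHom_coe, MvPolynomial.eval₂_X]

@[simp]
lemma evalHom_C (c : O) : evalHom I f a ha (C c) = f c := by
  rw [← MvPolynomial.coe_C, evalHom_coe, MvPolynomial.eval₂_C]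

end Eval

section Complete

variable [Finite σ]

/-- A series without terms of degree `< n` lies in the `n`-th power of the ideal of variables. -/
lemma mem_span_X_pow {n : ℕ} {p : MvPowerSeries σ O}
    (hp : ∀ x : σ →₀ ℕ, Finsupp.degree x < n → coeff x p = 0) :
    p ∈ Ideal.span (Set.range (X : σ → MvPowerSeries σ O)) ^ n := by
  let e := (toAdicCompletionAlgEquiv σ O).toRingEquiv
  have hmap : Ideal.map e (Ideal.span (Set.range (X : σ → MvPowerSeries σ O))) =
      (MvPolynomial.idealOfVars σ O).map (algebraMap (MvPolynomial σ O) _) := by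
    show _ = Ideal.map _ (Ideal.span (Set.range MvPolynomial.X))
    rw [Ideal.map_span, Ideal.map_span, ← Set.range_comp, ← Set.range_comp]
    congr 2
    ext1 i
    simp [e, AdicCompletion.algebraMap_apply, ← MvPolynomial.coe_X, toAdicCompletion_coe]
  have hmem : e p ∈ (MvPolynomial.idealOfVars σ O).map
      (algebraMap (MvPolynomial σ O) _) ^ n := by
    have hker : e p ∈ (AdicCompletion.eval (MvPolynomial.idealOfVars σ O) _ n).ker := by
      rw [LinearMap.mem_ker]
      show (toAdicCompletion σ O p).val n = 0
      rw [toAdicCompletion_apply_eq_mk_truncTotal]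
      have : truncTotal n p = 0 := by
        ext x
        rw [MvPolynomial.coeff_zero]
        by_cases hx : Finsupp.degree x < n
        · rw [coeff_truncTotal _ hx, hp x hx]
        · exact coeff_truncTotal_eq_zero _ (not_lt.mp hx)
      rw [this]
      exact map_zero _
    rw [← AdicCompletion.pow_smul_top_eq_ker_eval (MvPolynomial.idealOfVars_fg σ O)] at hker
    rw [← Ideal.map_pow]
    rw [Ideal.smul_top_eq_map] at hker
    exact hker
  rw [← hmap, ← Ideal.map_pow, Ideal.mem_map_iff_of_surjective _ e.surjective] at hmem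
  obtain ⟨q, hq, hqp⟩ := hmem
  rwa [← e.injective hqp]

variable [IsLocalRing O]

omit [Finite σ] in
lemma mem_maximalIdeal_iff_coeff {p : MvPowerSeries σ O} :
    p ∈ maximalIdeal (MvPowerSeries σ O) ↔ constantCoeff p ∈ maximalIdeal O := by
  simp [IsLocalRing.mem_maximalIdeal, mem_nonunits_iff, MvPowerSeries.isUnit_iff_constantCoeff]

omit [Finite σ] in
lemma span_X_le_maximalIdeal :
    Ideal.span (Set.range (X : σ → MvPowerSeries σ O)) ≤ maximalIdeal (MvPowerSeries σ O) := by
  rw [Ideal.span_le]
  rintro _ ⟨i, rfl⟩
  exact mem_maximalIdeal_iff_coeff.mpr (by simp)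

omit [Finite σ] in
lemma map_C_le_maximalIdeal :
    (maximalIdeal O).map (C : O →+* MvPowerSeries σ O) ≤ maximalIdeal (MvPowerSeries σ O) :=
  Ideal.map_le_iff_le_comap.mpr fun c hc => mem_maximalIdeal_iff_coeff.mpr (by simpa using hc)

/-- The coefficientwise description of the powers of the maximal ideal. -/
lemma mem_maximalIdeal_pow_iff {n : ℕ} {p : MvPowerSeries σ O} :
    p ∈ maximalIdeal (MvPowerSeries σ O) ^ n ↔
      ∀ x : σ →₀ ℕ, coeff x p ∈ maximalIdeal O ^ (n - Finsupp.degree x) := by
  classical
  constructor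
  · intro h
    induction n generalizing p with
    | zero => intro x; simp
    | succ n ih =>
      rw [pow_succ] at h
      refine Submodule.mul_induction_on h (fun a ha b hb x => ?_) (fun a b ha hb x => ?_)
      · rw [coeff_mul]
        refine Ideal.sum_mem _ fun uv huv => ?_
        have hdeg : Finsupp.degree uv.1 + Finsupp.degree uv.2 = Finsupp.degree x := by
          rw [← map_add, Finset.HasAntidiagonal.mem_antidiagonal.mp huv]
        rcases eq_or_ne uv.2 0 with h0 | h0
        · have hb0 : coeff uv.2 b ∈ maximalIdeal O := by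
            rw [h0, coeff_zero_eq_constantCoeff_apply]
            exact mem_maximalIdeal_iff_coeff.mp hb
          have := Ideal.mul_mem_mul (ih ha uv.1) hb0
          rw [← pow_succ] at this
          refine Ideal.pow_le_pow_right ?_ this
          omega
        · have hpos : 0 < Finsupp.degree uv.2 :=
            Nat.pos_of_ne_zero fun h' => h0 ((Finsupp.degree_eq_zero_iff uv.2).mp h')
          refine Ideal.mul_mem_right _ _ (Ideal.pow_le_pow_right ?_ (ih ha uv.1))
          omega
      · rw [map_add]
        exact add_mem (ha x) (hb x)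
  · intro h
    -- split off the terms of degree `≥ n`
    let q : MvPowerSeries σ O := (truncTotal n p : MvPolynomial σ O)
    have hq : p - q ∈ maximalIdeal (MvPowerSeries σ O) ^ n :=
      Ideal.pow_right_mono span_X_le_maximalIdeal n (mem_span_X_pow fun x hx => by
        simp [q, coeff_truncTotal _ hx])
    suffices hq' : q ∈ maximalIdeal (MvPowerSeries σ O) ^ n by simpa using add_mem hq hq'
    have hsum : q = ∑ x ∈ (truncTotal n p).support,
        C ((truncTotal n p).coeff x) * ((MvPolynomial.monomial x 1 : MvPolynomial σ O) :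
          MvPowerSeries σ O) := by
      simp only [← MvPolynomial.coe_C, ← MvPolynomial.coe_mul, MvPolynomial.C_mul_monomial, mul_one]
      conv_lhs => rw [show q = ((truncTotal n p : MvPolynomial σ O) : MvPowerSeries σ O) from rfl,
        MvPolynomial.as_sum (truncTotal n p)]
      exact map_sum (MvPolynomial.coeToMvPowerSeries.ringHom) _ _
    rw [hsum]
    refine Ideal.sum_mem _ fun x hx => ?_
    by_cases hxn : Finsupp.degree x < n
    · have h1 : C ((truncTotal n p).coeff x) ∈
          maximalIdeal (MvPowerSeries σ O) ^ (n - Finsupp.degree x) := by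
        rw [coeff_truncTotal _ hxn]
        refine Ideal.pow_right_mono map_C_le_maximalIdeal _ ?_
        rw [← Ideal.map_pow]
        exact Ideal.mem_map_of_mem _ (h x)
      have h2 : ((MvPolynomial.monomial x 1 : MvPolynomial σ O) : MvPowerSeries σ O) ∈
          maximalIdeal (MvPowerSeries σ O) ^ Finsupp.degree x := by
        refine Ideal.pow_right_mono span_X_le_maximalIdeal _ (mem_span_X_pow fun y hy => ?_)
        rw [MvPolynomial.coeff_coe, MvPolynomial.coeff_monomial, if_neg]
        rintro rfl
        exact lt_irrefl _ hy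
      have := Ideal.mul_mem_mul h1 h2
      rwa [← pow_add, Nat.sub_add_cancel hxn.le] at this
    · exact absurd (coeff_truncTotal_eq_zero p (not_lt.mp hxn)) (MvPolynomial.mem_support_iff.mp hx)

instance isAdicComplete_maximalIdeal [IsAdicComplete (maximalIdeal O) O] :
    IsAdicComplete (maximalIdeal (MvPowerSeries σ O)) (MvPowerSeries σ O) where
  haus' p hp := by
    ext x
    rw [map_zero]
    refine IsHausdorff.haus' (I := maximalIdeal O) _ fun k => ?_
    have := hp (k + Finsupp.degree x)
    rw [SModEq.zero, smul_eq_mul, Ideal.mul_top, mem_maximalIdeal_pow_iff] at this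
    rw [SModEq.zero, smul_eq_mul, Ideal.mul_top]
    simpa using this x
  prec' f hf := by
    have hc : ∀ x : σ →₀ ℕ, ∃ L : O, ∀ k,
        coeff x (f (k + Finsupp.degree x)) ≡ L [SMOD (maximalIdeal O ^ k • ⊤ : Submodule O O)] := by
      intro x
      refine IsPrecomplete.prec' _ fun {m k} hmk => ?_
      have := hf (show m + Finsupp.degree x ≤ k + Finsupp.degree x by omega)
      rw [SModEq.sub_mem, smul_eq_mul, Ideal.mul_top, mem_maximalIdeal_pow_iff] at this
      rw [SModEq.sub_mem, smul_eq_mul, Ideal.mul_top]
      simpa using this x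
    choose L hL using hc
    refine ⟨(show MvPowerSeries σ O from L), fun n => ?_⟩
    rw [SModEq.sub_mem, smul_eq_mul, Ideal.mul_top, mem_maximalIdeal_pow_iff]
    intro x
    rw [map_sub]
    have h1 := hL x (n - Finsupp.degree x)
    rw [SModEq.sub_mem, smul_eq_mul, Ideal.mul_top] at h1
    by_cases hxn : n ≤ Finsupp.degree x
    · simp [Nat.sub_eq_zero_of_le hxn]
    · have heq : n - Finsupp.degree x + Finsupp.degree x = n := Nat.sub_add_cancel (by omega)
      rw [heq] at h1
      exact h1

omit [Finite σ] in
/-- The residue field of `O⟦σ⟧` is finite if that of `O` is. -/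
instance finite_residueField [Finite (ResidueField O)] :
    Finite (ResidueField (MvPowerSeries σ O)) := by
  have : Finite (O ⧸ maximalIdeal O) := ‹Finite (ResidueField O)›
  refine Finite.of_surjective (Ideal.Quotient.lift (maximalIdeal O)
    ((residue (MvPowerSeries σ O)).comp C) ?_) ?_
  · intro c hc
    rw [RingHom.comp_apply, IsLocalRing.residue_eq_zero_iff]
    simpa [IsLocalRing.mem_maximalIdeal, mem_nonunits_iff,
      MvPowerSeries.isUnit_iff_constantCoeff] using hc
  · intro y
    obtain ⟨p, rfl⟩ := residue_surjective y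
    refine ⟨residue O (constantCoeff p), ?_⟩
    show residue (MvPowerSeries σ O) (C (constantCoeff p)) = residue _ p
    rw [← sub_eq_zero, ← map_sub, residue_eq_zero_iff]
    simp [IsLocalRing.mem_maximalIdeal, mem_nonunits_iff,
      MvPowerSeries.isUnit_iff_constantCoeff]

end Complete

end FA.Patch
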