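import Fermat.Agent.Patch.System
import Fermat.Agent.Patch.Eval
import Mathlib.Algebra.MonoidAlgebra.Basic
import Mathlib.RingTheory.AdicCompletion.Algebra

/-!
# From a level with diamond action to a level of a system

The auxiliary ring is `O⟦Z, Y⟧`: frame variables `Z`, diamond variables `Y`. A level consists of a
deformation ring `R`, a finite abelian group `G` of diamond operators, free `O[G]`-modules given by
matrices, and elements generating `R⟦Z⟧`.
-/

set_option autoImplicit false

noncomputable section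

open IsLocalRing

namespace FA.Patch

section Continuity

variable {σ O A : Type*} [Finite σ] [CommRing O] [CommRing A]

/-- Homomorphisms of power series rings mapping the variables into `I` agree if they agree on
constants and variables. -/
theorem mvPowerSeries_hom_ext (I : Ideal A) [IsHausdorff I A] {f g : MvPowerSeries σ O →+* A}
    (hC : ∀ c, f (MvPowerSeries.C c) = g (MvPowerSeries.C c))
    (hX : ∀ i, f (MvPowerSeries.X i) = g (MvPowerSeries.X i))
    (hI : ∀ i, f (MvPowerSeries.X i) ∈ I) : f = g := by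
  refine RingHom.ext fun p => eq_of_forall_sub_mem I fun n => ?_
  let q : MvPolynomial σ O := MvPowerSeries.truncTotal n p
  have hpq : p - (q : MvPowerSeries σ O) ∈
      Ideal.span (Set.range (MvPowerSeries.X : σ → MvPowerSeries σ O)) ^ n :=
    mem_span_X_pow fun x hx => by simp [q, MvPowerSeries.coeff_truncTotal _ hx]
  have hle : ∀ h : MvPowerSeries σ O →+* A, (∀ i, h (MvPowerSeries.X i) ∈ I) →
      h (p - (q : MvPowerSeries σ O)) ∈ I ^ n := by
    intro h hh
    have h1 := Ideal.mem_map_of_mem h hpq
    rw [Ideal.map_pow] at h1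
    refine Ideal.pow_right_mono ?_ n h1
    rw [Ideal.map_span, Ideal.span_le]
    rintro _ ⟨_, ⟨i, rfl⟩, rfl⟩
    exact hh i
  have hq : f (q : MvPowerSeries σ O) = g (q : MvPowerSeries σ O) := by
    have : f.comp MvPolynomial.coeToMvPowerSeries.ringHom =
        g.comp MvPolynomial.coeToMvPowerSeries.ringHom :=
      MvPolynomial.ringHom_ext (fun c => by simpa using hC c) (fun i => by simpa using hX i)
    exact RingHom.congr_fun this q
  have e1 := hle f hI
  have e2 := hle g fun i => hX i ▸ hI i
  rw [map_sub] at e1 e2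
  have := sub_mem e1 e2
  rwa [hq, sub_sub_sub_cancel_right] at this

end Continuity

section Nil

variable {σ R A : Type*} [Finite σ] [CommRing R] [CommRing A]

/-- Evaluation of series at elements generating an ideal whose `n`-th power vanishes. -/
def evalNil (f : R →+* A) (a : σ → A) (n : ℕ) (h : Ideal.span (Set.range a) ^ n = ⊥) :
    MvPowerSeries σ R →+* A :=
  (Ideal.Quotient.lift (MvPolynomial.idealOfVars σ R ^ n) (MvPolynomial.eval₂Hom f a)
    fun p hp => by
      have := map_idealOfVars_pow_le (Ideal.span (Set.range a)) f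
        (fun i => Ideal.subset_span ⟨i, rfl⟩) n hp
      rwa [h, Ideal.mem_comap, Ideal.mem_bot] at this).comp
    (MvPowerSeries.truncTotalAlgHom σ R n).toRingHom

lemma evalNil_coe (f : R →+* A) (a : σ → A) (n : ℕ) (h : Ideal.span (Set.range a) ^ n = ⊥)
    (p : MvPolynomial σ R) :
    evalNil f a n h (p : MvPowerSeries σ R) = MvPolynomial.eval₂ f a p := by
  simp only [evalNil, AlgHom.toRingHom_eq_coe, RingHom.coe_comp, RingHom.coe_coe,
    Function.comp_apply, MvPowerSeries.truncTotalAlgHom_apply, Ideal.Quotient.lift_mk,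
    MvPolynomial.coe_eval₂Hom]
  rw [← sub_eq_zero, ← MvPolynomial.coe_eval₂Hom, ← map_sub, ← Ideal.mem_bot, ← h]
  refine map_idealOfVars_pow_le (Ideal.span (Set.range a)) f
    (fun i => Ideal.subset_span ⟨i, rfl⟩) n ((MvPolynomial.mem_pow_idealOfVars_iff' ..).mpr
      fun x hx => ?_)
  rw [MvPolynomial.coeff_sub, MvPowerSeries.coeff_truncTotal _ hx, MvPolynomial.coeff_coe, sub_self]

lemma evalNil_C (f : R →+* A) (a : σ → A) (n : ℕ) (h : Ideal.span (Set.range a) ^ n = ⊥) (r : R) :
    evalNil f a n h (MvPowerSeries.C r) = f r := by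
  rw [← MvPolynomial.coe_C, evalNil_coe, MvPolynomial.eval₂_C]

lemma evalNil_X (f : R →+* A) (a : σ → A) (n : ℕ) (h : Ideal.span (Set.range a) ^ n = ⊥) (i : σ) :
    evalNil f a n h (MvPowerSeries.X i) = a i := by
  rw [← MvPolynomial.coe_X, evalNil_coe, MvPolynomial.eval₂_X]

end Nil

variable (O : Type) [CommRing O] [IsLocalRing O] (τ Z Y : Type) [Finite τ] [Finite Z] [Finite Y]
  (R₀ : Type) [CommRing R₀]
  [Algebra O R₀] (ι κ : Type) (d : ι → ℕ) (src tgt : κ → ι)

/-- The auxiliary ring. -/
abbrev Aux : Type := MvPowerSeries (Z ⊕ Y) O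

/-- The augmentation ideal of the auxiliary ring. -/
abbrev augIdeal : Ideal (Aux O Z Y) := RingHom.ker (MvPowerSeries.constantCoeff (σ := Z ⊕ Y))

/-- A level of depth `n`. -/
structure Level (act₀ : ∀ i, R₀ →+* Matrix (Fin (d i)) (Fin (d i)) O) (n : ℕ) where
  /-- the deformation ring -/
  R : Type
  [commRing : CommRing R]
  [isLocalRing : IsLocalRing R]
  [algebra : Algebra O R]
  complete : IsAdicComplete (maximalIdeal (MvPowerSeries Z R)) (MvPowerSeries Z R)
  localHom : ∀ c ∈ maximalIdeal O, algebraMap O R c ∈ maximalIdeal R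
  /-- the diamond group -/
  G : Type
  [commGroup : CommGroup G]
  /-- generators -/
  gen : Y → G
  /-- the character to the auxiliary variables -/
  χ : G →* Aux O Z Y ⧸ maximalIdeal (Aux O Z Y) ^ n
  χ_gen : ∀ i, χ (gen i) = 1 + Ideal.Quotient.mk _ (MvPowerSeries.X (Sum.inr i))
  χ_aug : ∀ g (s : Aux O Z Y), Ideal.Quotient.mk _ s = χ g →
    Ideal.Quotient.mk (augIdeal O Z Y) s - 1 ∈
      (maximalIdeal (Aux O Z Y) ^ n).map (Ideal.Quotient.mk (augIdeal O Z Y))
  /-- the diamond elements -/
  δ : G →* R
  δ_gen_mem : ∀ i, δ (gen i) - 1 ∈ maximalIdeal R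
  /-- the module -/
  act : ∀ i, R →+* Matrix (Fin (d i)) (Fin (d i)) (MonoidAlgebra O G)
  act_const : ∀ i c, act i (algebraMap O R c) = Matrix.scalar _ (algebraMap O (MonoidAlgebra O G) c)
  act_δ : ∀ i g, act i (δ g) = Matrix.scalar _ (MonoidAlgebra.single g 1)
  /-- intertwiners -/
  maps : ∀ t, Matrix (Fin (d (tgt t))) (Fin (d (src t))) (MonoidAlgebra O G)
  intertwine : ∀ t r, maps t * act (src t) r = act (tgt t) r * maps t
  /-- generators of the framed ring -/
  x : τ → MvPowerSeries Z R
  x_mem : ∀ i, x i ∈ maximalIdeal (MvPowerSeries Z R)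
  surj : Function.Surjective (evalHom (maximalIdeal (MvPowerSeries Z R))
    ((MvPowerSeries.C (σ := Z)).comp (algebraMap O R)) x x_mem (σ := τ))
  /-- reduction to the base level -/
  π : R →ₐ[O] R₀
  π_surjective : Function.Surjective π
  π_δ : ∀ g, π (δ g) = 1
  act_π : ∀ i r, (act i r).map (MonoidAlgebra.lift O O G 1) = act₀ i (π r)

namespace Level

variable {O τ Z Y R₀ ι κ d src tgt} {act₀ : ∀ i, R₀ →+* Matrix (Fin (d i)) (Fin (d i)) O}
  {n : ℕ} (L : Level O τ Z Y R₀ ι κ d src tgt act₀ n)

attribute [local instance] Level.commRing Level.isLocalRing Level.algebra Level.commGroup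
  Level.complete

/-- The diamond group algebra to the finite quotient of the auxiliary ring. -/
def ψ : MonoidAlgebra O L.G →ₐ[O] Aux O Z Y ⧸ maximalIdeal (Aux O Z Y) ^ n :=
  MonoidAlgebra.lift O (Aux O Z Y ⧸ maximalIdeal (Aux O Z Y) ^ n) L.G L.χ

/-- The action with coefficients in the finite quotient. -/
def actFin (i : ι) :
    L.R →+* Matrix (Fin (d i)) (Fin (d i)) (Aux O Z Y ⧸ maximalIdeal (Aux O Z Y) ^ n) :=
  (L.ψ : MonoidAlgebra O L.G →+* _).mapMatrix.comp (L.act i)

/-- The scalars and the image of the deformation ring generate a commutative algebra. -/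
def image (i : ι) : Subalgebra (Aux O Z Y ⧸ maximalIdeal (Aux O Z Y) ^ n)
    (Matrix (Fin (d i)) (Fin (d i)) (Aux O Z Y ⧸ maximalIdeal (Aux O Z Y) ^ n)) :=
  Algebra.adjoin _ (Set.range (L.actFin i))

instance isMulCommutative_image (i : ι) : IsMulCommutative (L.image i) :=
  Algebra.isMulCommutative_adjoin _ fun _ ⟨a, ha⟩ _ ⟨b, hb⟩ => by
    rw [← ha, ← hb, ← map_mul, ← map_mul, mul_comm]

instance commRingImage (i : ι) : CommRing (L.image i) :=
  { (L.image i).toRing with mul_comm := fun a b => setLike_mul_comm a.2 b.2 |> Subtype.ext }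

/-- The action on the framed ring, inside the commutative image. -/
def actImage (i : ι) : MvPowerSeries Z L.R →+* L.image i :=
    (evalNil ((L.actFin i).codRestrict (L.image i) fun r => Algebra.subset_adjoin ⟨r, rfl⟩)
      (fun z => algebraMap _ (L.image i)
        (Ideal.Quotient.mk (maximalIdeal (Aux O Z Y) ^ n) (MvPowerSeries.X (Sum.inl z)))) n
      (by
        rw [eq_bot_iff]
        have h : Ideal.span (Set.range fun z : Z => algebraMap _ (L.image i)
            (Ideal.Quotient.mk (maximalIdeal (Aux O Z Y) ^ n) (MvPowerSeries.X (Sum.inl z)))) ≤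
            ((maximalIdeal (Aux O Z Y)).map (Ideal.Quotient.mk (maximalIdeal (Aux O Z Y) ^ n))).map
              (algebraMap (Aux O Z Y ⧸ maximalIdeal (Aux O Z Y) ^ n) (L.image i)) := by
          rw [Ideal.span_le]
          rintro _ ⟨z, rfl⟩
          exact Ideal.mem_map_of_mem _ (Ideal.mem_map_of_mem _
            (mem_maximalIdeal_iff_coeff.mpr (by simp)))
        refine (Ideal.pow_right_mono h n).trans ?_
        rw [← Ideal.map_pow, ← Ideal.map_pow, Ideal.map_quotient_self, Ideal.map_bot]))

/-- The action on the framed ring. -/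
def actFramed (i : ι) : MvPowerSeries Z L.R →+*
    Matrix (Fin (d i)) (Fin (d i)) (Aux O Z Y ⧸ maximalIdeal (Aux O Z Y) ^ n) :=
  ((L.image i).val : L.image i →+* _).comp (L.actImage i)

lemma actFramed_C (i : ι) (r : L.R) : L.actFramed i (MvPowerSeries.C r) = L.actFin i r := by
  simp only [actFramed, actImage, RingHom.coe_comp, RingHom.coe_coe, Function.comp_apply, evalNil_C]
  rfl

lemma actFramed_X (i : ι) (z : Z) : L.actFramed i (MvPowerSeries.X z) =
    Matrix.scalar (Fin (d i)) (Ideal.Quotient.mk _ (MvPowerSeries.X (Sum.inl z))) := by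
  simp only [actFramed, actImage, RingHom.coe_comp, RingHom.coe_coe, Function.comp_apply, evalNil_X]
  rfl

/-- The map from the presentation ring to the framed ring. -/
def toFramed : MvPowerSeries τ O →+* MvPowerSeries Z L.R :=
  evalHom (maximalIdeal (MvPowerSeries Z L.R))
    ((MvPowerSeries.C (σ := Z)).comp (algebraMap O L.R)) L.x L.x_mem

/-- The action of the presentation ring. -/
def actP (i : ι) : MvPowerSeries τ O →+*
    Matrix (Fin (d i)) (Fin (d i)) (Aux O Z Y ⧸ maximalIdeal (Aux O Z Y) ^ n) :=
  (L.actFramed i).comp L.toFramed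

/-- The map to the base ring. -/
def toBase : MvPowerSeries τ O →+* R₀ :=
  ((L.π : L.R →+* R₀).comp (MvPowerSeries.constantCoeff (σ := Z))).comp L.toFramed

lemma toBase_surjective : Function.Surjective L.toBase :=
  (L.π_surjective.comp fun r => ⟨MvPowerSeries.C r, MvPowerSeries.constantCoeff_C r⟩).comp L.surj

lemma toFramed_mem {p : MvPowerSeries τ O} :
    L.toFramed p ∈ maximalIdeal (MvPowerSeries Z L.R) ↔ p ∈ maximalIdeal (MvPowerSeries τ O) := by
  have : IsLocalHom L.toFramed := IsLocalHom.of_surjective _ L.surj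
  simp only [IsLocalRing.mem_maximalIdeal, mem_nonunits_iff, isUnit_map_iff]

/-- The lifts of the auxiliary variables. -/
def lift : Z ⊕ Y → MvPowerSeries τ O :=
  Sum.elim (fun z => Function.surjInv L.surj (MvPowerSeries.X z))
    (fun y => Function.surjInv L.surj (MvPowerSeries.C (L.δ (L.gen y) - 1)))

lemma toFramed_lift_inl (z : Z) : L.toFramed (L.lift (Sum.inl z)) = MvPowerSeries.X z :=
  Function.surjInv_eq L.surj _

lemma toFramed_lift_inr (y : Y) :
    L.toFramed (L.lift (Sum.inr y)) = MvPowerSeries.C (L.δ (L.gen y) - 1) :=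
  Function.surjInv_eq L.surj _

lemma lift_mem (v : Z ⊕ Y) : L.lift v ∈ maximalIdeal (MvPowerSeries τ O) := by
  rw [← L.toFramed_mem]
  rcases v with z | y
  · rw [toFramed_lift_inl]
    exact mem_maximalIdeal_iff_coeff.mpr (by simp)
  · rw [toFramed_lift_inr]
    exact mem_maximalIdeal_iff_coeff.mpr (by simpa using L.δ_gen_mem y)

variable [IsAdicComplete (maximalIdeal O) O]

/-- The auxiliary variables inside the presentation ring. -/
def j : Aux O Z Y →+* MvPowerSeries τ O :=
  evalHom (maximalIdeal (MvPowerSeries τ O)) (MvPowerSeries.C (σ := τ)) L.lift L.lift_mem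

lemma toFramed_C (c : O) :
    L.toFramed (MvPowerSeries.C c) = MvPowerSeries.C (algebraMap O L.R c) := by
  simp [toFramed]

lemma actP_j (i : ι) (s : Aux O Z Y) :
    L.actP i (L.j s) = Matrix.scalar (Fin (d i)) (Ideal.Quotient.mk _ s) := by
  let sc : Aux O Z Y →+* L.image i :=
    (algebraMap (Aux O Z Y ⧸ maximalIdeal (Aux O Z Y) ^ n) (L.image i)).comp (Ideal.Quotient.mk _)
  let I : Ideal (L.image i) := (maximalIdeal (Aux O Z Y)).map sc
  have hI : I ^ n = ⊥ := by
    rw [← Ideal.map_pow, ← Ideal.map_map, Ideal.map_quotient_self, Ideal.map_bot]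
  have : IsHausdorff I (L.image i) := ⟨fun z hz => by
    have := hz n
    rwa [SModEq.zero, smul_eq_mul, Ideal.mul_top, hI, Ideal.mem_bot] at this⟩
  have key : ((L.actImage i).comp (L.toFramed.comp L.j)) = sc := by
    refine mvPowerSeries_hom_ext I (fun c => Subtype.ext ?_) (fun v => Subtype.ext ?_) fun v => ?_
    · show L.actFramed i (L.toFramed (L.j (MvPowerSeries.C c))) = _
      rw [show L.j (MvPowerSeries.C c) = MvPowerSeries.C c from evalHom_C _ _ _ c, toFramed_C,
        actFramed_C]
      show ((L.act i) (algebraMap O L.R c)).map L.ψ = _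
      rw [L.act_const, Matrix.scalar_apply, Matrix.diagonal_map (map_zero _)]
      simp only [AlgHom.commutes]
      rfl
    · show L.actFramed i (L.toFramed (L.j (MvPowerSeries.X v))) = _
      rw [show L.j (MvPowerSeries.X v) = L.lift v from evalHom_X _ _ _ v]
      rcases v with z | y
      · rw [toFramed_lift_inl, actFramed_X]
        rfl
      · rw [toFramed_lift_inr, actFramed_C, map_sub, map_one]
        show ((L.act i) (L.δ (L.gen y))).map L.ψ - 1 = _
        rw [L.act_δ, Matrix.scalar_apply, Matrix.diagonal_map (map_zero _)]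
        simp only [ψ, MonoidAlgebra.lift_single, one_smul, L.χ_gen]
        rw [← Matrix.diagonal_one, Matrix.diagonal_sub]
        simp only [add_sub_cancel_left]
        rfl
    · rw [show ((L.actImage i).comp (L.toFramed.comp L.j)) (MvPowerSeries.X v) =
        L.actImage i (L.toFramed (L.lift v)) from by
          simp only [RingHom.coe_comp, Function.comp_apply]; rw [j, evalHom_X]]
      rcases v with z | y
      · rw [toFramed_lift_inl, actImage, evalNil_X]
        exact Ideal.mem_map_of_mem sc (x := (MvPowerSeries.X (Sum.inl z) : Aux O Z Y))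
          (mem_maximalIdeal_iff_coeff.mpr (by simp))
      · have : L.actImage i (L.toFramed (L.lift (Sum.inr y))) =
            sc (MvPowerSeries.X (Sum.inr y)) := Subtype.ext (by
          show L.actFramed i _ = _
          rw [toFramed_lift_inr, actFramed_C, map_sub, map_one]
          show ((L.act i) (L.δ (L.gen y))).map L.ψ - 1 = _
          rw [L.act_δ, Matrix.scalar_apply, Matrix.diagonal_map (map_zero _)]
          simp only [ψ, MonoidAlgebra.lift_single, one_smul, L.χ_gen]
          rw [← Matrix.diagonal_one, Matrix.diagonal_sub]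
          simp only [add_sub_cancel_left]
          rfl)
        rw [this]
        exact Ideal.mem_map_of_mem sc (mem_maximalIdeal_iff_coeff.mpr (by simp))
  have := congrArg Subtype.val (RingHom.congr_fun key s)
  exact this

lemma toBase_j (s : Aux O Z Y) : L.toBase (L.j s) = algebraMap O R₀ (MvPowerSeries.constantCoeff s) := by
  have key : L.toBase.comp L.j =
      (algebraMap O R₀).comp (MvPowerSeries.constantCoeff (σ := Z ⊕ Y)) := by
    refine mvPowerSeries_hom_ext (⊥ : Ideal R₀) (fun c => ?_) (fun v => ?_) fun v => ?_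
    · simp [toBase, j, toFramed_C]
    · rcases v with z | y
      · simp [toBase, j, toFramed_lift_inl]
      · simp [toBase, j, toFramed_lift_inr, L.π_δ]
    · rcases v with z | y
      · simp [toBase, j, toFramed_lift_inl]
      · simp [toBase, j, toFramed_lift_inr, L.π_δ]
  exact RingHom.congr_fun key s

lemma actP_aug (i : ι) (p : MvPowerSeries τ O) :
    (L.actP i p).map (Ideal.Quotient.factor
      (le_sup_right : maximalIdeal (Aux O Z Y) ^ n ≤ augIdeal O Z Y ⊔ maximalIdeal _ ^ n)) =
    (act₀ i (L.toBase p)).map fun c =>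
      Ideal.Quotient.mk (augIdeal O Z Y ⊔ maximalIdeal (Aux O Z Y) ^ n) (MvPowerSeries.C c) := by
  classical
  let η : Aux O Z Y ⧸ maximalIdeal (Aux O Z Y) ^ n →+* Aux O Z Y ⧸ _ := Ideal.Quotient.factor
    (le_sup_right : maximalIdeal (Aux O Z Y) ^ n ≤ augIdeal O Z Y ⊔ maximalIdeal _ ^ n)
  let ζ : O →+* Aux O Z Y ⧸ (augIdeal O Z Y ⊔ maximalIdeal (Aux O Z Y) ^ n) :=
    (Ideal.Quotient.mk _).comp MvPowerSeries.C
  have hψ : η.comp (L.ψ : MonoidAlgebra O L.G →+* _) =
      ζ.comp ((MonoidAlgebra.lift O O L.G 1 : MonoidAlgebra O L.G →ₐ[O] O) :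
        MonoidAlgebra O L.G →+* O) := by
    refine MonoidAlgebra.ringHom_ext (fun c => ?_) fun g => ?_
    · simp [η, ζ, ψ, MonoidAlgebra.lift_single, Algebra.smul_def]
      rfl
    · obtain ⟨s, hs⟩ := Ideal.Quotient.mk_surjective (L.χ g)
      simp only [η, ζ, ψ, RingHom.coe_comp, RingHom.coe_coe, Function.comp_apply,
        MonoidAlgebra.lift_single, one_smul, MonoidHom.one_apply, map_one, ← hs,
        Ideal.Quotient.factor_mk]
      have h := Ideal.mem_map_of_mem (Ideal.Quotient.factor (le_sup_left :
        augIdeal O Z Y ≤ augIdeal O Z Y ⊔ maximalIdeal (Aux O Z Y) ^ n)) (L.χ_aug g s hs)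
      rw [map_sub, Ideal.Quotient.factor_mk, map_one, Ideal.map_map,
        Ideal.Quotient.factor_comp_mk] at h
      have hz : (maximalIdeal (Aux O Z Y) ^ n).map (Ideal.Quotient.mk
          (augIdeal O Z Y ⊔ maximalIdeal (Aux O Z Y) ^ n)) = ⊥ := by
        rw [Ideal.map_eq_bot_iff_le_ker, Ideal.mk_ker]
        exact le_sup_right
      rwa [hz, Ideal.mem_bot, sub_eq_zero] at h
  let g₁ : MvPowerSeries Z L.R →+* _ := η.mapMatrix.comp (L.actFramed i)
  have hC : ∀ r : L.R, g₁ (MvPowerSeries.C r) = (act₀ i (L.π r)).map ζ := by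
    intro r
    show (L.actFramed i (MvPowerSeries.C r)).map η = _
    rw [actFramed_C, ← L.act_π i r, Matrix.map_map]
    show ((L.act i r).map L.ψ).map η = _
    rw [Matrix.map_map]
    exact congrArg (L.act i r).map (funext fun a => RingHom.congr_fun hψ a)
  have hX : Ideal.span (Set.range (MvPowerSeries.X : Z → MvPowerSeries Z L.R)) ≤
      RingHom.ker g₁ := by
    rw [Ideal.span_le]
    rintro _ ⟨z, rfl⟩
    rw [SetLike.mem_coe, RingHom.mem_ker]
    show (L.actFramed i (MvPowerSeries.X z)).map η = 0
    rw [actFramed_X, Matrix.scalar_apply, Matrix.diagonal_map (map_zero _)]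
    have : η (Ideal.Quotient.mk _ (MvPowerSeries.X (Sum.inl z))) = 0 := by
      rw [Ideal.Quotient.factor_mk, Ideal.Quotient.eq_zero_iff_mem]
      exact Ideal.mem_sup_left (MvPowerSeries.constantCoeff_X (Sum.inl z))
    simp [this]
  have hsub : L.toFramed p - MvPowerSeries.C (MvPowerSeries.constantCoeff (L.toFramed p)) ∈
      RingHom.ker g₁ := by
    refine hX ?_
    rw [← pow_one (Ideal.span _)]
    refine mem_span_X_pow fun v hv => ?_
    obtain rfl := (Finsupp.degree_eq_zero_iff v).mp (Nat.lt_one_iff.mp hv)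
    simp
  rw [RingHom.mem_ker, map_sub, sub_eq_zero, hC] at hsub
  exact hsub

set_option maxHeartbeats 800000 in
-- the commutative image is a heavy type
lemma actP_intertwine (t : κ) (p : MvPowerSeries τ O) :
    (L.maps t).map L.ψ * L.actP (src t) p = L.actP (tgt t) p * (L.maps t).map L.ψ := by
  classical
  have hR : ∀ r, (L.maps t).map L.ψ * L.actFin (src t) r =
      L.actFin (tgt t) r * (L.maps t).map L.ψ := fun r => by
    show (L.maps t).map L.ψ * (L.act (src t) r).map L.ψ =
      (L.act (tgt t) r).map L.ψ * (L.maps t).map L.ψ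
    rw [← Matrix.map_mul, ← Matrix.map_mul, L.intertwine]
  suffices h : ∀ f : MvPowerSeries Z L.R, (L.maps t).map L.ψ * L.actFramed (src t) f =
      L.actFramed (tgt t) f * (L.maps t).map L.ψ from h _
  intro f
  have hz : ∀ i, L.actFramed i f =
      L.actFramed i ((MvPowerSeries.truncTotal n f : MvPolynomial Z L.R) : MvPowerSeries Z L.R) := by
    intro i
    simp only [actFramed, RingHom.coe_comp, Function.comp_apply]
    congr 1
    rw [actImage, evalNil_coe]
    simp [evalNil, MvPowerSeries.truncTotalAlgHom_apply]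
  rw [hz, hz]
  induction (MvPowerSeries.truncTotal n f : MvPolynomial Z L.R) using MvPolynomial.induction_on with
  | C r => rw [MvPolynomial.coe_C, actFramed_C, actFramed_C, hR]
  | add a b ha hb => rw [MvPolynomial.coe_add, map_add, map_add, Matrix.mul_add, Matrix.add_mul,
      ha, hb]
  | mul_X a z ha =>
    rw [MvPolynomial.coe_mul, MvPolynomial.coe_X, map_mul, map_mul, actFramed_X, actFramed_X,
      ← Matrix.mul_assoc, ha, Matrix.mul_assoc, Matrix.mul_assoc]
    congr 1
    ext u v
    simp [Matrix.scalar_apply, mul_comm]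

end Level

/-- **Patching data from levels of every depth.** -/
def LevelSystem.ofLevels {O τ Z Y R₀ ι κ : Type} [CommRing O] [IsLocalRing O]
    [IsAdicComplete (maximalIdeal O) O] [Finite τ] [Finite Z] [Finite Y] [CommRing R₀]
    [IsLocalRing R₀] [Algebra O R₀] {d : ι → ℕ} {src tgt : κ → ι}
    {act₀ : ∀ i, R₀ →+* Matrix (Fin (d i)) (Fin (d i)) O}
    (L : ∀ n, Level O τ Z Y R₀ ι κ d src tgt act₀ n) :
    LevelSystem (Aux O Z Y) (MvPowerSeries τ O) R₀ ι κ where
  d := d
  src := src
  tgt := tgt
  a := augIdeal O Z Y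
  act n := (L n).actP
  Y n t := ((L n).maps t).map fun a => Function.surjInv Ideal.Quotient.mk_surjective ((L n).ψ a)
  j n := (L n).j
  φ n := (L n).toBase
  act0 i := ((Ideal.Quotient.mk (augIdeal O Z Y)).comp MvPowerSeries.C).mapMatrix.comp (act₀ i)
  j_mem n s hs := by
    letI := (L n).commRing; letI := (L n).isLocalRing; letI := (L n).algebra
    have hle : (maximalIdeal (Aux O Z Y)).map (L n).j ≤ maximalIdeal (MvPowerSeries τ O) := by
      rw [Ideal.map_le_iff_le_comap]
      intro s hs
      rw [Ideal.mem_comap]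
      have h1 : s - MvPowerSeries.C (MvPowerSeries.constantCoeff s) ∈
          Ideal.span (Set.range (MvPowerSeries.X : Z ⊕ Y → Aux O Z Y)) := by
        rw [← pow_one (Ideal.span _)]
        refine mem_span_X_pow fun v hv => ?_
        obtain rfl := (Finsupp.degree_eq_zero_iff v).mp (Nat.lt_one_iff.mp hv)
        simp
      have h2 : (L n).j (s - MvPowerSeries.C (MvPowerSeries.constantCoeff s)) ∈
          maximalIdeal (MvPowerSeries τ O) := by
        refine (Ideal.map_le_iff_le_comap.mp ?_ :
          _ ≤ (maximalIdeal (MvPowerSeries τ O)).comap (L n).j) h1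
        rw [Ideal.map_span, Ideal.span_le]
        rintro _ ⟨_, ⟨v, rfl⟩, rfl⟩
        rw [Level.j, evalHom_X]
        exact (L n).lift_mem v
      rw [map_sub, Level.j, evalHom_C] at h2
      have h3 : (MvPowerSeries.C (MvPowerSeries.constantCoeff s) : MvPowerSeries τ O) ∈
          maximalIdeal _ :=
        mem_maximalIdeal_iff_coeff.mpr (by simpa using mem_maximalIdeal_iff_coeff.mp hs)
      simpa [Level.j] using add_mem h2 h3
    exact hle (Ideal.mem_map_of_mem _ hs)
  φ_surjective n := (L n).toBase_surjective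
  act_j n i s := (L n).actP_j i s
  intertwine n t p := by
    have h : (((L n).maps t).map fun a =>
        Function.surjInv Ideal.Quotient.mk_surjective ((L n).ψ a)).map
          (Ideal.Quotient.mk (maximalIdeal (Aux O Z Y) ^ n)) = ((L n).maps t).map (L n).ψ := by
      rw [Matrix.map_map]
      exact congrArg ((L n).maps t).map (funext fun a => Function.surjInv_eq _ _)
    rw [h]
    exact (L n).actP_intertwine t p
  act_aug n i p u v s hs := by
    have h := congrFun (congrFun ((L n).actP_aug i p) u) v
    rw [Matrix.map_apply, Matrix.map_apply, ← hs, Ideal.Quotient.factor_mk] at h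
    have h' := (Ideal.Quotient.mk_eq_mk_iff_sub_mem _ _).mp h
    obtain ⟨a, ha, b, hb, hab⟩ := Submodule.mem_sup.mp h'
    have : Ideal.Quotient.mk (augIdeal O Z Y) s -
        (((Ideal.Quotient.mk (augIdeal O Z Y)).comp MvPowerSeries.C).mapMatrix.comp (act₀ i))
          ((L n).toBase p) u v = Ideal.Quotient.mk (augIdeal O Z Y) b := by
      simp only [RingHom.coe_comp, Function.comp_apply, RingHom.mapMatrix_apply, Matrix.map_apply]
      rw [← map_sub, ← hab, map_add, Ideal.Quotient.eq_zero_iff_mem.mpr ha, zero_add]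
    rw [this]
    exact Ideal.mem_map_of_mem _ hb
  φ_j n s hs := by
    rw [(L n).toBase_j, RingHom.mem_ker.mp hs, map_zero]

end FA.Patch
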