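import Mathlib.RingTheory.Ideal.GoingUp
import Mathlib.RingTheory.Ideal.HasGoingUp
import Mathlib.RingTheory.Ideal.KrullsHeightTheorem
import Mathlib.RingTheory.Ideal.MinimalPrime.Localization
import Mathlib.RingTheory.KrullDimension.NonZeroDivisors
import Mathlib.LinearAlgebra.Matrix.Charpoly.LinearMap
import Mathlib.LinearAlgebra.Matrix.Charpoly.Basic
import Mathlib.LinearAlgebra.Matrix.Charpoly.Coeff
import Mathlib.LinearAlgebra.Charpoly.Basic
import Mathlib.RingTheory.Finiteness.Basic

/-!
# Supports of patched modules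

`P` acts on `S ^ d` through `act : P →+* Matrix (Fin d) (Fin d) S`, and `j : S →+* P` lifts the
scalars. If `S` is a domain and `P ⧸ I` is integral over another copy of `S`, then every minimal
prime of the support is an irreducible component of `P ⧸ I` and maps onto `Spec S`.
-/

set_option autoImplicit false

noncomputable section

open Polynomial

namespace FA.Patch

section Dim

/-- Integral ring maps do not raise the dimension. -/
lemma ringKrullDim_le_of_isIntegral {R B : Type*} [CommRing R] [CommRing B] (f : R →+* B)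
    (hf : f.IsIntegral) : ringKrullDim B ≤ ringKrullDim R := by
  algebraize [f]
  have : Algebra.IsIntegral R B := ⟨hf⟩
  refine Order.krullDim_le_of_strictMono (PrimeSpectrum.comap (algebraMap R B)) ?_
  intro p q hpq
  have hpq' : p.asIdeal < q.asIdeal := hpq
  obtain ⟨hle, x, hxq, hxp⟩ := SetLike.lt_iff_le_and_exists.mp hpq'
  exact Ideal.comap_lt_comap_of_integral_mem_sdiff hle ⟨hxq, hxp⟩ (Algebra.IsIntegral.isIntegral x)

/-- Injective integral ring maps do not lower the dimension. -/
lemma ringKrullDim_le_of_injective_isIntegral {R B : Type*} [CommRing R] [CommRing B] (f : R →+* B)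
    (hf : f.IsIntegral) (hinj : Function.Injective f) : ringKrullDim R ≤ ringKrullDim B := by
  algebraize [f]
  have : Algebra.IsIntegral R B := ⟨hf⟩
  refine iSup_le fun l => ?_
  obtain ⟨Q, -, hQ, hQl⟩ := Ideal.exists_ideal_over_prime_of_isIntegral l.head.asIdeal (⊥ : Ideal B)
    (by
      rw [← RingHom.ker_eq_comap_bot]
      show RingHom.ker f ≤ _
      rw [(RingHom.injective_iff_ker_eq_bot _).mp hinj]
      exact bot_le)
  have : Q.LiesOver l.head.asIdeal := ⟨hQl.symm⟩
  obtain ⟨L, hL, -, -⟩ := Ideal.exists_ltSeries_of_hasGoingUp l Q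
  exact le_iSup_of_le L (by rw [hL])

/-- The key dimension count: over a finite-dimensional domain `S`, a prime whose quotient is
integral and faithful over `S` cannot strictly contain a prime whose quotient is integral over `S`
by another structure map. -/
theorem eq_of_le_of_isIntegral {S P : Type*} [CommRing S] [IsDomain S] [FiniteRingKrullDim S]
    [CommRing P] (f g : S →+* P) {C Q : Ideal P} [C.IsPrime] [Q.IsPrime] (hCQ : C ≤ Q)
    (hg : ((Ideal.Quotient.mk C).comp g).IsIntegral)
    (hf : ((Ideal.Quotient.mk Q).comp f).IsIntegral)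
    (hfinj : Q.comap f = ⊥) : C = Q := by
  by_contra hne
  have hlt : C < Q := lt_of_le_of_ne hCQ hne
  -- the kernel of `g` on `P ⧸ Q` is nonzero
  have hJ : Q.comap g ≠ ⊥ := by
    intro hbot
    let : Algebra S (P ⧸ C) := ((Ideal.Quotient.mk C).comp g).toAlgebra
    have : Algebra.IsIntegral S (P ⧸ C) := ⟨hg⟩
    have hQ' : (Q.map (Ideal.Quotient.mk C)).comap (algebraMap S (P ⧸ C)) = ⊥ := by
      show Ideal.comap ((Ideal.Quotient.mk C).comp g) _ = _
      rw [← Ideal.comap_comap, Ideal.comap_map_of_surjective _ Ideal.Quotient.mk_surjective,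
        ← RingHom.ker_eq_comap_bot, Ideal.mk_ker, sup_eq_left.mpr hCQ, hbot]
    have h0 := Ideal.eq_bot_of_comap_eq_bot (R := S) hQ'
    rw [Ideal.map_eq_bot_iff_le_ker, Ideal.mk_ker] at h0
    exact hne (le_antisymm hCQ h0)
  obtain ⟨a, ha, ha0⟩ := Submodule.exists_mem_ne_zero_of_ne_bot hJ
  -- `dim S ≤ dim (P ⧸ Q) ≤ dim (S ⧸ Q.comap g) < dim S`
  have h1 : ringKrullDim S ≤ ringKrullDim (P ⧸ Q) := by
    refine ringKrullDim_le_of_injective_isIntegral _ hf ?_
    rw [RingHom.injective_iff_ker_eq_bot, ← RingHom.comap_ker, Ideal.mk_ker, hfinj]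
  have hgQ : ((Ideal.Quotient.mk Q).comp g).IsIntegral := by
    have heq : (Ideal.Quotient.mk Q).comp g =
        (Ideal.Quotient.factor hCQ).comp ((Ideal.Quotient.mk C).comp g) := by
      rw [← RingHom.comp_assoc]
      rfl
    rw [heq]
    exact hg.trans _ _ (RingHom.isIntegral_of_surjective _
      (Ideal.Quotient.factor_surjective hCQ))
  have h2 : ringKrullDim (P ⧸ Q) ≤ ringKrullDim (S ⧸ Q.comap g) := by
    refine ringKrullDim_le_of_isIntegral
      (Ideal.quotientMap Q g le_rfl) ?_
    refine RingHom.IsIntegral.tower_top (Ideal.Quotient.mk (Q.comap g)) _ ?_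
    rwa [show (Ideal.quotientMap Q g le_rfl).comp (Ideal.Quotient.mk (Q.comap g)) =
      (Ideal.Quotient.mk Q).comp g from Ideal.quotientMap_comp_mk _]
  have h3 : ringKrullDim (S ⧸ Q.comap g) + 1 ≤ ringKrullDim S := by
    have hmem : a ∈ nonZeroDivisors S := mem_nonZeroDivisors_of_ne_zero ha0
    exact ringKrullDim_succ_le_of_surjective _ Ideal.Quotient.mk_surjective hmem
      (Ideal.Quotient.eq_zero_iff_mem.mpr ha)
  have h4 : ringKrullDim S + 1 ≤ ringKrullDim S :=
    (add_le_add (h1.trans h2) le_rfl).trans h3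
  obtain ⟨m, hm⟩ : ∃ m : ℕ, ringKrullDim S = m := by
    obtain ⟨l, hl⟩ : ∃ l : LTSeries (PrimeSpectrum S), ringKrullDim S = l.length :=
      ⟨LTSeries.longestOf _, Order.krullDim_eq_length_of_finiteDimensionalOrder⟩
    exact ⟨_, hl⟩
  rw [hm] at h4
  norm_cast at h4
  omega

end Dim

section Action

variable {S P : Type*} [CommRing S] [CommRing P] {d : ℕ}
  {act : P →+* Matrix (Fin d) (Fin d) S} {j : S →+* P}

/-- The compatibility of `j` with the scalars. -/
def IsScalarLift (act : P →+* Matrix (Fin d) (Fin d) S) (j : S →+* P) : Prop :=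
  ∀ s, act (j s) = algebraMap S (Matrix (Fin d) (Fin d) S) s

lemma IsScalarLift.act_aeval (hj : IsScalarLift act j) (f : S[X]) (x : P) :
    act (f.eval₂ j x) = Polynomial.aeval (act x) f := by
  induction f using Polynomial.induction_on' with
  | add a b ha hb => simp [eval₂_add, map_add, ha, hb]
  | monomial n c => simp [eval₂_monomial, aeval_monomial, hj c]

/-- Cayley–Hamilton: every element is integral over `S` modulo the kernel. -/
lemma IsScalarLift.eval₂_charpoly_mem (hj : IsScalarLift act j) (x : P) :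
    (act x).charpoly.eval₂ j x ∈ RingHom.ker act := by
  rw [RingHom.mem_ker, hj.act_aeval, Matrix.aeval_self_charpoly]

lemma IsScalarLift.isIntegral (hj : IsScalarLift act j) {Q : Ideal P} (hQ : RingHom.ker act ≤ Q) :
    ((Ideal.Quotient.mk Q).comp j).IsIntegral := by
  intro y
  obtain ⟨x, rfl⟩ := Ideal.Quotient.mk_surjective y
  refine ⟨(act x).charpoly, Matrix.charpoly_monic _, ?_⟩
  rw [← Polynomial.hom_eval₂]
  exact Ideal.Quotient.eq_zero_iff_mem.mpr (hQ (hj.eval₂_charpoly_mem x))

/-- An element acting as zero modulo `a` is nilpotent modulo `ker act` and `j a`. -/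
lemma IsScalarLift.mem_radical_of_act_mem (hj : IsScalarLift act j) (a : Ideal S) {x : P}
    (hx : ∀ i k, act x i k ∈ a) : x ∈ (RingHom.ker act ⊔ a.map j).radical := by
  refine ⟨d, ?_⟩
  have h1 := hj.eval₂_charpoly_mem x
  have hmap : ((act x).charpoly.map (Ideal.Quotient.mk a)) = X ^ d := by
    rw [← Matrix.charpoly_map]
    have h0 : (act x).map (Ideal.Quotient.mk a) = 0 := by
      ext i k
      exact Ideal.Quotient.eq_zero_iff_mem.mpr (hx i k)
    rw [h0, Matrix.charpoly_zero, Fintype.card_fin]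
  have h2 : x ^ d - (act x).charpoly.eval₂ j x ∈ a.map j := by
    have hcoeff : ∀ i, ((X : S[X]) ^ d - (act x).charpoly).coeff i ∈ a := by
      intro i
      have := congrArg (fun f => f.coeff i) hmap
      simp only [coeff_map, coeff_X_pow] at this
      rw [← Ideal.Quotient.eq_zero_iff_mem, coeff_sub, map_sub, this, coeff_X_pow]
      split <;> simp
    have : x ^ d - (act x).charpoly.eval₂ j x = ((X : S[X]) ^ d - (act x).charpoly).eval₂ j x := by
      simp [eval₂_sub, eval₂_pow]
    rw [this, eval₂_eq_sum_range]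
    exact Ideal.sum_mem _ fun i _ => Ideal.mul_mem_right _ _ (Ideal.mem_map_of_mem _ (hcoeff i))
  have := Submodule.add_mem_sup h1 h2
  rwa [add_sub_cancel] at this

/-- Minimal primes of the support map onto `Spec S`. -/
lemma IsScalarLift.comap_eq_bot_of_mem_minimalPrimes [IsDomain S] (hj : IsScalarLift act j)
    {Q : Ideal P} (hQ : Q ∈ (RingHom.ker act).minimalPrimes) : Q.comap j = ⊥ := by
  rw [_root_.eq_bot_iff]
  intro s hs
  rw [Ideal.mem_bot]
  by_contra hs0
  let mk := Ideal.Quotient.mk (RingHom.ker act)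
  have hker : RingHom.ker mk = RingHom.ker act := Ideal.mk_ker
  have hmin : Q.map mk ∈ minimalPrimes (P ⧸ RingHom.ker act) := by
    have h : (RingHom.ker act).minimalPrimes =
        Ideal.comap mk '' minimalPrimes (P ⧸ RingHom.ker act) :=
      Ideal.minimalPrimes_eq_comap
    rw [h] at hQ
    obtain ⟨q, hq, rfl⟩ := hQ
    rwa [Ideal.map_comap_of_surjective _ Ideal.Quotient.mk_surjective]
  have hnz : mk (j s) ∈ nonZeroDivisors (P ⧸ RingHom.ker act) := by
    rw [mem_nonZeroDivisors_iff_right]
    intro y hy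
    obtain ⟨z, rfl⟩ := Ideal.Quotient.mk_surjective y
    rw [← map_mul, Ideal.Quotient.eq_zero_iff_mem, RingHom.mem_ker, map_mul, hj s,
      Algebra.algebraMap_eq_smul_one, mul_smul_comm, mul_one] at hy
    rw [Ideal.Quotient.eq_zero_iff_mem, RingHom.mem_ker]
    ext i k
    have := congrFun (congrFun hy i) k
    simpa [hs0] using this
  exact (Set.disjoint_left.mp (Ideal.disjoint_nonZeroDivisors_of_mem_minimalPrimes hmin))
    (Ideal.mem_map_of_mem _ hs) hnz

variable [IsDomain S] [FiniteRingKrullDim S]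

/-- **Support of a patched module.** A minimal prime of the support containing a prime `C ⊇ I`
equals it, so it is a component of `P ⧸ I`. -/
theorem IsScalarLift.eq_of_mem_minimalPrimes (hj : IsScalarLift act j) {g : S →+* P}
    {I C Q : Ideal P} (hg : ((Ideal.Quotient.mk I).comp g).IsIntegral) [C.IsPrime] (hIC : I ≤ C)
    (hQ : Q ∈ (RingHom.ker act).minimalPrimes) (hCQ : C ≤ Q) : C = Q := by
  have : Q.IsPrime := hQ.1.1
  refine eq_of_le_of_isIntegral j g hCQ ?_ (hj.isIntegral hQ.1.2)
    (hj.comap_eq_bot_of_mem_minimalPrimes hQ)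
  have heq : (Ideal.Quotient.mk C).comp g =
      (Ideal.Quotient.factor hIC).comp ((Ideal.Quotient.mk I).comp g) := by
    rw [← RingHom.comp_assoc]
    rfl
  rw [heq]
  exact hg.trans _ _ (RingHom.isIntegral_of_surjective _ (Ideal.Quotient.factor_surjective hIC))

/-- With `comps` covering `V(I)`, every prime of the support contains a supported component. -/
theorem IsScalarLift.exists_component_le (hj : IsScalarLift act j) {g : S →+* P} {I : Ideal P}
    (hg : ((Ideal.Quotient.mk I).comp g).IsIntegral) (hI : I ≤ RingHom.ker act)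
    (comps : Set (Ideal P)) (hprime : ∀ C ∈ comps, C.IsPrime ∧ I ≤ C)
    (hcover : ∀ Q : Ideal P, Q.IsPrime → I ≤ Q → ∃ C ∈ comps, C ≤ Q)
    {p : Ideal P} [p.IsPrime] (hp : RingHom.ker act ≤ p) :
    ∃ C ∈ comps, C ≤ p ∧ RingHom.ker act ≤ C := by
  obtain ⟨Q, hQ, hQp⟩ := Ideal.exists_minimalPrimes_le hp
  obtain ⟨C, hC, hCQ⟩ := hcover Q hQ.1.1 (hI.trans hQ.1.2)
  have := (hprime C hC).1
  obtain rfl := hj.eq_of_mem_minimalPrimes hg (hprime C hC).2 hQ hCQ
  exact ⟨C, hC, hQp, hQ.1.2⟩

omit [FiniteRingKrullDim S] in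
/-- A supported component surjects onto `Spec S`. -/
theorem IsScalarLift.comap_eq_bot_of_component (hj : IsScalarLift act j)
    {I C : Ideal P} [C.IsPrime] (hC : RingHom.ker act ≤ C)
    (hmin : ∀ Q : Ideal P, Q.IsPrime → I ≤ Q → Q ≤ C → Q = C) (hI : I ≤ RingHom.ker act) :
    C.comap j = ⊥ := by
  obtain ⟨Q, hQ, hQC⟩ := Ideal.exists_minimalPrimes_le hC
  obtain rfl := hmin Q hQ.1.1 (hI.trans hQ.1.2) hQC
  exact hj.comap_eq_bot_of_mem_minimalPrimes hQ

omit [IsDomain S] [FiniteRingKrullDim S] in
/-- Lying over in a supported component. -/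
theorem IsScalarLift.exists_prime_over (hj : IsScalarLift act j) {C : Ideal P} [C.IsPrime]
    (hC : RingHom.ker act ≤ C) (hbot : C.comap j = ⊥) (a : Ideal S) [a.IsPrime] :
    ∃ Q : Ideal P, Q.IsPrime ∧ C ≤ Q ∧ Q.comap j = a := by
  let : Algebra S (P ⧸ C) := ((Ideal.Quotient.mk C).comp j).toAlgebra
  have : Algebra.IsIntegral S (P ⧸ C) := ⟨hj.isIntegral hC⟩
  obtain ⟨Q, -, hQ, hQa⟩ := Ideal.exists_ideal_over_prime_of_isIntegral a (⊥ : Ideal (P ⧸ C)) (by
    show Ideal.comap ((Ideal.Quotient.mk C).comp j) ⊥ ≤ a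
    rw [← Ideal.comap_comap, ← RingHom.ker_eq_comap_bot, Ideal.mk_ker, hbot]
    exact bot_le)
  refine ⟨Q.comap (Ideal.Quotient.mk C), Ideal.comap_isPrime _ _, fun x hx => ?_, ?_⟩
  · rw [Ideal.mem_comap, Ideal.Quotient.eq_zero_iff_mem.mpr hx]
    exact zero_mem _
  · rw [Ideal.comap_comap]
    exact hQa

omit [IsDomain S] [FiniteRingKrullDim S] in
/-- Full support upstairs gives nilpotent kernel downstairs. -/
theorem IsScalarLift.isNilpotent_of_act_mem (hj : IsScalarLift act j) {R : Type*} [CommRing R]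
    (φ : P →+* R) (a : Ideal S) (hker : ∀ x ∈ RingHom.ker act, IsNilpotent (φ x))
    (ha : ∀ s ∈ a, φ (j s) = 0) {x : P} (hx : ∀ i k, act x i k ∈ a) : IsNilpotent (φ x) := by
  have hle : RingHom.ker act ⊔ a.map j ≤ (nilradical R).comap φ :=
    sup_le (fun y hy => mem_nilradical.mpr (hker y hy))
      (Ideal.map_le_iff_le_comap.mpr fun s hs =>
        mem_nilradical.mpr (by rw [ha s hs]; exact IsNilpotent.zero))
  obtain ⟨n, hn⟩ := hj.mem_radical_of_act_mem a hx
  have := mem_nilradical.mp (hle hn)
  rw [map_pow] at this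
  exact IsNilpotent.of_pow this

omit [IsDomain S] [FiniteRingKrullDim S] in
/-- Transfer of supports along a congruence modulo `a`. -/
theorem IsScalarLift.le_of_congr (hj : IsScalarLift act j) {d' : ℕ}
    (act' : P →+* Matrix (Fin d') (Fin d') S) (a : Ideal S)
    (h : ∀ x, (∀ i k, act' x i k ∈ a) → ∀ i k, act x i k ∈ a)
    {Z : Ideal P} [Z.IsPrime] (hZ : RingHom.ker act ⊔ a.map j ≤ Z) : RingHom.ker act' ≤ Z := by
  intro x hx
  have hx' : ∀ i k, act' x i k ∈ a := fun i k => by
    rw [show act' x = 0 from hx]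
    exact zero_mem _
  exact (Ideal.IsPrime.radical_le_iff (by assumption)).mpr hZ
    (hj.mem_radical_of_act_mem a (h x hx'))

end Action

section Crossing

variable {P M N : Type*} [CommRing P] [AddCommGroup M] [Module P M] [Module.Finite P M]
  [AddCommGroup N] [Module P N]

/-- **Crossing a wall.** `i : M × M → N`, `iStar : N → M × M` surjective, the composite being
given by a `2 × 2` matrix `(a b; c e)` of elements of `P`. A prime of the support of `M` which
contains its determinant lies in the support of the cokernel of `i`. -/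
theorem annihilator_coker_le_of_det_mem (i : (M × M) →ₗ[P] N) (iStar : N →ₗ[P] (M × M))
    (hsurj : Function.Surjective iStar) (a b c e : P)
    (hcomp : ∀ u v : M, iStar (i (u, v)) = (a • u + b • v, c • u + e • v))
    {p : Ideal P} [p.IsPrime] (hp : Module.annihilator P M ≤ p) (hdet : a * e - b * c ∈ p) :
    Module.annihilator P (N ⧸ LinearMap.range i) ≤ p := by
  intro x hx
  rw [Module.mem_annihilator] at hx
  have hxN : ∀ n : N, x • n ∈ LinearMap.range i := fun n => by
    have := hx (Submodule.Quotient.mk n)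
    rwa [← Submodule.Quotient.mk_smul, Submodule.Quotient.mk_eq_zero] at this
  -- `x • (u, v)` lies in the image of the composite
  have hxc : ∀ u v : M, ∃ u' v' : M, x • u = a • u' + b • v' ∧ x • v = c • u' + e • v' := by
    intro u v
    obtain ⟨n, hn⟩ := hsurj (u, v)
    obtain ⟨⟨u', v'⟩, huv⟩ := hxN n
    have := congrArg iStar huv
    rw [hcomp, map_smul, hn, Prod.smul_mk, Prod.ext_iff] at this
    exact ⟨u', v', this.1.symm, this.2.symm⟩
  -- hence `x²` maps `M` into `det • M`
  let D := a * e - b * c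
  have hD : ∀ u : M, (x * x) • u ∈ Ideal.span {D} • (⊤ : Submodule P M) := by
    intro u
    have hmemD : ∀ w : M, D • w ∈ Ideal.span {D} • (⊤ : Submodule P M) := fun w =>
      Submodule.smul_mem_smul (Ideal.mem_span_singleton_self D) trivial
    obtain ⟨u₁, v₁, h1, -⟩ := hxc u 0
    have key : ∀ w : M, (∃ z, (a * x) • w = D • z) ∧ (∃ z, (b * x) • w = D • z) := by
      intro w
      obtain ⟨p1, q1, e1, e2⟩ := hxc w 0
      obtain ⟨p2, q2, f1, f2⟩ := hxc 0 w
      rw [smul_zero] at e2 f1
      refine ⟨⟨q2, ?_⟩, ⟨-p2, ?_⟩⟩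
      · calc (a * x) • w = a • (c • p2 + e • q2) := by rw [mul_smul, f2]
          _ = c • (a • p2 + b • q2) + D • q2 := by simp only [D]; module
          _ = D • q2 := by rw [← f1, smul_zero, zero_add]
      · calc (b * x) • w = b • (c • p2 + e • q2) := by rw [mul_smul, f2]
          _ = e • (a • p2 + b • q2) + D • (-p2) := by simp only [D]; module
          _ = D • (-p2) := by rw [← f1, smul_zero, zero_add]
    obtain ⟨z1, hz1⟩ := (key u₁).1
    obtain ⟨z2, hz2⟩ := (key v₁).2
    have : (x * x) • u = D • z1 + D • z2 := by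
      calc (x * x) • u = x • (x • u) := mul_smul x x u
        _ = x • (a • u₁ + b • v₁) := by rw [h1]
        _ = (a * x) • u₁ + (b * x) • v₁ := by module
        _ = D • z1 + D • z2 := by rw [hz1, hz2]
    rw [this]
    exact add_mem (hmemD _) (hmemD _)
  -- determinant trick
  obtain ⟨f, hmonic, hdeg, hcoeff, hf⟩ :=
    LinearMap.exists_monic_and_natDegree_eq_and_coeff_mem_pow_and_aeval_eq_zero P
      (algebraMap P (Module.End P M) (x * x)) (Ideal.span {D})
      (by rintro _ ⟨u, rfl⟩; exact hD u)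
  rw [Polynomial.aeval_algebraMap_apply] at hf
  have hann : f.eval (x * x) ∈ Module.annihilator P M := Module.mem_annihilator.mpr fun m => by
    simpa using LinearMap.congr_fun hf m
  have hev : (x * x) ^ f.natDegree ∈ p := by
    have h1 := hp hann
    rw [Polynomial.eval_eq_sum_range, Finset.sum_range_succ, hmonic.coeff_natDegree, one_mul] at h1
    refine (Ideal.add_mem_iff_right _ ?_).mp h1
    refine Ideal.sum_mem _ fun k hk => Ideal.mul_mem_right _ _ ?_
    have hlt : k < f.natDegree := Finset.mem_range.mp hk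
    have hle : Ideal.span {D} ≤ p := (Ideal.span_singleton_le_iff_mem _).mpr hdet
    exact hle (Ideal.pow_le_self (by omega) (hcoeff k))
  have := Ideal.IsPrime.mem_of_pow_mem (by assumption) _ hev
  exact (Ideal.IsPrime.mem_or_mem (by assumption) this).elim id id

end Crossing

end FA.Patch
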