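import Fermat.Agent.Patch.Limit
import Fermat.Agent.Patch.Support
import Mathlib.RingTheory.Filtration

/-!
# Systems of levels and their patched limit

A `LevelSystem` records what every auxiliary level contributes to patching: finitely many
representations of the presentation ring `P` by matrices over the finite quotients of the ring of
auxiliary variables `S`, matrices intertwining them, a lift `j` of the auxiliary variables to `P`,
a map `φ` to the base deformation ring `R` and the comparison with the base level modulo `a`.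
-/

set_option autoImplicit false

noncomputable section

open IsLocalRing

namespace FA.Patch

variable (S P R : Type*) [CommRing S] [IsLocalRing S] [CommRing P] [IsLocalRing P] [CommRing R]
  [IsLocalRing R]

/-- The data of all auxiliary levels. -/
structure LevelSystem (ι κ : Type*) where
  /-- ranks -/
  d : ι → ℕ
  /-- sources of the intertwiners -/
  src : κ → ι
  /-- targets of the intertwiners -/
  tgt : κ → ι
  /-- the augmentation ideal of the auxiliary variables -/
  a : Ideal S
  /-- the action at level `n` -/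
  act : ∀ n i, P →+* Matrix (Fin (d i)) (Fin (d i)) (S ⧸ maximalIdeal S ^ n)
  /-- the intertwiners at level `n` -/
  Y : ℕ → ∀ t, Matrix (Fin (d (tgt t))) (Fin (d (src t))) S
  /-- the auxiliary variables inside `P` -/
  j : ℕ → (S →+* P)
  /-- the map to the base ring -/
  φ : ℕ → (P →+* R)
  /-- the action at base level -/
  act0 : ∀ i, R →+* Matrix (Fin (d i)) (Fin (d i)) (S ⧸ a)
  j_mem : ∀ n, ∀ x ∈ maximalIdeal S, j n x ∈ maximalIdeal P
  φ_surjective : ∀ n, Function.Surjective (φ n)
  act_j : ∀ n i s, act n i (j n s) =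
    Matrix.scalar (Fin (d i)) (Ideal.Quotient.mk (maximalIdeal S ^ n) s)
  intertwine : ∀ n t x, (Y n t).map (Ideal.Quotient.mk _) * act n (src t) x =
    act n (tgt t) x * (Y n t).map (Ideal.Quotient.mk _)
  act_aug : ∀ n i x u v (s : S), Ideal.Quotient.mk _ s = act n i x u v →
    Ideal.Quotient.mk a s - act0 i (φ n x) u v ∈
      (maximalIdeal S ^ n).map (Ideal.Quotient.mk a)
  φ_j : ∀ n, ∀ s ∈ a, φ n (j n s) = 0

variable {S P R} {ι κ : Type*}

namespace LevelSystem

variable (L : LevelSystem S P R ι κ)

/-- The limit data of a system. -/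
structure Patched where
  /-- the patched action -/
  act : ∀ i, P →+* Matrix (Fin (L.d i)) (Fin (L.d i)) S
  /-- the patched intertwiners -/
  Y : ∀ t, Matrix (Fin (L.d (L.tgt t))) (Fin (L.d (L.src t))) S
  /-- the patched variables -/
  j : S →+* P
  /-- the patched map to the base ring -/
  φ : P →+* R
  approx : ∀ k, ∃ n, k < n ∧
    (∀ i x u v (s : S), Ideal.Quotient.mk _ s = L.act n i x u v →
      act i x u v - s ∈ maximalIdeal S ^ k) ∧
    (∀ t u v, Y t u v - L.Y n t u v ∈ maximalIdeal S ^ k) ∧
    (∀ s, j s - L.j n s ∈ maximalIdeal P ^ k) ∧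
    (∀ x, φ x - L.φ n x ∈ maximalIdeal R ^ k)
  φ_surjective : Function.Surjective φ
  isScalarLift : ∀ i, IsScalarLift (act i) j
  intertwine : ∀ t x, Y t * act (L.src t) x = act (L.tgt t) x * Y t
  act_aug : ∀ i x, (act i x).map (Ideal.Quotient.mk L.a) = L.act0 i (φ x)
  φ_j : ∀ s ∈ L.a, φ (j s) = 0

variable [IsNoetherianRing S] [Finite (ResidueField S)] [IsNoetherianRing P]
  [Finite (ResidueField P)]

/-- The level actions kill a uniform power of the maximal ideal modulo every power. -/
lemma exists_pow_act_mem (i : ι) (k : ℕ) : ∃ m, k ≤ m ∧ ∀ n, k ≤ n → ∀ x ∈ maximalIdeal P ^ m,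
    ∀ u v (s : S), Ideal.Quotient.mk _ s = L.act n i x u v → s ∈ maximalIdeal S ^ k := by
  classical
  have : Finite (S ⧸ maximalIdeal S ^ k) := finite_quotient_pow S k
  refine ⟨max k (Nat.card (Matrix (Fin (L.d i)) (Fin (L.d i)) (S ⧸ maximalIdeal S ^ k))),
    le_max_left _ _, fun n hn x hx u v s hs => ?_⟩
  let f := (Ideal.Quotient.factor (Ideal.pow_le_pow_right (I := maximalIdeal S) hn)).mapMatrix.comp
    (L.act n i)
  have hx' : f x = 0 :=
    maximalIdeal_pow_le_ker f (Ideal.pow_le_pow_right (le_max_right _ _) hx)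
  have := congrFun (congrFun hx' u) v
  simp only [f, RingHom.comp_apply, RingHom.mapMatrix_apply, Matrix.map_apply, ← hs,
    Ideal.Quotient.factor_mk, Matrix.zero_apply] at this
  exact Ideal.Quotient.eq_zero_iff_mem.mp this

variable [IsAdicComplete (maximalIdeal S) S] [IsAdicComplete (maximalIdeal P) P]
  [IsNoetherianRing R] [Finite (ResidueField R)] [IsAdicComplete (maximalIdeal R) R]
  [Finite ι] [Finite κ]

/-- **Patching.** -/
theorem nonempty_patched : Nonempty L.Patched := by
  classical
  have hφloc : ∀ n, ∀ x ∈ maximalIdeal P, L.φ n x ∈ maximalIdeal R := fun n x hx => by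
    have : IsLocalHom (L.φ n) := IsLocalHom.of_surjective _ (L.φ_surjective n)
    simp only [IsLocalRing.mem_maximalIdeal, mem_nonunits_iff] at hx ⊢
    exact fun h => hx ((isUnit_map_iff (L.φ n) x).mp h)
  obtain ⟨actL, YL, jL, φL, happ⟩ := exists_limit (rows := fun t => L.d (L.tgt t))
    (cols := fun t => L.d (L.src t)) (fun n => maximalIdeal S ^ n) (fun n => le_rfl)
    L.act L.Y L.j L.j_mem L.φ hφloc
  have hsurj : Function.Surjective φL := surjective_of_limit φL L.φ L.φ_surjective fun k => by
    obtain ⟨n, hn, -, -, -, h⟩ := happ k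
    exact ⟨n, hn, h⟩
  have hφLloc : ∀ x ∈ maximalIdeal P, φL x ∈ maximalIdeal R := fun x hx => by
    have : IsLocalHom φL := IsLocalHom.of_surjective _ hsurj
    simp only [IsLocalRing.mem_maximalIdeal, mem_nonunits_iff] at hx ⊢
    exact fun h => hx ((isUnit_map_iff φL x).mp h)
  refine ⟨{
    act := actL, Y := YL, j := jL, φ := φL, approx := happ, φ_surjective := hsurj
    isScalarLift := ?_, intertwine := ?_, act_aug := ?_, φ_j := ?_ }⟩
  · intro i s
    ext u v
    refine eq_of_forall_sub_mem (maximalIdeal S) fun k => ?_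
    obtain ⟨m, hkm, hm⟩ := L.exists_pow_act_mem i k
    obtain ⟨n, hn, h1, -, h3, -⟩ := happ m
    obtain ⟨c, hc⟩ := Ideal.Quotient.mk_surjective (L.act n i (jL s - L.j n s) u v)
    have hc' := hm n (by omega) _ (h3 s) u v c hc
    have hs : Ideal.Quotient.mk _ (c + if u = v then s else 0) = L.act n i (jL s) u v := by
      rw [map_add, hc]
      conv_rhs => rw [← sub_add_cancel (jL s) (L.j n s), map_add, Matrix.add_apply, L.act_j]
      simp only [Matrix.scalar_apply, Matrix.diagonal_apply]
      split_ifs <;> simp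
    have := add_mem (Ideal.pow_le_pow_right hkm (h1 i (jL s) u v _ hs)) hc'
    rw [Matrix.algebraMap_matrix_apply, Algebra.algebraMap_self, RingHom.id_apply]
    convert this using 1
    ring
  · intro t x
    ext u v
    refine eq_of_forall_sub_mem (maximalIdeal S) fun k => ?_
    obtain ⟨n, hn, h1, h2, -, -⟩ := happ k
    let mkk := Ideal.Quotient.mk (maximalIdeal S ^ k)
    let fac := Ideal.Quotient.factor (Ideal.pow_le_pow_right (I := maximalIdeal S) hn.le)
    have hY : (YL t).map mkk = ((L.Y n t).map (Ideal.Quotient.mk _)).map fac := by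
      ext a b
      simpa [mkk, fac] using (Ideal.Quotient.mk_eq_mk_iff_sub_mem _ _).mpr (h2 t a b)
    have hA : ∀ i, (actL i x).map mkk = (L.act n i x).map fac := by
      intro i
      ext a b
      obtain ⟨c, hc⟩ := Ideal.Quotient.mk_surjective (L.act n i x a b)
      simpa [mkk, fac, ← hc] using
        (Ideal.Quotient.mk_eq_mk_iff_sub_mem _ _).mpr (h1 i x a b c hc)
    have := congrArg (fun M => M.map fac) (L.intertwine n t x)
    simp only [Matrix.map_mul] at this
    rw [← hY, ← hA, ← hA, ← Matrix.map_mul, ← Matrix.map_mul] at this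
    exact (Ideal.Quotient.mk_eq_mk_iff_sub_mem _ _).mp (congrFun (congrFun this u) v)
  · intro i x
    ext u v
    obtain ⟨s0, hs0⟩ := Ideal.Quotient.mk_surjective (L.act0 i (φL x) u v)
    rw [Matrix.map_apply, ← hs0, Ideal.Quotient.mk_eq_mk_iff_sub_mem]
    -- `a` is closed
    have hclosed : ∀ z : S, (∀ k, z ∈ L.a ⊔ maximalIdeal S ^ k) → z ∈ L.a := by
      intro z hz
      by_cases htop : L.a = ⊤
      · rw [htop]; trivial
      have : Nontrivial (S ⧸ L.a) := Ideal.Quotient.nontrivial_iff.mpr htop
      have : IsLocalRing (S ⧸ L.a) :=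
        IsLocalRing.of_surjective' (Ideal.Quotient.mk L.a) Ideal.Quotient.mk_surjective
      rw [← Ideal.Quotient.eq_zero_iff_mem]
      have hI : (maximalIdeal S).map (Ideal.Quotient.mk L.a) ≠ ⊤ := by
        intro h
        have := congrArg (Ideal.comap (Ideal.Quotient.mk L.a)) h
        rw [Ideal.comap_map_of_surjective _ Ideal.Quotient.mk_surjective, Ideal.comap_top,
          ← RingHom.ker_eq_comap_bot, Ideal.mk_ker] at this
        exact (maximalIdeal.isMaximal S).ne_top
          (top_le_iff.mp (this.ge.trans (sup_le le_rfl (IsLocalRing.le_maximalIdeal htop))))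
      have hk : Ideal.Quotient.mk L.a z ∈
          ⨅ k : ℕ, (maximalIdeal S).map (Ideal.Quotient.mk L.a) ^ k := by
        rw [Ideal.mem_iInf]
        intro k
        rw [← Ideal.map_pow]
        obtain ⟨z1, hz1, z2, hz2, rfl⟩ := Submodule.mem_sup.mp (hz k)
        rw [map_add, Ideal.Quotient.eq_zero_iff_mem.mpr hz1, zero_add]
        exact Ideal.mem_map_of_mem _ hz2
      rwa [Ideal.iInf_pow_eq_bot_of_isLocalRing _ hI, Ideal.mem_bot] at hk
    refine hclosed _ fun k => ?_
    -- continuity of the base action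
    let B := Matrix (Fin (L.d i)) (Fin (L.d i)) (S ⧸ (L.a ⊔ maximalIdeal S ^ k))
    have : Finite (S ⧸ maximalIdeal S ^ k) := finite_quotient_pow S k
    have : Finite (S ⧸ (L.a ⊔ maximalIdeal S ^ k)) :=
      Finite.of_surjective (Ideal.Quotient.factor (le_sup_right : maximalIdeal S ^ k ≤ _))
        (Ideal.Quotient.factor_surjective _)
    let g : R →+* B :=
      (Ideal.Quotient.factor (le_sup_left : L.a ≤ L.a ⊔ maximalIdeal S ^ k)).mapMatrix.comp
        (L.act0 i)
    obtain ⟨n, hn, h1, -, -, h4⟩ := happ (max k (Nat.card B))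
    obtain ⟨s, hs⟩ := Ideal.Quotient.mk_surjective (L.act n i x u v)
    have e1 : Ideal.Quotient.mk (L.a ⊔ maximalIdeal S ^ k) (actL i x u v) =
        Ideal.Quotient.mk _ s :=
      (Ideal.Quotient.mk_eq_mk_iff_sub_mem _ _).mpr
        (Ideal.mem_sup_right (Ideal.pow_le_pow_right (le_max_left _ _) (h1 i x u v s hs)))
    have e2 : Ideal.Quotient.mk (L.a ⊔ maximalIdeal S ^ k) s = g (L.φ n x) u v := by
      have h := Ideal.mem_map_of_mem (Ideal.Quotient.factor
        (le_sup_left : L.a ≤ L.a ⊔ maximalIdeal S ^ k)) (L.act_aug n i x u v s hs)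
      rw [map_sub, Ideal.Quotient.factor_mk, Ideal.map_map, Ideal.Quotient.factor_comp_mk] at h
      have hz : (maximalIdeal S ^ n).map (Ideal.Quotient.mk (L.a ⊔ maximalIdeal S ^ k)) = ⊥ := by
        rw [Ideal.map_eq_bot_iff_le_ker, Ideal.mk_ker]
        exact le_sup_of_le_right (Ideal.pow_le_pow_right (by omega))
      rw [hz, Ideal.mem_bot, sub_eq_zero] at h
      exact h
    have e3 : g (φL x) = g (L.φ n x) := by
      rw [← sub_eq_zero, ← map_sub]
      exact maximalIdeal_pow_le_ker g (Ideal.pow_le_pow_right (le_max_right _ _) (h4 x))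
    have e4 : Ideal.Quotient.mk (L.a ⊔ maximalIdeal S ^ k) s0 = g (φL x) u v := by
      simp only [g, RingHom.comp_apply, RingHom.mapMatrix_apply, Matrix.map_apply, ← hs0,
        Ideal.Quotient.factor_mk]
    rw [← Ideal.Quotient.mk_eq_mk_iff_sub_mem, e1, e2, e4, e3]
  · intro s hs
    refine eq_of_forall_sub_mem (maximalIdeal R) fun k => ?_
    obtain ⟨n, -, -, -, h3, h4⟩ := happ k
    have e1 : φL (jL s - L.j n s) ∈ maximalIdeal R ^ k := map_mem_pow φL hφLloc (h3 s)
    have e2 := h4 (L.j n s)
    rw [L.φ_j n s hs, sub_zero] at e2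
    have := add_mem e1 e2
    rw [map_sub, sub_add_cancel] at this
    rwa [sub_zero]

variable {L}

omit [IsAdicComplete (maximalIdeal P) P] [Finite ι] [Finite κ] [IsNoetherianRing R]
  [Finite (ResidueField R)] [IsAdicComplete (maximalIdeal R) R] [IsNoetherianRing P]
  [Finite (ResidueField P)] in
/-- What every level kills, the limit kills. -/
theorem Patched.act_eq_zero (Pt : L.Patched) {i : ι} {x : P} (h : ∀ n, L.act n i x = 0) :
    Pt.act i x = 0 := by
  ext u v
  refine eq_of_forall_sub_mem (maximalIdeal S) fun k => ?_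
  obtain ⟨n, -, h1, -⟩ := Pt.approx k
  simpa using h1 i x u v 0 (by rw [h n, map_zero]; rfl)

omit [IsAdicComplete (maximalIdeal P) P] [Finite ι] [Finite κ] [IsNoetherianRing R]
  [Finite (ResidueField R)] [IsAdicComplete (maximalIdeal R) R] [IsNoetherianRing P]
  [Finite (ResidueField P)] [IsNoetherianRing S] [Finite (ResidueField S)]
  [IsAdicComplete (maximalIdeal S) S] in
/-- An element killing the base level acts into `a`. -/
theorem Patched.act_mem_of_act0_eq_zero (Pt : L.Patched) {i : ι} {x : P}
    (h : L.act0 i (Pt.φ x) = 0) (u v : Fin (L.d i)) : Pt.act i x u v ∈ L.a := by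
  rw [← Ideal.Quotient.eq_zero_iff_mem]
  exact (congrFun (congrFun (Pt.act_aug i x) u) v).trans (by rw [h]; rfl)

end LevelSystem

end FA.Patch
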