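import Mathlib.RingTheory.AdicCompletion.Basic
import Mathlib.RingTheory.LocalRing.ResidueField.Basic
import Mathlib.RingTheory.Noetherian.Basic
import Mathlib.RingTheory.Nakayama
import Mathlib.RingTheory.Finiteness.Ideal
import Mathlib.RingTheory.Ideal.Quotient.Index
import Mathlib.Data.Matrix.Basic

/-!
# Compactness: limits of sequences of matrix representations of a complete local ring

The main result `FA.Patch.exists_limit` is the limiting process of Taylor–Wiles–Kisin patching:
from data at infinitely many levels, each only defined modulo an ideal `J n ⊆ 𝔪 ^ n`, it extracts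
honest data which modulo every power of the maximal ideal agrees with the data of some high level.
-/

set_option autoImplicit false

noncomputable section

open IsLocalRing

namespace FA.Patch

/-- König's lemma for a tower of finite sets. -/
theorem exists_compatible {F : ℕ → Type*} [∀ k, Finite (F k)] (r : ∀ k, F (k + 1) → F k)
    (a : ∀ n k, F k) (ha : ∀ n k, k < n → r k (a n (k + 1)) = a n k) :
    ∃ b : ∀ k, F k, (∀ k, r k (b (k + 1)) = b k) ∧ ∀ k, {n | a n k = b k}.Infinite := by
  classical
  have base : ∃ x : F 0, {n | a n 0 = x}.Infinite := by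
    obtain ⟨x, hx⟩ := Finite.exists_infinite_fiber (fun n => a n 0)
    exact ⟨x, Set.infinite_coe_iff.mp hx⟩
  have step : ∀ k (x : F k), {n | a n k = x}.Infinite →
      ∃ y : F (k + 1), r k y = x ∧ {n | a n (k + 1) = y}.Infinite := by
    intro k x hx
    have h' : ({n | a n k = x} ∩ {n | k < n}).Infinite := by
      refine (hx.sdiff (Set.finite_Iic k)).mono fun n hn => ⟨hn.1, ?_⟩
      simpa using hn.2
    have := h'.to_subtype
    obtain ⟨y, hy⟩ := Finite.exists_infinite_fiber
      (fun n : ({n | a n k = x} ∩ {n | k < n} : Set ℕ) => a n.1 (k + 1))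
    have hy' := Set.infinite_coe_iff.mp hy
    obtain ⟨n₀, hn₀⟩ := hy'.nonempty
    refine ⟨y, ?_, ?_⟩
    · have : a n₀.1 (k + 1) = y := hn₀
      rw [← this, ha _ _ n₀.2.2]
      exact n₀.2.1
    · refine (hy'.image (Subtype.val_injective.injOn)).mono ?_
      rintro _ ⟨n, hn, rfl⟩
      exact hn
  choose next hnext using step
  let b : ∀ k, {x : F k // {n | a n k = x}.Infinite} := fun k =>
    Nat.rec (motive := fun k => {x : F k // {n | a n k = x}.Infinite})
      ⟨base.choose, base.choose_spec⟩
      (fun k x => ⟨next k x.1 x.2, (hnext k x.1 x.2).2⟩) k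
  exact ⟨fun k => (b k).1, fun k => (hnext k (b k).1 (b k).2).1, fun k => (b k).2⟩

section Ring

variable {A : Type*} [CommRing A]

/-- A sequence which is Cauchy for the filtration by powers of `I` converges. -/
lemma exists_lim (I : Ideal A) [IsAdicComplete I A] (x : ℕ → A)
    (h : ∀ k, x (k + 1) - x k ∈ I ^ k) : ∃ L : A, ∀ k, L - x k ∈ I ^ k := by
  have hc : ∀ {m n : ℕ}, m ≤ n → x m ≡ x n [SMOD (I ^ m • ⊤ : Submodule A A)] := by
    intro m n hmn
    rw [SModEq.sub_mem, smul_eq_mul, Ideal.mul_top]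
    induction hmn with
    | refl => simp
    | @step b hab ih =>
      have hab' : m ≤ b := hab
      rw [show x m - x (b + 1) = (x m - x b) - (x (b + 1) - x b) by ring]
      exact sub_mem ih (Ideal.pow_le_pow_right hab' (h b))
  obtain ⟨L, hL⟩ := IsPrecomplete.prec' x hc
  refine ⟨L, fun k => ?_⟩
  have := hL k
  rw [SModEq.sub_mem, smul_eq_mul, Ideal.mul_top] at this
  simpa using neg_mem this

/-- Elements agreeing modulo every power of `I` are equal. -/
lemma eq_of_forall_sub_mem (I : Ideal A) [IsHausdorff I A] {a b : A}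
    (h : ∀ k, a - b ∈ I ^ k) : a = b := by
  rw [← sub_eq_zero]
  exact IsHausdorff.haus' (I := I) (a - b) fun k => by
    rw [SModEq.zero, smul_eq_mul, Ideal.mul_top]
    exact h k

/-- Powers of the maximal ideal have finite index. -/
lemma finite_quotient_pow (A : Type*) [CommRing A] [IsLocalRing A] [IsNoetherianRing A]
    [Finite (ResidueField A)] (k : ℕ) : Finite (A ⧸ maximalIdeal A ^ k) := by
  have : Finite (A ⧸ maximalIdeal A) := ‹Finite (ResidueField A)›
  exact Ideal.finite_quotient_pow (IsNoetherian.noetherian _) k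

end Ring

/-- A ring homomorphism from a local ring to a finite ring which kills no unit kills a power of
the maximal ideal bounded by the cardinality of the target. -/
lemma maximalIdeal_pow_le_ker {P : Type*} [CommRing P] [IsLocalRing P] [IsNoetherianRing P]
    {B : Type*} [Ring B] [Finite B] (f : P →+* B) :
    maximalIdeal P ^ Nat.card B ≤ RingHom.ker f := by
  classical
  -- the chain of images of the powers of the maximal ideal stabilises before `Nat.card B`
  let img : ℕ → Set B := fun i => f '' (maximalIdeal P ^ i : Ideal P)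
  have hanti : ∀ i, img (i + 1) ⊆ img i := fun i =>
    Set.image_mono (Ideal.pow_le_pow_right (Nat.le_succ i))
  obtain ⟨i, hi, heq⟩ : ∃ i, i < Nat.card B ∧ img (i + 1) = img i := by
    by_contra hcon
    push Not at hcon
    have hcard : ∀ i, i ≤ Nat.card B → (img i).ncard + i ≤ Nat.card B := by
      intro i hi
      induction i with
      | zero => simpa using Set.ncard_le_card _
      | succ i ih =>
        have h1 := ih (by omega)
        have h2 : (img (i + 1)).ncard < (img i).ncard :=
          Set.ncard_lt_ncard ((hanti i).ssubset_of_ne (hcon i (by omega))) (Set.toFinite _)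
        omega
    have h1 := hcard (Nat.card B) le_rfl
    have h2 : (img (Nat.card B)).Nonempty := ⟨f 0, 0, zero_mem _, rfl⟩
    have := (Set.ncard_pos (Set.toFinite _)).mpr h2
    omega
  -- Nakayama
  have hle : maximalIdeal P ^ i ≤ RingHom.ker f ⊔ maximalIdeal P • maximalIdeal P ^ i := by
    intro x hx
    obtain ⟨y, hy, hyx⟩ : f x ∈ img (i + 1) := heq ▸ ⟨x, hx, rfl⟩
    rw [← sub_add_cancel x y]
    refine Submodule.add_mem_sup (by simp [RingHom.mem_ker, hyx]) ?_
    rw [smul_eq_mul, ← pow_succ']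
    exact hy
  exact (Ideal.pow_le_pow_right hi.le).trans
    (Submodule.le_of_le_smul_of_le_jacobson_bot (IsNoetherian.noetherian _)
      (IsLocalRing.maximalIdeal_le_jacobson _) hle)

section Limit

variable {S P R : Type*} [CommRing S] [IsLocalRing S] [IsNoetherianRing S]
  [Finite (ResidueField S)] [IsAdicComplete (maximalIdeal S) S]
  [CommRing P] [IsLocalRing P] [IsNoetherianRing P] [Finite (ResidueField P)]
  [IsAdicComplete (maximalIdeal P) P]
  [CommRing R] [IsLocalRing R] [IsNoetherianRing R] [Finite (ResidueField R)]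
  [IsAdicComplete (maximalIdeal R) R]

/-- A homomorphism carrying the maximal ideal into the maximal ideal respects all its powers. -/
lemma map_mem_pow {A B : Type*} [CommRing A] [IsLocalRing A] [CommRing B] [IsLocalRing B]
    (f : A →+* B) (hf : ∀ x ∈ maximalIdeal A, f x ∈ maximalIdeal B) {k : ℕ} {x : A}
    (hx : x ∈ maximalIdeal A ^ k) : f x ∈ maximalIdeal B ^ k := by
  have h1 : maximalIdeal A ^ k ≤ Ideal.comap f (maximalIdeal B ^ k) :=
    le_trans (Ideal.pow_right_mono (fun y hy => hf y hy) k) (Ideal.le_comap_pow _ k)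
  exact h1 hx

/-- A representative of a class modulo a power of the maximal ideal. -/
lemma out_sub_mem {A : Type*} [CommRing A] (I : Ideal A) (x : A) :
    (Ideal.Quotient.mk I x).out - x ∈ I :=
  (Ideal.Quotient.mk_eq_mk_iff_sub_mem _ _).mp (Ideal.Quotient.mk_out _)

/-- A limit of ring homomorphisms whose values form a Cauchy sequence. -/
lemma exists_hom_lim {A B : Type*} [CommRing A] [CommRing B] (I : Ideal B) [IsAdicComplete I B]
    (f : ℕ → (A →+* B)) (h : ∀ x k, f (k + 1) x - f k x ∈ I ^ k) :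
    ∃ g : A →+* B, ∀ x k, g x - f k x ∈ I ^ k := by
  choose G hG using fun x => exists_lim I (fun k => f k x) (h x)
  have hlev : ∀ k x, Ideal.Quotient.mk (I ^ k) (G x) = Ideal.Quotient.mk _ (f k x) :=
    fun k x => (Ideal.Quotient.mk_eq_mk_iff_sub_mem _ _).mpr (hG x k)
  have heq : ∀ {u v : B}, (∀ k, Ideal.Quotient.mk (I ^ k) u = Ideal.Quotient.mk _ v) → u = v :=
    fun h => eq_of_forall_sub_mem I fun k => (Ideal.Quotient.mk_eq_mk_iff_sub_mem _ _).mp (h k)
  exact ⟨{
    toFun := G
    map_one' := heq fun k => by rw [hlev, map_one]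
    map_mul' := fun x y => heq fun k => by simp only [hlev, map_mul]
    map_zero' := heq fun k => by rw [hlev, map_zero]
    map_add' := fun x y => heq fun k => by simp only [hlev, map_add] }, hG⟩

/-- **Patching limit.** Level `n` carries representations `act n i` of `P` by matrices over
`S ⧸ J n` with `J n ≤ 𝔪 ^ n`, rectangular matrices `Y n t`, a map `ι n : S →+* P` (lifting the
scalars) and a map `φ n : P →+* R`. There is limit data which, modulo every power of the maximal
ideals, agrees with the data of some level of arbitrarily large index. -/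
theorem exists_limit {I κ : Type*} [Finite I] [Finite κ] {d : I → ℕ} {rows cols : κ → ℕ}
    (J : ℕ → Ideal S) (hJ : ∀ n, J n ≤ maximalIdeal S ^ n)
    (act : ∀ n i, P →+* Matrix (Fin (d i)) (Fin (d i)) (S ⧸ J n))
    (Y : ℕ → ∀ t, Matrix (Fin (rows t)) (Fin (cols t)) S)
    (j : ℕ → (S →+* P)) (hj : ∀ n, ∀ x ∈ maximalIdeal S, j n x ∈ maximalIdeal P)
    (φ : ℕ → (P →+* R)) (hφ : ∀ n, ∀ x ∈ maximalIdeal P, φ n x ∈ maximalIdeal R) :
    ∃ (actL : ∀ i, P →+* Matrix (Fin (d i)) (Fin (d i)) S)
      (YL : ∀ t, Matrix (Fin (rows t)) (Fin (cols t)) S) (jL : S →+* P) (φL : P →+* R),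
      ∀ k, ∃ n, k < n ∧
        (∀ i x a b, ∀ s : S, Ideal.Quotient.mk (J n) s = act n i x a b →
          actL i x a b - s ∈ maximalIdeal S ^ k) ∧
        (∀ t a b, YL t a b - Y n t a b ∈ maximalIdeal S ^ k) ∧
        (∀ s, jL s - j n s ∈ maximalIdeal P ^ k) ∧
        (∀ x, φL x - φ n x ∈ maximalIdeal R ^ k) := by
  classical
  let mS := maximalIdeal S
  let mP := maximalIdeal P
  let mR := maximalIdeal R
  have : ∀ k, Finite (S ⧸ mS ^ k) := finite_quotient_pow S
  have : ∀ k, Finite (R ⧸ mR ^ k) := finite_quotient_pow R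
  have : ∀ k, Finite (P ⧸ mP ^ k) := finite_quotient_pow P
  let B : ℕ → ℕ := fun k =>
    Nat.card (∀ i, Matrix (Fin (d i)) (Fin (d i)) (S ⧸ mS ^ k))
  -- the level data modulo `𝔪 ^ k`
  let red : ∀ n k, k ≤ n → P →+* ∀ i, Matrix (Fin (d i)) (Fin (d i)) (S ⧸ mS ^ k) := fun n k hk =>
    RingHom.pi fun i =>
      (Ideal.Quotient.factor ((hJ n).trans (Ideal.pow_le_pow_right hk))).mapMatrix.comp (act n i)
  have hred : ∀ n k hk, mP ^ B k ≤ RingHom.ker (red n k hk) := fun n k hk =>
    maximalIdeal_pow_le_ker _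
  -- finite sets recording it
  let Fk : ℕ → Type _ := fun k =>
    (P ⧸ mP ^ B k → ∀ i, Matrix (Fin (d i)) (Fin (d i)) (S ⧸ mS ^ k)) ×
      (∀ t, Matrix (Fin (rows t)) (Fin (cols t)) (S ⧸ mS ^ k)) ×
      (S ⧸ mS ^ k → P ⧸ mP ^ k) × (P ⧸ mP ^ k → R ⧸ mR ^ k)
  have hfin : ∀ k, Finite (Fk k) := fun k => inferInstance
  let a : ∀ n k, Fk k := fun n k =>
    (fun x => if hk : k ≤ n then red n k hk x.out else 0,
      fun t => (Y n t).map (Ideal.Quotient.mk (mS ^ k)),
      fun s => Ideal.Quotient.mk _ (j n s.out),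
      fun x => Ideal.Quotient.mk _ (φ n x.out))
  have hajj : ∀ n k (x : S), (a n k).2.2.1 (Ideal.Quotient.mk _ x) =
      Ideal.Quotient.mk (mP ^ k) (j n x) := fun n k x => by
    show Ideal.Quotient.mk _ _ = _
    rw [Ideal.Quotient.mk_eq_mk_iff_sub_mem, ← map_sub]
    exact map_mem_pow _ (hj n) (out_sub_mem _ x)
  have haR : ∀ n k (x : P), (a n k).2.2.2 (Ideal.Quotient.mk _ x) =
      Ideal.Quotient.mk (mR ^ k) (φ n x) := fun n k x => by
    show Ideal.Quotient.mk _ _ = _
    rw [Ideal.Quotient.mk_eq_mk_iff_sub_mem, ← map_sub]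
    exact map_mem_pow _ (hφ n) (out_sub_mem _ x)
  have haA : ∀ n k (hk : k ≤ n) (x : P),
      (a n k).1 (Ideal.Quotient.mk _ x) = red n k hk x := fun n k hk x => by
    show (if hk : k ≤ n then red n k hk _ else 0) = _
    rw [dif_pos hk, ← sub_eq_zero, ← map_sub]
    exact hred n k hk (out_sub_mem _ x)
  -- transition maps
  let q : ∀ k, S ⧸ mS ^ (k + 1) →+* S ⧸ mS ^ k := fun k =>
    Ideal.Quotient.factor (Ideal.pow_le_pow_right (Nat.le_succ k))
  let r : ∀ k, Fk (k + 1) → Fk k := fun k z =>
    (fun x i => (q k).mapMatrix (z.1 (Ideal.Quotient.mk _ x.out) i),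
      fun t => (z.2.1 t).map (q k),
      fun x => Ideal.Quotient.factor (Ideal.pow_le_pow_right (Nat.le_succ k))
        (z.2.2.1 (Ideal.Quotient.mk _ x.out)),
      fun x => Ideal.Quotient.factor (Ideal.pow_le_pow_right (Nat.le_succ k))
        (z.2.2.2 (Ideal.Quotient.mk _ x.out)))
  have ha : ∀ n k, k < n → r k (a n (k + 1)) = a n k := by
    intro n k hk
    refine Prod.ext (funext fun x => funext fun i => ?_) (Prod.ext (funext fun t => ?_)
      (Prod.ext (funext fun x => ?_) (funext fun x => ?_)))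
    · show (q k).mapMatrix ((a n (k + 1)).1 _ i) = _
      conv_rhs => rw [← Ideal.Quotient.mk_out x, haA n k hk.le]
      rw [haA n (k + 1) hk]
      ext u v
      simp [red, q, RingHom.pi_apply, Ideal.Quotient.factor_comp_apply]
    · ext u v
      show q k (Ideal.Quotient.mk (mS ^ (k + 1)) (Y n t u v)) =
        Ideal.Quotient.mk (mS ^ k) (Y n t u v)
      exact Ideal.Quotient.factor_mk (Ideal.pow_le_pow_right (Nat.le_succ k)) _
    · show Ideal.Quotient.factor _ ((a n (k + 1)).2.2.1 _) = _
      conv_rhs => rw [← Ideal.Quotient.mk_out x, hajj n k]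
      rw [hajj n (k + 1)]
      simp
    · show Ideal.Quotient.factor _ ((a n (k + 1)).2.2.2 _) = _
      conv_rhs => rw [← Ideal.Quotient.mk_out x, haR n k]
      rw [haR n (k + 1)]
      simp
  obtain ⟨b, hb, hinf⟩ := exists_compatible r a ha
  have hlev : ∀ k, ∃ n, k < n ∧ a n k = b k := fun k => by
    obtain ⟨n, hn, hkn⟩ := (hinf k).exists_gt k
    exact ⟨n, hkn, hn⟩
  choose lev hlev hlev_eq using hlev
  -- consecutive levels agree
  have hcons : ∀ k, a (lev (k + 1)) k = a (lev k) k := fun k => by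
    rw [hlev_eq k, ← ha _ _ (by have := hlev (k + 1); omega), hlev_eq (k + 1), hb k]
  -- lifts of the entries of the level representations
  let e : ℕ → ∀ i, P → Fin (d i) → Fin (d i) → S := fun k i x u v =>
    (Ideal.Quotient.mk_surjective (act (lev k) i x u v)).choose
  have he : ∀ k i x u v, Ideal.Quotient.mk (J (lev k)) (e k i x u v) = act (lev k) i x u v :=
    fun k i x u v => (Ideal.Quotient.mk_surjective (act (lev k) i x u v)).choose_spec
  have hecauchy : ∀ i x u v k, e (k + 1) i x u v - e k i x u v ∈ mS ^ k := by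
    intro i x u v k
    have h1 : k ≤ lev (k + 1) := by have := hlev (k + 1); omega
    have h2 : k ≤ lev k := (hlev k).le
    have := congrArg (fun z : Fk k => z.1 (Ideal.Quotient.mk _ x) i u v) (hcons k)
    simp only [haA _ k h1, haA _ k h2, red, RingHom.pi_apply, RingHom.comp_apply,
      RingHom.mapMatrix_apply, Matrix.map_apply, ← he, Ideal.Quotient.factor_mk] at this
    exact (Ideal.Quotient.mk_eq_mk_iff_sub_mem _ _).mp this
  choose L hL using fun i (x : P) u v => exists_lim mS (fun k => e k i x u v) (hecauchy i x u v)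
  have hLlev : ∀ k i (x : P), (Matrix.of fun u v => L i x u v).map (Ideal.Quotient.mk (mS ^ k)) =
      red (lev k) k (hlev k).le x i := by
    intro k i x
    ext u v
    simp only [red, RingHom.pi_apply, RingHom.mapMatrix_apply, RingHom.comp_apply, Matrix.map_apply,
      Matrix.of_apply, ← he, Ideal.Quotient.factor_mk]
    exact (Ideal.Quotient.mk_eq_mk_iff_sub_mem _ _).mpr (hL i x u v k)
  let rd : ∀ i k, Matrix (Fin (d i)) (Fin (d i)) S →+* Matrix (Fin (d i)) (Fin (d i)) (S ⧸ mS ^ k) :=
    fun i k => (Ideal.Quotient.mk (mS ^ k)).mapMatrix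
  have hmateq : ∀ {i} {M N : Matrix (Fin (d i)) (Fin (d i)) S}, (∀ k, rd i k M = rd i k N) →
      M = N := by
    intro i M N h
    ext u v
    refine eq_of_forall_sub_mem mS fun k => ?_
    exact (Ideal.Quotient.mk_eq_mk_iff_sub_mem _ _).mp (congrFun (congrFun (h k) u) v)
  have hrd : ∀ i k x, rd i k (Matrix.of fun u v => L i x u v) = red (lev k) k (hlev k).le x i :=
    fun i k x => hLlev k i x
  let actL : ∀ i, P →+* Matrix (Fin (d i)) (Fin (d i)) S := fun i =>
    { toFun := fun x => Matrix.of fun u v => L i x u v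
      map_one' := hmateq fun k => by rw [hrd, map_one, map_one]; rfl
      map_mul' := fun x y => hmateq fun k => by rw [hrd, map_mul, map_mul, hrd, hrd]; rfl
      map_zero' := hmateq fun k => by rw [hrd, map_zero, map_zero]; rfl
      map_add' := fun x y => hmateq fun k => by rw [hrd, map_add, map_add, hrd, hrd]; rfl }
  have hYc : ∀ t u v k, Y (lev (k + 1)) t u v - Y (lev k) t u v ∈ mS ^ k := fun t u v k =>
    (Ideal.Quotient.mk_eq_mk_iff_sub_mem _ _).mp
      (congrArg (fun z : Fk k => z.2.1 t u v) (hcons k))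
  choose YL hYL using fun t u v => exists_lim mS (fun k => Y (lev k) t u v) (hYc t u v)
  obtain ⟨jL, hjL⟩ := exists_hom_lim mP (fun k => j (lev k)) fun x k => by
    have := congrArg (fun z : Fk k => z.2.2.1 (Ideal.Quotient.mk _ x)) (hcons k)
    simp only [hajj] at this
    exact (Ideal.Quotient.mk_eq_mk_iff_sub_mem _ _).mp this
  obtain ⟨φL, hφL⟩ := exists_hom_lim mR (fun k => φ (lev k)) fun x k => by
    have := congrArg (fun z : Fk k => z.2.2.2 (Ideal.Quotient.mk _ x)) (hcons k)
    simp only [haR] at this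
    exact (Ideal.Quotient.mk_eq_mk_iff_sub_mem _ _).mp this
  refine ⟨actL, fun t => Matrix.of (YL t), jL, φL, fun k =>
    ⟨lev k, hlev k, ?_, fun t u v => hYL t u v k, fun x => hjL x k, fun x => hφL x k⟩⟩
  intro i x u v c hc
  have h1 : L i x u v - e k i x u v ∈ mS ^ k := hL i x u v k
  have h2 : e k i x u v - c ∈ mS ^ k :=
    (hJ _).trans (Ideal.pow_le_pow_right (hlev k).le)
      ((Ideal.Quotient.mk_eq_mk_iff_sub_mem _ _).mp ((he k i x u v).trans hc.symm))
  have := add_mem h1 h2
  rwa [sub_add_sub_cancel] at this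

omit [IsNoetherianRing R] [Finite (ResidueField R)] in
/-- If maps `φ n` are surjective and `φL` is a limit of them, `φL` is surjective. -/
theorem surjective_of_limit (φL : P →+* R) (φ : ℕ → (P →+* R))
    (hsurj : ∀ n, Function.Surjective (φ n))
    (hlim : ∀ k, ∃ n, k < n ∧ ∀ x, φL x - φ n x ∈ maximalIdeal R ^ k) :
    Function.Surjective φL := by
  classical
  intro y
  have : ∀ k, Finite (P ⧸ maximalIdeal P ^ k) := finite_quotient_pow P
  have hpre : ∀ k, ∃ x, φL x - y ∈ maximalIdeal R ^ k := fun k => by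
    obtain ⟨n, -, hn⟩ := hlim k
    obtain ⟨x, hx⟩ := hsurj n y
    exact ⟨x, hx ▸ hn x⟩
  choose x hx using hpre
  let r : ∀ k, P ⧸ maximalIdeal P ^ (k + 1) → P ⧸ maximalIdeal P ^ k := fun k =>
    Ideal.Quotient.factor (Ideal.pow_le_pow_right (Nat.le_succ k))
  obtain ⟨b, hb, hinf⟩ := exists_compatible r (fun n k => Ideal.Quotient.mk _ (x n))
    (fun n k _ => Ideal.Quotient.factor_mk _ _)
  have hlev : ∀ k, ∃ n, k < n ∧ Ideal.Quotient.mk (maximalIdeal P ^ k) (x n) = b k := fun k => by
    obtain ⟨n, hn, hkn⟩ := (hinf k).exists_gt k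
    exact ⟨n, hkn, hn⟩
  choose lev hlev hlev_eq using hlev
  obtain ⟨z, hz⟩ := exists_lim (maximalIdeal P) (fun k => x (lev k)) fun k => by
    refine (Ideal.Quotient.mk_eq_mk_iff_sub_mem _ _).mp ?_
    rw [hlev_eq k, ← hb k, ← hlev_eq (k + 1)]
    exact (Ideal.Quotient.factor_mk _ _).symm
  have hloc : ∀ w ∈ maximalIdeal P, φL w ∈ maximalIdeal R := by
    intro w hw
    obtain ⟨n, -, hn⟩ := hlim 1
    have : IsLocalHom (φ n) := IsLocalHom.of_surjective _ (hsurj n)
    have h1 : φ n w ∈ maximalIdeal R := by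
      simp only [IsLocalRing.mem_maximalIdeal, mem_nonunits_iff] at hw ⊢
      exact fun h => hw ((isUnit_map_iff (φ n) w).mp h)
    simpa using add_mem (by simpa using hn w : φL w - φ n w ∈ maximalIdeal R) h1
  refine ⟨z, eq_of_forall_sub_mem (maximalIdeal R) fun k => ?_⟩
  have h1 : φL (z - x (lev k)) ∈ maximalIdeal R ^ k :=
    (Ideal.pow_right_mono hloc k |>.trans (Ideal.le_comap_pow _ k)) (hz k)
  have := add_mem h1 (Ideal.pow_le_pow_right (hlev k).le (hx (lev k)))
  rwa [map_sub, sub_add_sub_cancel] at this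

end Limit

end FA.Patch
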