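import Fermat.Agent.Patch.LevelData
import Mathlib.Data.Matrix.Block

/-!
# Consequences of patching

* primes above a supported component satisfy the relations of the base level (`mem_of_act0_eq_zero`);
* entrywise congruences between the representations pass to the limit;
* a prime of the support of a block triangular representation is in the support of a diagonal block.
-/

set_option autoImplicit false

noncomputable section

open IsLocalRing

namespace FA.Patch

/-- Ideals of a noetherian local ring are closed. -/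
theorem mem_of_forall_mem_sup_pow {S : Type*} [CommRing S] [IsLocalRing S] [IsNoetherianRing S]
    {b : Ideal S} {z : S} (hz : ∀ k, z ∈ b ⊔ maximalIdeal S ^ k) : z ∈ b := by
  by_cases htop : b = ⊤
  · rw [htop]; trivial
  have : Nontrivial (S ⧸ b) := Ideal.Quotient.nontrivial_iff.mpr htop
  have : IsLocalRing (S ⧸ b) :=
    IsLocalRing.of_surjective' (Ideal.Quotient.mk b) Ideal.Quotient.mk_surjective
  rw [← Ideal.Quotient.eq_zero_iff_mem]
  have hI : (maximalIdeal S).map (Ideal.Quotient.mk b) ≠ ⊤ := by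
    intro h
    have := congrArg (Ideal.comap (Ideal.Quotient.mk b)) h
    rw [Ideal.comap_map_of_surjective _ Ideal.Quotient.mk_surjective, Ideal.comap_top,
      ← RingHom.ker_eq_comap_bot, Ideal.mk_ker] at this
    exact (maximalIdeal.isMaximal S).ne_top
      (top_le_iff.mp (this.ge.trans (sup_le le_rfl (IsLocalRing.le_maximalIdeal htop))))
  have hk : Ideal.Quotient.mk b z ∈ ⨅ k : ℕ, (maximalIdeal S).map (Ideal.Quotient.mk b) ^ k := by
    rw [Ideal.mem_iInf]
    intro k
    rw [← Ideal.map_pow]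
    obtain ⟨z1, hz1, z2, hz2, rfl⟩ := Submodule.mem_sup.mp (hz k)
    rw [map_add, Ideal.Quotient.eq_zero_iff_mem.mpr hz1, zero_add]
    exact Ideal.mem_map_of_mem _ hz2
  rwa [Ideal.iInf_pow_eq_bot_of_isLocalRing _ hI, Ideal.mem_bot] at hk

namespace LevelSystem.Patched

variable {S P R : Type*} [CommRing S] [IsLocalRing S] [CommRing P] [IsLocalRing P] [CommRing R]
  [IsLocalRing R] {ι κ : Type*} {L : LevelSystem S P R ι κ} (Pt : L.Patched)

/-- A prime of the support lying over the base satisfies the relations of the base level. -/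
theorem mem_of_act0_eq_zero {i : ι} {Q : Ideal P} [Q.IsPrime]
    (hker : RingHom.ker (Pt.act i) ≤ Q) (ha : L.a.map Pt.j ≤ Q) {x : P}
    (hx : L.act0 i (Pt.φ x) = 0) : x ∈ Q :=
  (Ideal.IsPrime.radical_le_iff (by assumption)).mpr (sup_le hker ha)
    ((Pt.isScalarLift i).mem_radical_of_act_mem L.a fun u v => Pt.act_mem_of_act0_eq_zero hx u v)

/-- The variables of the base kernel lie in every prime coming from the base ring. -/
theorem map_j_le_comap (q : Ideal R) : L.a.map Pt.j ≤ q.comap Pt.φ :=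
  Ideal.map_le_iff_le_comap.mpr fun s hs => by
    rw [Ideal.mem_comap, Ideal.mem_comap, Pt.φ_j s hs]
    exact zero_mem _

/-- **Modularity criterion.** A prime of the base ring above a point of the support contains the
kernel of the base action. -/
theorem ker_act0_le {i : ι} {q : Ideal R} [q.IsPrime]
    (hker : RingHom.ker (Pt.act i) ≤ q.comap Pt.φ) : RingHom.ker (L.act0 i) ≤ q := by
  intro r hr
  obtain ⟨x, rfl⟩ := Pt.φ_surjective r
  exact Pt.mem_of_act0_eq_zero hker (Pt.map_j_le_comap q) hr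

variable [IsNoetherianRing S]

/-- Entrywise congruences between two levelwise representations pass to the limit. -/
theorem act_sub_act_mem (b : Ideal S) {i i' : ι} {x x' : P} {u v : Fin (L.d i)}
    {u' v' : Fin (L.d i')}
    (h : ∀ n, ∀ s s' : S, Ideal.Quotient.mk _ s = L.act n i x u v →
      Ideal.Quotient.mk _ s' = L.act n i' x' u' v' → s - s' ∈ b ⊔ maximalIdeal S ^ n) :
    Pt.act i x u v - Pt.act i' x' u' v' ∈ b := by
  refine mem_of_forall_mem_sup_pow fun k => ?_
  obtain ⟨n, hn, h1, -⟩ := Pt.approx k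
  obtain ⟨s, hs⟩ := Ideal.Quotient.mk_surjective (L.act n i x u v)
  obtain ⟨s', hs'⟩ := Ideal.Quotient.mk_surjective (L.act n i' x' u' v')
  have e := sup_le_sup_left (Ideal.pow_le_pow_right (I := maximalIdeal S) hn.le) b
    (h n s s' hs hs')
  have e1 : Pt.act i x u v - s ∈ b ⊔ maximalIdeal S ^ k := Ideal.mem_sup_right (h1 i x u v s hs)
  have e2 : Pt.act i' x' u' v' - s' ∈ b ⊔ maximalIdeal S ^ k :=
    Ideal.mem_sup_right (h1 i' x' u' v' s' hs')
  have := add_mem (sub_mem e1 e2) e
  rwa [show Pt.act i x u v - s - (Pt.act i' x' u' v' - s') + (s - s') =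
    Pt.act i x u v - Pt.act i' x' u' v' by ring] at this

/-- Vanishing of an entry at every level passes to the limit. -/
theorem act_apply_eq_zero {i : ι} {x : P} {u v : Fin (L.d i)}
    (h : ∀ n, L.act n i x u v = 0) : Pt.act i x u v = 0 := by
  rw [← Ideal.mem_bot]
  refine mem_of_forall_mem_sup_pow fun k => ?_
  obtain ⟨n, hn, h1, -⟩ := Pt.approx k
  simpa using h1 i x u v 0 (by rw [h n, map_zero])

/-- If, at every level, `i` is block triangular with diagonal blocks `i₁`, `i₂`, the support of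
`i` is contained in the union of the supports of the blocks. -/
theorem le_or_le_of_block {i i₁ i₂ : ι} (e : Fin (L.d i₁) ⊕ Fin (L.d i₂) ≃ Fin (L.d i))
    (h₂₁ : ∀ n x v u, L.act n i x (e (.inr v)) (e (.inl u)) = 0)
    (h₁ : ∀ n x u u', L.act n i x (e (.inl u)) (e (.inl u')) = L.act n i₁ x u u')
    (h₂ : ∀ n x v v', L.act n i x (e (.inr v)) (e (.inr v')) = L.act n i₂ x v v')
    {Q : Ideal P} [hQ : Q.IsPrime] (hker : RingHom.ker (Pt.act i) ≤ Q) :
    RingHom.ker (Pt.act i₁) ≤ Q ∨ RingHom.ker (Pt.act i₂) ≤ Q := by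
  have hzero : ∀ x v u, Pt.act i x (e (.inr v)) (e (.inl u)) = 0 := fun x v u =>
    Pt.act_apply_eq_zero fun n => h₂₁ n x v u
  have hd₁ : ∀ x u u', Pt.act i x (e (.inl u)) (e (.inl u')) = Pt.act i₁ x u u' := fun x u u' => by
    rw [← sub_eq_zero, ← Ideal.mem_bot]
    refine Pt.act_sub_act_mem ⊥ fun n s s' hs hs' => Ideal.mem_sup_right ?_
    rw [← Ideal.Quotient.mk_eq_mk_iff_sub_mem, hs, hs', h₁]
  have hd₂ : ∀ x v v', Pt.act i x (e (.inr v)) (e (.inr v')) = Pt.act i₂ x v v' := fun x v v' => by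
    rw [← sub_eq_zero, ← Ideal.mem_bot]
    refine Pt.act_sub_act_mem ⊥ fun n s s' hs hs' => Ideal.mem_sup_right ?_
    rw [← Ideal.Quotient.mk_eq_mk_iff_sub_mem, hs, hs', h₂]
  by_contra hcon
  simp only [not_or, SetLike.not_le_iff_exists] at hcon
  obtain ⟨⟨x, hx, hxQ⟩, y, hy, hyQ⟩ := hcon
  have hblock : ∀ z, (Pt.act i z).submatrix e e =
      Matrix.fromBlocks (Pt.act i₁ z) ((Pt.act i z).submatrix (e ∘ .inl) (e ∘ .inr)) 0
        (Pt.act i₂ z) := by
    intro z
    ext (a | a) (b | b) <;> simp [hzero, hd₁, hd₂]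
  have hxy : Pt.act i (x * y) = 0 := by
    have hm : (Pt.act i (x * y)).submatrix e e = 0 := by
      rw [map_mul, ← Matrix.submatrix_mul_equiv _ _ e e e, hblock, hblock,
        Matrix.fromBlocks_multiply]
      rw [RingHom.mem_ker.mp hx, RingHom.mem_ker.mp hy]
      simp [Matrix.fromBlocks_zero]
    ext a b
    simpa using congrFun (congrFun hm (e.symm a)) (e.symm b)
  exact (hQ.mem_or_mem (hker hxy)).elim hxQ hyQ

omit [IsNoetherianRing S] in
/-- A prime in the support gives a nonzero rank. -/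
theorem d_ne_zero {i : ι} {Q : Ideal P} [Q.IsPrime] (hker : RingHom.ker (Pt.act i) ≤ Q) :
    L.d i ≠ 0 := by
  intro h0
  refine Ideal.IsPrime.ne_top (by assumption) (top_le_iff.mp (fun x _ => hker ?_))
  rw [RingHom.mem_ker]
  ext u
  exact absurd u.2 (by omega)

end LevelSystem.Patched

end FA.Patch
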