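import Fermat.Agent.Patch.SocleCI
import Mathlib.RingTheory.DiscreteValuationRing.Basic
import Mathlib.RingTheory.LocalRing.ResidueField.Basic
import Mathlib.RingTheory.Finiteness.Nakayama
import Mathlib.RingTheory.Nakayama
import Mathlib.RingTheory.HopkinsLevitzki
import Mathlib.RingTheory.Polynomial.Basic
import Mathlib.RingTheory.IntegralClosure.IsIntegralClosure.Basic
import Mathlib.RingTheory.Noetherian.Basic
import Mathlib.LinearAlgebra.FreeModule.Finite.Basic
import Mathlib.LinearAlgebra.Dimension.StrongRankCondition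

/-!
# The numerical criterion

`R` is a local `O`-algebra with an augmentation `π`, acting on a finite free `O`-module `H`.
If the cotangent space of `π` is killed by the lattice spanned by the rows of `L` and some vector
of `H` is congruent to an eigenvector to the depth `det L`, then `R` acts faithfully on `H`.
-/

set_option autoImplicit false

noncomputable section

open IsLocalRing MvPolynomial

namespace FA.Patch

variable {O : Type*} [CommRing O] [IsDomain O] [IsDiscreteValuationRing O]
variable {R : Type*} [CommRing R] [IsLocalRing R] [Algebra O R]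
variable {k : ℕ}

/-- In a finite-dimensional quotient the powers of a proper ideal of a local ring die. -/
lemma exists_pow_smul_le_bot {V : Type*} [AddCommGroup V] [Module R V] [IsArtinian R V]
    [Module.Finite R V] (I : Ideal R) (hI : I ≤ maximalIdeal R) :
    ∃ n : ℕ, I ^ n • (⊤ : Submodule R V) = ⊥ := by
  obtain ⟨n, hn⟩ := IsArtinian.monotone_stabilizes (R := R) (M := V)
    ⟨fun n => OrderDual.toDual (maximalIdeal R ^ n • (⊤ : Submodule R V)), fun a b hab =>
      Submodule.smul_mono (Ideal.pow_le_pow_right hab) le_rfl⟩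
  refine ⟨n, _root_.le_bot_iff.mp ((Submodule.smul_mono (Ideal.pow_right_mono hI n) le_rfl).trans ?_)⟩
  have : IsNoetherian R V := isNoetherian_of_finite_isArtinian V
  refine le_of_eq (Submodule.eq_bot_of_le_smul_of_le_jacobson_bot (maximalIdeal R) _
    (IsNoetherian.noetherian _) ?_ (IsLocalRing.maximalIdeal_le_jacobson _))
  rw [← mul_smul, ← pow_succ']
  exact le_of_eq (hn (n + 1) (Nat.le_succ n))

variable (π : R →ₐ[O] O) {x : Fin k → R} (hx : RingHom.ker π = Ideal.span (Set.range x))

omit [IsDomain O] [IsDiscreteValuationRing O] [IsLocalRing R] in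
include hx in
lemma sub_algebraMap_mem (z : R) : z - algebraMap O R (π z) ∈ Ideal.span (Set.range x) := by
  rw [← hx, RingHom.mem_ker]
  simp

include hx in
/-- Polynomials in the generators fill every quotient which is finite over `O`. -/
lemma exists_poly_sub_mem (J : Ideal R) [Module.Finite O (R ⧸ J)] (z : R) :
    ∃ F : MvPolynomial (Fin k) O, z - MvPolynomial.aeval x F ∈ J := by
  let q : R →ₐ[O] R ⧸ J := Ideal.Quotient.mkₐ O J
  let N : Submodule O (R ⧸ J) := Subalgebra.toSubmodule ((q.comp (MvPolynomial.aeval x)).range)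
  suffices hN : N = ⊤ by
    have : q z ∈ N := hN ▸ Submodule.mem_top
    obtain ⟨F, hF⟩ := this
    exact ⟨F, (Ideal.Quotient.mk_eq_mk_iff_sub_mem _ _).mp hF.symm⟩
  obtain ⟨ϖ, hϖ⟩ := IsDiscreteValuationRing.exists_irreducible O
  let ℘ : Ideal R := Ideal.span (Set.range x)
  have h℘ : ℘ ≤ maximalIdeal R :=
    IsLocalRing.le_maximalIdeal (show Ideal.span (Set.range x) ≠ ⊤ by
      rw [← hx]; exact RingHom.ker_ne_top π.toRingHom)
  -- `R = O + ℘`, iterated
  have hpow : ∀ n : ℕ, ℘ ^ n = Submodule.span R ((fun F => MvPolynomial.aeval x F) ''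
      ((MvPolynomial.idealOfVars (Fin k) O ^ n : Ideal (MvPolynomial (Fin k) O)) :
        Set (MvPolynomial (Fin k) O))) := by
    intro n
    show _ = Ideal.map (MvPolynomial.aeval x) (MvPolynomial.idealOfVars (Fin k) O ^ n)
    rw [Ideal.map_pow, MvPolynomial.idealOfVars, Ideal.map_span, ← Set.range_comp]
    congr 1
    show Ideal.span (Set.range x) = _
    congr 2
    funext i
    exact (MvPolynomial.aeval_X x i).symm
  have step : ∀ n : ℕ, ∀ w : R, ∃ v ∈ ℘ ^ n, q (w - v) ∈ N := by
    intro n
    induction n with
    | zero => exact fun w => ⟨w, by simp, by simp [N]⟩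
    | succ n ih =>
      intro w
      obtain ⟨v, hv, hvN⟩ := ih w
      rw [hpow n] at hv
      obtain ⟨v', hv', hvv'⟩ : ∃ v' ∈ ℘ ^ (n + 1), q (v - v') ∈ N := by
        refine Submodule.span_induction (p := fun v _ => ∃ v' ∈ ℘ ^ (n + 1), q (v - v') ∈ N)
          ?_ ?_ ?_ ?_ hv
        · rintro _ ⟨F, -, rfl⟩
          exact ⟨0, zero_mem _, by rw [sub_zero]; exact ⟨F, rfl⟩⟩
        · exact ⟨0, zero_mem _, by simp [N]⟩
        · rintro a b - - ⟨a', ha', haN⟩ ⟨b', hb', hbN⟩
          refine ⟨a' + b', add_mem ha' hb', ?_⟩
          rw [add_sub_add_comm, map_add]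
          exact add_mem haN hbN
        · rintro c a hamem ⟨a', ha', haN⟩
          refine ⟨(c - algebraMap O R (π c)) * a + π c • a', add_mem ?_ ?_, ?_⟩
          · rw [pow_succ']
            refine Ideal.mul_mem_mul (sub_algebraMap_mem π hx c) ?_
            rw [hpow n]
            exact hamem
          · rw [Algebra.smul_def]
            exact Ideal.mul_mem_left _ _ ha'
          · have e1 : c • a - ((c - algebraMap O R (π c)) * a + π c • a') = π c • (a - a') := by
              simp only [Algebra.smul_def, smul_eq_mul, Algebra.algebraMap_self, RingHom.id_apply]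
              ring
            rw [e1, map_smul]
            exact N.smul_mem _ haN
      refine ⟨v', hv', ?_⟩
      rw [show w - v' = (w - v) + (v - v') by ring, map_add]
      exact add_mem hvN hvv'
  -- the powers of `℘` die modulo `ϖ`
  rw [_root_.eq_top_iff]
  refine Submodule.le_of_le_smul_of_le_jacobson_bot (Module.finite_def.mp inferInstance)
    (IsLocalRing.maximalIdeal_le_jacobson (⊥ : Ideal O)) ?_
  rintro w -
  obtain ⟨z, rfl⟩ := Ideal.Quotient.mk_surjective w
  let J' : Ideal R := J ⊔ Ideal.span {algebraMap O R ϖ}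
  have : Module.Finite O (R ⧸ J') :=
    Module.Finite.of_surjective (Ideal.Quotient.factorₐ O (le_sup_left : J ≤ J')).toLinearMap
      (Ideal.Quotient.factor_surjective (le_sup_left : J ≤ J'))
  have hart : IsArtinian R (R ⧸ J') := by
    have hO : IsArtinian O (R ⧸ J') := by
      let mO := maximalIdeal O
      have htors : Module.IsTorsionBySet O (R ⧸ J') (mO : Set O) := by
        intro w a
        obtain ⟨r, rfl⟩ := Ideal.Quotient.mk_surjective w
        obtain ⟨c, hc⟩ := Ideal.mem_span_singleton.mp
          (show (a : O) ∈ Ideal.span {ϖ} from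
            (IsDiscreteValuationRing.irreducible_iff_uniformizer ϖ).mp hϖ ▸ a.2)
        rw [hc, ← Ideal.Quotient.mkₐ_eq_mk O, ← map_smul, Ideal.Quotient.mkₐ_eq_mk,
          Ideal.Quotient.eq_zero_iff_mem, Algebra.smul_def, map_mul, mul_assoc]
        exact Ideal.mul_mem_right _ _ (Submodule.mem_sup_right (Ideal.mem_span_singleton_self _))
      let : Module (O ⧸ mO) (R ⧸ J') := htors.module
      have : IsScalarTower O (O ⧸ mO) (R ⧸ J') := htors.isScalarTower
      let : Field (O ⧸ mO) := Ideal.Quotient.field mO
      have : Module.Finite (O ⧸ mO) (R ⧸ J') := Module.Finite.of_restrictScalars_finite O _ _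
      have h0 : IsArtinian (O ⧸ mO) (R ⧸ J') := inferInstance
      exact isArtinian_of_surjective_algebraMap (Ideal.Quotient.mk_surjective (I := mO))
    exact isArtinian_of_tower O hO
  obtain ⟨n, hn⟩ := exists_pow_smul_le_bot (V := R ⧸ J') ℘ h℘
  obtain ⟨v, hv, hvN⟩ := step n z
  have hvJ : v ∈ J' := by
    have h1 : v • (1 : R ⧸ J') ∈ ℘ ^ n • (⊤ : Submodule R (R ⧸ J')) :=
      Submodule.smul_mem_smul hv trivial
    rw [hn, Submodule.mem_bot] at h1
    rwa [Algebra.smul_def, mul_one, Ideal.Quotient.algebraMap_eq,
      Ideal.Quotient.eq_zero_iff_mem] at h1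
  obtain ⟨u, hu, v', hv', rfl⟩ := Submodule.mem_sup.mp hvJ
  obtain ⟨c, rfl⟩ := Ideal.mem_span_singleton'.mp hv'
  have hz : Ideal.Quotient.mk J z = q (z - (u + c * algebraMap O R ϖ)) + ϖ • q c := by
    show q z = _
    rw [← map_smul, ← map_add, Algebra.smul_def]
    refine ((Ideal.Quotient.mk_eq_mk_iff_sub_mem _ _).mpr ?_)
    convert hu using 1
    ring
  rw [hz]
  exact Submodule.add_mem_sup hvN (Submodule.smul_mem_smul
    ((IsDiscreteValuationRing.irreducible_iff_uniformizer ϖ).mp hϖ ▸ Ideal.mem_span_singleton_self ϖ)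
    trivial)

include hx in
/-- Elements of `℘ ^ n` are polynomials without terms of degree `< n`. -/
lemma exists_poly_pow_sub_mem (J : Ideal R) [Module.Finite O (R ⧸ J)] (n : ℕ) {z : R}
    (hz : z ∈ Ideal.span (Set.range x) ^ n) :
    ∃ G ∈ MvPolynomial.idealOfVars (Fin k) O ^ n, z - MvPolynomial.aeval x G ∈ J := by
  let q : MvPolynomial (Fin k) O →+* R ⧸ J :=
    (Ideal.Quotient.mk J).comp (MvPolynomial.aeval (R := O) x).toRingHom
  have hsurj : Function.Surjective q := by
    intro w
    obtain ⟨r, rfl⟩ := Ideal.Quotient.mk_surjective w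
    obtain ⟨F, hF⟩ := exists_poly_sub_mem π hx J r
    exact ⟨F, ((Ideal.Quotient.mk_eq_mk_iff_sub_mem _ _).mpr hF).symm⟩
  have hmap : Ideal.map q (MvPolynomial.idealOfVars (Fin k) O ^ n) =
      (Ideal.span (Set.range x) ^ n).map (Ideal.Quotient.mk J) := by
    rw [Ideal.map_pow, MvPolynomial.idealOfVars, Ideal.map_span, Ideal.map_pow, Ideal.map_span,
      ← Set.range_comp, ← Set.range_comp]
    congr 3
    ext i
    simp [q]
  have h1 : Ideal.Quotient.mk J z ∈ Ideal.map q (MvPolynomial.idealOfVars (Fin k) O ^ n) :=
    hmap ▸ Ideal.mem_map_of_mem _ hz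
  obtain ⟨G, hG, hGz⟩ := (Ideal.mem_map_iff_of_surjective q hsurj).mp h1
  exact ⟨G, hG, (Ideal.Quotient.mk_eq_mk_iff_sub_mem _ _).mp hGz.symm⟩

omit [IsDomain O] [IsDiscreteValuationRing O] in
/-- Write a polynomial of small degree without constant term as `∑ r j * X j`. -/
lemma exists_lower_coeffs {e : ℕ} {g : MvPolynomial (Fin k) O} (h0 : constantCoeff g = 0)
    (hdeg : g.totalDegree < e) (he : 1 < e) :
    ∃ r : Fin k → MvPolynomial (Fin k) O, (∀ j, (r j).totalDegree + 1 < e) ∧
      g = ∑ j, r j * X j := by
  classical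
  let W : Submodule O (MvPolynomial (Fin k) O) :=
    { carrier := {g | ∃ r : Fin k → MvPolynomial (Fin k) O,
        (∀ j, (r j).totalDegree + 1 < e) ∧ g = ∑ j, r j * X j}
      add_mem' := by
        rintro a b ⟨r, hr, rfl⟩ ⟨s, hs, rfl⟩
        refine ⟨r + s, fun j => ?_, by simp [add_mul, Finset.sum_add_distrib]⟩
        have := totalDegree_add (r j) (s j)
        have := hr j
        have := hs j
        simp only [Pi.add_apply]
        omega
      zero_mem' := ⟨0, fun j => by simpa using he, by simp⟩
      smul_mem' := by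
        rintro c a ⟨r, hr, rfl⟩
        refine ⟨fun j => c • r j, fun j => ?_, by simp [Finset.smul_sum, smul_mul_assoc]⟩
        have := totalDegree_smul_le c (r j)
        have := hr j
        show (c • r j).totalDegree + 1 < e
        omega }
  show g ∈ W
  rw [as_sum g]
  refine Submodule.sum_mem _ fun m hm => ?_
  have hdm : Finsupp.degree m < e := by
    have := le_totalDegree hm
    rw [Finsupp.sum_fintype _ _ (fun _ => rfl)] at this
    rw [Finsupp.degree_eq_sum]
    omega
  have hm0 : m ≠ 0 := by
    rintro rfl
    exact mem_support_iff.mp hm h0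
  obtain ⟨i, hi⟩ : ∃ i, m i ≠ 0 := by
    by_contra hcon
    push Not at hcon
    exact hm0 (Finsupp.ext hcon)
  have hle : Finsupp.single i 1 ≤ m := Finsupp.single_le_iff.mpr (Nat.one_le_iff_ne_zero.mpr hi)
  refine ⟨Pi.single i (monomial (m - Finsupp.single i 1) (coeff m g)), fun j => ?_, ?_⟩
  · by_cases hji : j = i
    · subst hji
      rw [Pi.single_eq_same]
      refine lt_of_le_of_lt (Nat.add_le_add_right (totalDegree_monomial_le _ _) 1) ?_
      rw [Finsupp.sum_fintype _ _ (fun _ => rfl)]
      simp only [id_eq]
      rw [← Finsupp.degree_eq_sum]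
      have := congrArg Finsupp.degree (tsub_add_cancel_of_le hle)
      rw [map_add, Finsupp.degree_single] at this
      omega
    · rw [Pi.single_eq_of_ne hji]
      simpa using he
  · rw [Finset.sum_eq_single i]
    · rw [Pi.single_eq_same, X, monomial_mul, mul_one, tsub_add_cancel_of_le hle]
    · intro j _ hj
      simp [Pi.single_eq_of_ne hj]
    · simp

variable {H : Type*} [AddCommGroup H] [Module O H] [Module R H] [IsScalarTower O R H]

/-- The congruence hypothesis: the vector `v` killed by `℘` is, up to the part of `H` prime to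
`℘`, `η` times a vector of `H`. -/
def IsCongruent (x : Fin k → R) (η : O) (v : H) : Prop :=
  ∃ h : H, ∀ r : R, (∀ j, ∀ w : H, r • x j • w = 0) → π r • v = η • (r • h)

variable [Module.Free O H] [Module.Finite O H] [IsNoetherianRing R]

include hx in
/-- **Numerical criterion.** -/
theorem annihilator_eq_bot_of_isCongruent (L : Matrix (Fin k) (Fin k) O) (hdet : L.det ≠ 0)
    (hL : ∀ i, (∑ j, algebraMap O R (L i j) * x j) ∈ Ideal.span (Set.range x) ^ 2)
    {v : H} (hv : v ∉ maximalIdeal O • (⊤ : Submodule O H)) (hvcong : IsCongruent π x L.det v) :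
    Module.annihilator R H = ⊥ := by
  classical
  obtain ⟨ϖ, hϖ⟩ := IsDiscreteValuationRing.exists_irreducible O
  have hmax := (IsDiscreteValuationRing.irreducible_iff_uniformizer ϖ).mp hϖ
  let ℘ : Ideal R := Ideal.span (Set.range x)
  have h℘ : ℘ ≤ maximalIdeal R :=
    IsLocalRing.le_maximalIdeal (show Ideal.span (Set.range x) ≠ ⊤ by
      rw [← hx]; exact RingHom.ker_ne_top π.toRingHom)
  let K : Ideal R := Module.annihilator R H
  let ev : MvPolynomial (Fin k) O →ₐ[O] R := MvPolynomial.aeval x
  let act : R →ₐ[O] Module.End O H := Algebra.lsmul O O H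
  have hKact : ∀ z, z ∈ K ↔ act z = 0 := fun z => by
    show z ∈ Module.annihilator R H ↔ _
    rw [Module.mem_annihilator, LinearMap.ext_iff]
    rfl
  have hfinK : Module.Finite O (R ⧸ K) := by
    let g : (R ⧸ K) →ₗ[O] Module.End O H :=
      (Ideal.Quotient.liftₐ K act fun z hz => (hKact z).mp hz).toLinearMap
    refine Module.Finite.of_injective g ?_
    rw [← LinearMap.ker_eq_bot, _root_.eq_bot_iff]
    intro w hw
    obtain ⟨z, rfl⟩ := Ideal.Quotient.mk_surjective w
    exact Ideal.Quotient.eq_zero_iff_mem.mpr ((hKact z).mpr hw)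
  -- polynomial relations acting as zero
  have hG : ∀ i, ∃ G ∈ MvPolynomial.idealOfVars (Fin k) O ^ 2,
      (∑ j, algebraMap O R (L i j) * x j) - ev G ∈ K := fun i =>
    exists_poly_pow_sub_mem π hx K 2 (hL i)
  choose G hG2 hGK using hG
  have hP : ∀ i, ∃ P : Polynomial O, P.Monic ∧ Polynomial.aeval (x i) P ∈ K := fun i => by
    obtain ⟨P, hP, hPx⟩ := (Algebra.IsIntegral.isIntegral (R := O) (act (x i)))
    refine ⟨P, hP, (hKact _).mpr ?_⟩
    rw [← Polynomial.aeval_algHom_apply]
    exact hPx
  choose P hPm hPK using hP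
  let e : ℕ := 3 + (∑ i, (G i).totalDegree) + ∑ i, (P i).natDegree
  have he : 1 < e := by omega
  have heP : ∀ i, (P i).natDegree + 2 ≤ e := fun i => by
    have := Finset.single_le_sum (f := fun i => (P i).natDegree) (fun j _ => Nat.zero_le _)
      (Finset.mem_univ i)
    omega
  -- the lower part of the relations
  let low : Fin k → MvPolynomial (Fin k) O := fun i =>
    (∑ j, C (L i j) * X j) - G i +
      X i ^ (e - (P i).natDegree) * (Polynomial.aeval (X i) (P i) - X i ^ (P i).natDegree)
  have hlow_ev : ∀ i, ev (X i ^ e + low i) ∈ K := fun i => by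
    have h1 : X i ^ e + low i = ((∑ j, C (L i j) * X j) - G i) +
        X i ^ (e - (P i).natDegree) * Polynomial.aeval (X i) (P i) := by
      simp only [low]
      have : (X i : MvPolynomial (Fin k) O) ^ e =
          X i ^ (e - (P i).natDegree) * X i ^ (P i).natDegree := by
        rw [← pow_add, Nat.sub_add_cancel (by have := heP i; omega)]
      rw [this]
      ring
    rw [h1, map_add, map_mul, map_sub, map_sum]
    refine add_mem ?_ (Ideal.mul_mem_left _ _ ?_)
    · simpa [ev] using hGK i
    · rw [← Polynomial.aeval_algHom_apply]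
      simpa [ev] using hPK i
  have hmid : ∀ i, X i ^ (e - (P i).natDegree) *
      (Polynomial.aeval (X i : MvPolynomial (Fin k) O) (P i) - X i ^ (P i).natDegree) =
      ∑ l ∈ Finset.range (P i).natDegree,
        C ((P i).coeff l) * X i ^ (e - (P i).natDegree + l) := fun i => by
    rw [Polynomial.aeval_eq_sum_range, Finset.sum_range_succ, (hPm i).coeff_natDegree, one_smul,
      add_sub_cancel_right, Finset.mul_sum]
    refine Finset.sum_congr rfl fun l _ => ?_
    rw [MvPolynomial.smul_eq_C_mul, pow_add]
    ring
  have hcoeff_low : ∀ i, constantCoeff (low i) = 0 ∧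
      ∀ j, coeff (Finsupp.single j 1) (low i) = L i j := fun i => by
    have hG' := (MvPolynomial.mem_pow_idealOfVars_iff' 2 (G i)).mp (hG2 i)
    have hG0 : coeff 0 (G i) = 0 := hG' 0 (by simp)
    constructor
    · simp only [low, hmid i, map_add, map_sub, map_sum, map_mul, constantCoeff_C,
        constantCoeff_X, mul_zero, Finset.sum_const_zero, map_pow]
      rw [show constantCoeff (G i) = 0 from hG0]
      simp only [sub_self, zero_add]
      refine Finset.sum_eq_zero fun l _ => ?_
      rw [zero_pow (by have := heP i; omega), mul_zero]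
    · intro j
      simp only [low, hmid i, coeff_add, coeff_sub, coeff_sum, coeff_C_mul, coeff_X_pow]
      rw [Finset.sum_eq_single j (fun b _ hb => by
        rw [coeff_X, if_neg (fun h => hb (Finsupp.single_left_injective one_ne_zero h)), mul_zero])
        (by simp)]
      have hGj : coeff (Finsupp.single j 1) (G i) = 0 :=
        hG' _ (by rw [Finsupp.degree_single]; omega)
      rw [hGj]
      have : ∀ l ∈ Finset.range (P i).natDegree, (P i).coeff l *
          (if Finsupp.single i (e - (P i).natDegree + l) = Finsupp.single j 1 then (1 : O) else 0)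
            = 0 := fun l _ => by
        rw [if_neg, mul_zero]
        intro h
        have := congrArg Finsupp.degree h
        rw [Finsupp.degree_single, Finsupp.degree_single] at this
        have := heP i
        omega
      rw [Finset.sum_eq_zero this]
      simp [coeff_X]
  have hdeg_low : ∀ i, (low i).totalDegree < e := fun i => by
    simp only [low, hmid i]
    refine lt_of_le_of_lt (totalDegree_add _ _) (max_lt ?_ ?_)
    · refine lt_of_le_of_lt (totalDegree_sub _ _) (max_lt ?_ ?_)
      · refine lt_of_le_of_lt (totalDegree_finsetSum _ _) ((Finset.sup_lt_iff (show (0 : ℕ) < e by omega)).mpr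
          fun j _ => ?_)
        refine lt_of_le_of_lt (totalDegree_mul _ _) ?_
        rw [totalDegree_C, totalDegree_X]
        omega
      · have := Finset.single_le_sum (f := fun i => (G i).totalDegree) (fun j _ => Nat.zero_le _)
          (Finset.mem_univ i)
        omega
    · refine lt_of_le_of_lt (totalDegree_finsetSum _ _) ((Finset.sup_lt_iff (show (0 : ℕ) < e by omega)).mpr
        fun l hl => ?_)
      refine lt_of_le_of_lt (totalDegree_mul _ _) ?_
      rw [totalDegree_C, zero_add]
      refine lt_of_le_of_lt (totalDegree_pow _ _) ?_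
      rw [totalDegree_X, mul_one]
      have := Finset.mem_range.mp hl
      have := heP i
      omega
  choose r hr hrlow using fun i =>
    exists_lower_coeffs (hcoeff_low i).1 (hdeg_low i) he
  have hr0 : ∀ i j, constantCoeff (r i j) = L i j := fun i j => by
    rw [← (hcoeff_low i).2 j, hrlow i, coeff_sum, Finset.sum_eq_single j]
    · rw [coeff_mul_X', if_pos (by simp), tsub_self]
      rfl
    · intro l _ hl
      rw [coeff_mul_X', if_neg (by simp [Finsupp.single_apply, hl, Ne.symm hl])]
    · simp
  let f : Fin k → MvPolynomial (Fin k) O := fun i => X i ^ e + low i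
  let a : Matrix (Fin k) (Fin k) (MvPolynomial (Fin k) O) :=
    Matrix.of fun i j => (if i = j then X i ^ (e - 1) else 0) + r i j
  have hfa : ∀ i, f i = ∑ j, a i j * X j := fun i => by
    simp only [f, a, hrlow i, Matrix.of_apply, add_mul, Finset.sum_add_distrib, ite_mul, zero_mul,
      Finset.sum_ite_eq, Finset.mem_univ, if_true]
    rw [← pow_succ, Nat.sub_add_cancel he.le]
  let θ := a.det
  have hθ0 : constantCoeff θ = L.det := by
    rw [RingHom.map_det]
    congr 1
    ext i j
    simp only [RingHom.mapMatrix_apply, Matrix.map_apply, a, Matrix.of_apply, map_add, hr0]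
    split <;> simp [zero_pow (show e - 1 ≠ 0 by omega)]
  have hπev : ∀ F, π (ev F) = constantCoeff F := fun F => by
    have hxj : ∀ j, π (x j) = 0 := fun j => by
      have : x j ∈ RingHom.ker π := hx ▸ Ideal.subset_span ⟨j, rfl⟩
      exact this
    induction F using MvPolynomial.induction_on with
    | C c => simp [ev]
    | add p q hp hq => simp [map_add, hp, hq]
    | mul_X p j hp => simp [ev, hxj]
  have hfK : ∀ i, ev (f i) ∈ K := hlow_ev
  have hθx : ∀ j, ev θ * x j ∈ K := fun j => by
    have h1 := congrFun (show Matrix.mulVec a.adjugate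
        (Matrix.mulVec a (fun l => (X l : MvPolynomial (Fin k) O))) =
        a.det • fun l => (X l : MvPolynomial (Fin k) O) by
      rw [Matrix.mulVec_mulVec, Matrix.adjugate_mul, Matrix.smul_mulVec, Matrix.one_mulVec]) j
    rw [Pi.smul_apply, smul_eq_mul] at h1
    have h2 : ev θ * x j = ev (θ * X j) := by simp [ev]
    rw [h2, ← h1]
    show ev (∑ i, a.adjugate j i * Matrix.mulVec a (fun l => (X l : MvPolynomial (Fin k) O)) i) ∈ K
    rw [map_sum]
    refine Ideal.sum_mem _ fun i _ => ?_
    rw [map_mul]
    refine Ideal.mul_mem_left _ _ ?_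
    have : Matrix.mulVec a (fun l => (X l : MvPolynomial (Fin k) O)) i = f i := by
      rw [hfa]
      rfl
    rw [this]
    exact hfK i
  -- `θ` is primitive
  obtain ⟨h, hh⟩ := hvcong
  have hθh : ev θ • h = v := by
    have hz : ∀ j, ∀ w : H, ev θ • x j • w = 0 := fun j w => by
      rw [smul_smul]
      exact Module.mem_annihilator.mp (hθx j) w
    have h1 := hh (ev θ) hz
    rw [hπev, hθ0] at h1
    exact (smul_right_injective H hdet h1).symm
  -- the socle property
  let 𝔄 : Ideal (MvPolynomial (Fin k) O) :=
    { carrier := {F | ∀ w : H, ev F • w ∈ maximalIdeal O • (⊤ : Submodule O H)}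
      add_mem' := fun {p q} hp hq w => by rw [map_add, add_smul]; exact add_mem (hp w) (hq w)
      zero_mem' := fun w => by rw [map_zero, zero_smul]; exact zero_mem _
      smul_mem' := fun c F hF w => by
        rw [smul_eq_mul, map_mul, mul_comm, mul_smul]
        exact hF _ }
  let red : MvPolynomial (Fin k) O →+* MvPolynomial (Fin k) (ResidueField O) :=
    MvPolynomial.map (residue O)
  have hredsurj : Function.Surjective red :=
    MvPolynomial.map_surjective _ IsLocalRing.residue_surjective
  have hker : ∀ F, red F = 0 → ∃ F1, F = C ϖ * F1 := fun F hF => by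
    have : ∀ m, ϖ ∣ coeff m F := fun m => by
      have h1 := congrArg (coeff m) hF
      rw [coeff_map, coeff_zero, IsLocalRing.residue_eq_zero_iff, hmax,
        Ideal.mem_span_singleton] at h1
      exact h1
    exact (C_dvd_iff_dvd_coeff _ _).mpr this
  have hCmem : ∀ F1, C ϖ * F1 ∈ 𝔄 := fun F1 w => by
    rw [map_mul, mul_smul, show ev (C ϖ) = algebraMap O R ϖ from MvPolynomial.aeval_C _ _,
      algebraMap_smul]
    exact Submodule.smul_mem_smul (hmax ▸ Ideal.mem_span_singleton_self ϖ) trivial
  let rbar : Fin k → Fin k → MvPolynomial (Fin k) (ResidueField O) := fun i j => red (r i j)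
  have hsmall : SocleCI.Small e rbar := fun i j => by
    have : (red (r i j)).totalDegree ≤ (r i j).totalDegree :=
      Finset.sup_mono (MvPolynomial.support_map_subset _ _)
    have := hr i j
    show (red (r i j)).totalDegree + 1 < e
    omega
  have hrel : ∀ i, SocleCI.rel e rbar i = red (f i) := fun i => by
    show X i ^ e + ∑ j, red (r i j) * X j = red (X i ^ e + low i)
    rw [map_add, map_pow, hrlow i, map_sum, show red (X i) = X i from MvPolynomial.map_X _ _]
    congr 1
    refine Finset.sum_congr rfl fun j _ => ?_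
    rw [map_mul, show red (X j) = X j from MvPolynomial.map_X _ _]
  have hIle : SocleCI.relIdeal e rbar ≤ 𝔄.map red := by
    rw [SocleCI.relIdeal, Ideal.span_le]
    rintro _ ⟨i, rfl⟩
    rw [hrel]
    refine Ideal.mem_map_of_mem _ fun w => ?_
    rw [Module.mem_annihilator.mp (hfK i) w]
    exact zero_mem _
  have hpres : (SocleCI.pres e rbar).det = red θ := by
    rw [RingHom.map_det]
    congr 1
    ext1 i j
    simp only [SocleCI.pres, Matrix.of_apply, RingHom.mapMatrix_apply, Matrix.map_apply, a, rbar,
      map_add]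
    split <;> simp [red]
  have hθnot : (SocleCI.pres e rbar).det ∉ 𝔄.map red := by
    rw [hpres, Ideal.mem_map_iff_of_surjective _ hredsurj]
    rintro ⟨F, hF, hFθ⟩
    obtain ⟨F1, hF1⟩ := hker (θ - F) (by rw [map_sub, hFθ, sub_self])
    have hmem : θ ∈ 𝔄 := by
      rw [← sub_add_cancel θ F, hF1]
      exact add_mem (hCmem F1) hF
    exact hv (hθh ▸ hmem h)
  -- Nakayama: every polynomial acting as zero is, locally at the origin, in `(f)`
  let 𝔎 : Ideal (MvPolynomial (Fin k) O) := K.comap ev.toRingHom
  let I : Ideal (MvPolynomial (Fin k) O) := Ideal.span (Set.range f)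
  let 𝔐 : Ideal (MvPolynomial (Fin k) O) := Ideal.span {C ϖ} ⊔ MvPolynomial.idealOfVars (Fin k) O
  let N : Submodule (MvPolynomial (Fin k) O) (MvPolynomial (Fin k) O ⧸ I) :=
    Submodule.map (Submodule.mkQ I) 𝔎
  have hN : N ≤ 𝔐 • N := by
    rintro _ ⟨F, hF, rfl⟩
    have hFA : red F ∈ 𝔄.map red := by
      refine Ideal.mem_map_of_mem _ fun w => ?_
      rw [Module.mem_annihilator.mp (show ev F ∈ K from hF) w]
      exact zero_mem _
    obtain ⟨b, hb0, hbF⟩ := SocleCI.exists_unit_mul_mem hsmall hIle hθnot hFA
    obtain ⟨b', rfl⟩ := hredsurj b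
    have hu : IsUnit (constantCoeff b') := by
      rw [show constantCoeff (red b') = residue O (constantCoeff b') from
        MvPolynomial.constantCoeff_map _ _] at hb0
      exact (IsLocalRing.residue_ne_zero_iff_isUnit _).mp hb0
    obtain ⟨c, hc⟩ := Ideal.mem_span_range_iff_exists_fun.mp hbF
    choose c' hc' using fun i => hredsurj (c i)
    obtain ⟨F1, hF1⟩ := hker (b' * F - ∑ i, c' i * f i) (by
      rw [map_sub, map_mul, map_sum]
      simp only [map_mul, hc', ← hrel, hc, sub_self])
    have hF1K : F1 ∈ 𝔎 := by
      show ev F1 ∈ K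
      rw [hKact]
      have h0 : ev (C ϖ * F1) ∈ K := by
        rw [← hF1, map_sub, map_mul, map_sum]
        refine sub_mem (Ideal.mul_mem_left _ _ hF) (Ideal.sum_mem _ fun i _ => ?_)
        rw [map_mul]
        exact Ideal.mul_mem_left _ _ (hfK i)
      rw [hKact, map_mul, map_mul, show ev (C ϖ) = algebraMap O R ϖ from MvPolynomial.aeval_C _ _,
        AlgHom.commutes, ← Algebra.smul_def] at h0
      exact (smul_eq_zero.mp h0).resolve_left hϖ.ne_zero
    obtain ⟨u, hu'⟩ := hu
    let d : MvPolynomial (Fin k) O := C (↑u⁻¹ : O) * b'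
    have hd : (1 : MvPolynomial (Fin k) O) - d ∈ 𝔐 := by
      refine Submodule.mem_sup_right ?_
      have h1 : (1 : MvPolynomial (Fin k) O) - d ∈ MvPolynomial.idealOfVars (Fin k) O ^ 1 := by
        rw [MvPolynomial.mem_pow_idealOfVars_iff']
        intro m hm
        rw [(Finsupp.degree_eq_zero_iff m).mp (Nat.lt_one_iff.mp hm)]
        show constantCoeff (1 - d) = 0
        simp [d, ← hu']
      rwa [pow_one] at h1
    have hdF : Submodule.mkQ I F = (1 - d) • Submodule.mkQ I F +
        (C ϖ * C (↑u⁻¹ : O) : MvPolynomial (Fin k) O) • Submodule.mkQ I F1 := by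
      rw [← map_smul, ← map_smul, ← map_add, Submodule.mkQ_apply, Submodule.mkQ_apply,
        Submodule.Quotient.eq]
      have : F - ((1 - d) • F + (C ϖ * C (↑u⁻¹ : O) : MvPolynomial (Fin k) O) • F1) =
          C (↑u⁻¹ : O) * ∑ i, c' i * f i := by
        simp only [smul_eq_mul, d]
        linear_combination C (↑u⁻¹ : O) * hF1
      rw [this]
      exact Ideal.mul_mem_left _ _ (Ideal.sum_mem _ fun i _ =>
        Ideal.mul_mem_left _ _ (Ideal.subset_span ⟨i, rfl⟩))
    rw [hdF]
    refine add_mem (Submodule.smul_mem_smul hd ⟨F, hF, rfl⟩)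
      (Submodule.smul_mem_smul ?_ ⟨F1, hF1K, rfl⟩)
    exact Ideal.mul_mem_right _ _ (Submodule.mem_sup_left (Ideal.mem_span_singleton_self _))
  obtain ⟨ρ, hρ, hρN⟩ := Submodule.exists_sub_one_mem_and_smul_eq_zero_of_fg_of_le_smul 𝔐 N
    (IsNoetherian.noetherian _) hN
  have hρI : ∀ F, ev F ∈ K → ρ * F ∈ I := fun F hF => by
    have h' := hρN (Submodule.mkQ I F) ⟨F, hF, rfl⟩
    rw [← map_smul, Submodule.mkQ_apply, Submodule.Quotient.mk_eq_zero, smul_eq_mul] at h'
    exact h'
  have hρ0 : IsUnit (constantCoeff ρ) := by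
    have hle : 𝔐 ≤ (maximalIdeal O).comap (constantCoeff (R := O) (σ := Fin k)) := by
      refine sup_le ?_ ?_
      · rw [Ideal.span_le, Set.singleton_subset_iff, SetLike.mem_coe, Ideal.mem_comap,
          constantCoeff_C, hmax]
        exact Ideal.mem_span_singleton_self ϖ
      · rw [MvPolynomial.idealOfVars, Ideal.span_le]
        rintro _ ⟨i, rfl⟩
        simp
    have h1 := hle hρ
    rw [Ideal.mem_comap, map_sub, map_one] at h1
    by_contra hu
    have h2 : (1 : O) ∈ maximalIdeal O := by
      have := sub_mem ((IsLocalRing.mem_maximalIdeal _).mpr hu) h1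
      simpa using this
    exact (IsLocalRing.maximalIdeal.isMaximal O).ne_top ((Ideal.eq_top_iff_one _).mpr h2)
  have hρR : IsUnit (ev ρ) := by
    rw [← IsLocalRing.residue_ne_zero_iff_isUnit]
    intro h0
    rw [IsLocalRing.residue_eq_zero_iff] at h0
    have h1 := add_mem (h℘ (sub_algebraMap_mem π hx (ev ρ))) (neg_mem h0)
    rw [sub_add_eq_add_sub, add_neg_cancel, zero_sub, neg_mem_iff, hπev] at h1
    exact (IsLocalRing.mem_maximalIdeal _).mp h1 (hρ0.map (algebraMap O R))
  -- the finite quotient `R ⧸ ℘ K`
  let J : Ideal R := ℘ * K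
  have hJK : J ≤ K := Ideal.mul_le_right
  have hfinJ : Module.Finite O (R ⧸ J) := by
    obtain ⟨t, ht⟩ := (IsNoetherian.noetherian K : K.FG)
    let mkJ : R →ₐ[O] R ⧸ J := Ideal.Quotient.mkₐ O J
    let KJ : Submodule O (R ⧸ J) := Submodule.map mkJ.toLinearMap (K.restrictScalars O)
    have hKJ : KJ = Submodule.span O (mkJ '' (t : Set R)) := by
      refine le_antisymm ?_ (Submodule.span_le.mpr ?_)
      · rintro _ ⟨z, hz, rfl⟩
        have hz' : z ∈ Submodule.span R (t : Set R) := by rw [ht]; exact hz
        induction hz' using Submodule.span_induction with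
        | mem a ha => exact Submodule.subset_span ⟨a, ha, rfl⟩
        | zero => simp
        | add a b haK hbK ha hb =>
          rw [map_add]
          exact add_mem (ha (ht ▸ haK : a ∈ K)) (hb (ht ▸ hbK : b ∈ K))
        | smul c a haK ha =>
          have haK' : a ∈ K := ht ▸ haK
          have hdiff : mkJ (c • a) = π c • mkJ a := by
            rw [← map_smul]
            refine (Ideal.Quotient.mk_eq_mk_iff_sub_mem _ _).mpr ?_
            rw [smul_eq_mul, Algebra.smul_def, ← sub_mul]
            exact Ideal.mul_mem_mul (sub_algebraMap_mem π hx c) haK'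
          show mkJ (c • a) ∈ _
          rw [hdiff]
          exact Submodule.smul_mem _ _ (ha haK')
      · rintro _ ⟨a, ha, rfl⟩
        exact ⟨a, ht ▸ Ideal.subset_span ha, rfl⟩
    have : Module.Finite O KJ := by
      rw [hKJ]
      exact Module.Finite.span_of_finite O ((t.finite_toSet).image _)
    have hquot : Module.Finite O ((R ⧸ J) ⧸ KJ) := by
      let g : (R ⧸ K) →ₗ[O] (R ⧸ J) ⧸ KJ :=
        { toFun := fun w => Quotient.liftOn' w (fun z => Submodule.Quotient.mk (mkJ z)) (by
            intro a b hab
            rw [Submodule.quotientRel_def] at hab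
            refine (Submodule.Quotient.eq _).mpr ⟨a - b, hab, ?_⟩
            simp [mkJ])
          map_add' := by
            rintro ⟨a⟩ ⟨b⟩
            show Submodule.Quotient.mk (mkJ (a + b)) = _
            rw [map_add, Submodule.Quotient.mk_add]
            rfl
          map_smul' := by
            rintro c ⟨a⟩
            show Submodule.Quotient.mk (mkJ (c • a)) = _
            rw [map_smul, Submodule.Quotient.mk_smul]
            rfl }
      refine Module.Finite.of_surjective g fun w => ?_
      obtain ⟨y, rfl⟩ := Submodule.Quotient.mk_surjective _ w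
      obtain ⟨z, rfl⟩ := Ideal.Quotient.mk_surjective y
      exact ⟨Ideal.Quotient.mk K z, rfl⟩
    exact Module.Finite.of_submodule_quotient KJ
  have hlin : ∀ (G : MvPolynomial (Fin k) O), G ∈ MvPolynomial.idealOfVars (Fin k) O ^ 2 →
      ev G ∈ K → ev G ∈ J := by
    intro G hG hGK
    obtain ⟨c, hc⟩ := Ideal.mem_span_range_iff_exists_fun.mp (hρI G hGK)
    have hc0 : ∀ i, constantCoeff (c i) = 0 := by
      have hrow : Matrix.vecMul (fun i => constantCoeff (c i)) L = 0 := by
        funext j
        have h1 := congrArg (coeff (Finsupp.single j 1)) hc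
        have hG' := (MvPolynomial.mem_pow_idealOfVars_iff' 2 (ρ * G)).mp
          (Ideal.mul_mem_left _ _ hG) (Finsupp.single j 1) (by rw [Finsupp.degree_single]; omega)
        rw [hG', coeff_sum] at h1
        show ∑ i, constantCoeff (c i) * L i j = 0
        rw [← h1]
        refine Finset.sum_congr rfl fun i _ => ?_
        have h0 : constantCoeff (f i) = 0 := by
          simp [f, (hcoeff_low i).1, zero_pow (show e ≠ 0 by omega)]
        have h1' : coeff (Finsupp.single j 1) (f i) = L i j := by
          simp only [f, coeff_add, coeff_X_pow, (hcoeff_low i).2 j]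
          rw [if_neg, zero_add]
          intro h
          have := congrArg Finsupp.degree h
          rw [Finsupp.degree_single, Finsupp.degree_single] at this
          omega
        rw [coeff_mul, Finset.sum_eq_single (0, Finsupp.single j 1)]
        · rw [h1']
          rfl
        · rintro ⟨a, b⟩ hab hne
          rw [Finset.HasAntidiagonal.mem_antidiagonal] at hab
          dsimp only at hab
          have hd := congrArg Finsupp.degree hab
          rw [map_add, Finsupp.degree_single] at hd
          by_cases hb : b = 0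
          · subst hb
            have : coeff (0 : Fin k →₀ ℕ) (f i) = 0 := h0
            rw [this, mul_zero]
          · exfalso
            apply hne
            have hb' : 0 < Finsupp.degree b :=
              Nat.pos_of_ne_zero fun h => hb ((Finsupp.degree_eq_zero_iff b).mp h)
            have ha : a = 0 := (Finsupp.degree_eq_zero_iff a).mp (by omega)
            subst ha
            simp only [zero_add] at hab
            rw [hab]
        · intro h
          exact absurd (Finset.HasAntidiagonal.mem_antidiagonal.mpr (zero_add _)) h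
      have h2 := congrArg (fun w => Matrix.vecMul w L.adjugate) hrow
      simp only [Matrix.vecMul_vecMul, Matrix.mul_adjugate, Matrix.vecMul_smul, Matrix.vecMul_one,
        Matrix.zero_vecMul] at h2
      intro i
      have h3 := congrFun h2 i
      rw [Pi.smul_apply, smul_eq_mul, Pi.zero_apply] at h3
      exact (mul_eq_zero.mp h3).resolve_left hdet
    have h1 : ev ρ * ev G ∈ J := by
      rw [← map_mul, ← hc, map_sum]
      refine Ideal.sum_mem _ fun i _ => ?_
      rw [map_mul]
      refine Ideal.mul_mem_mul ?_ (hfK i)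
      show _ ∈ Ideal.span (Set.range x)
      rw [← hx, RingHom.mem_ker]
      exact (hπev _).trans (hc0 i)
    exact (Ideal.unit_mul_mem_iff_mem _ hρR).mp h1
  have hfJ : ∀ i, ev (f i) ∈ J := fun i => by
    have hsq : ev (f i) ∈ ℘ ^ 2 := by
      have hlow2 : low i - ∑ j, C (L i j) * X j ∈ MvPolynomial.idealOfVars (Fin k) O ^ 2 := by
        rw [MvPolynomial.mem_pow_idealOfVars_iff']
        intro m hm
        rw [coeff_sub, coeff_sum]
        rcases Nat.lt_or_ge (Finsupp.degree m) 1 with h | h
        · rw [(Finsupp.degree_eq_zero_iff m).mp (by omega)]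
          rw [show coeff 0 (low i) = 0 from (hcoeff_low i).1]
          simp
        · obtain ⟨j, rfl⟩ : ∃ j, m = Finsupp.single j 1 := by
            obtain ⟨j, hj⟩ : ∃ j, m j ≠ 0 := by
              by_contra hcon
              push Not at hcon
              simp [show m = 0 from Finsupp.ext hcon] at h
            refine ⟨j, ?_⟩
            have hle : Finsupp.single j 1 ≤ m :=
              Finsupp.single_le_iff.mpr (Nat.one_le_iff_ne_zero.mpr hj)
            have hd := congrArg Finsupp.degree (add_tsub_cancel_of_le hle)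
            rw [map_add, Finsupp.degree_single] at hd
            have h0 : m - Finsupp.single j 1 = 0 :=
              (Finsupp.degree_eq_zero_iff _).mp (by omega)
            conv_lhs => rw [← add_tsub_cancel_of_le hle, h0, add_zero]
          rw [(hcoeff_low i).2 j, Finset.sum_eq_single j]
          · simp [coeff_C_mul, coeff_X]
          · intro b _ hb
            rw [coeff_C_mul, coeff_X, if_neg (fun h' => hb (Finsupp.single_left_injective one_ne_zero h')),
              mul_zero]
          · simp
      have hmap : ∀ F ∈ MvPolynomial.idealOfVars (Fin k) O ^ 2, ev F ∈ ℘ ^ 2 := by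
        intro F hF
        have h1 : ev F ∈ Ideal.map ev (MvPolynomial.idealOfVars (Fin k) O ^ 2) :=
          Ideal.mem_map_of_mem _ hF
        rw [Ideal.map_pow, MvPolynomial.idealOfVars, Ideal.map_span] at h1
        refine Ideal.pow_right_mono (Ideal.span_mono ?_) 2 h1
        rintro _ ⟨_, ⟨j, rfl⟩, rfl⟩
        exact ⟨j, (MvPolynomial.aeval_X x j).symm⟩
      have h3 : ev (f i) = ev (X i ^ e) + ev (low i - ∑ j, C (L i j) * X j) +
          ∑ j, algebraMap O R (L i j) * x j := by
        simp only [f, map_add, map_sub, map_sum, map_mul, ev, MvPolynomial.aeval_C,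
          MvPolynomial.aeval_X]
        ring
      rw [h3]
      refine add_mem (add_mem ?_ (hmap _ hlow2)) (hL i)
      rw [map_pow, show ev (X i) = x i from MvPolynomial.aeval_X _ _]
      exact Ideal.pow_le_pow_right (show 2 ≤ e by omega)
        (Ideal.pow_mem_pow (Ideal.subset_span (Set.mem_range_self i)) e)
    obtain ⟨G', hG', hdiff⟩ := exists_poly_pow_sub_mem π hx J 2 hsq
    have hG'K : ev G' ∈ K := by
      have := sub_mem (hfK i) (hJK hdiff)
      simpa [ev] using this
    have := add_mem hdiff (hlin G' hG' hG'K)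
    simpa [ev] using this
  have hKJ : K ≤ J := by
    intro z hz
    obtain ⟨F, hF⟩ := exists_poly_sub_mem π hx J z
    have hFK : ev F ∈ K := by
      have := sub_mem hz (hJK hF)
      simpa [ev] using this
    obtain ⟨c, hc⟩ := Ideal.mem_span_range_iff_exists_fun.mp (hρI F hFK)
    have h1 : ev ρ * ev F ∈ J := by
      rw [← map_mul, ← hc, map_sum]
      refine Ideal.sum_mem _ fun i _ => ?_
      rw [map_mul]
      exact Ideal.mul_mem_left _ _ (hfJ i)
    have := add_mem hF ((Ideal.unit_mul_mem_iff_mem _ hρR).mp h1)
    simpa [ev] using this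
  exact Submodule.eq_bot_of_le_smul_of_le_jacobson_bot ℘ K (IsNoetherian.noetherian _) hKJ
    (h℘.trans (IsLocalRing.maximalIdeal_le_jacobson _))

end FA.Patch
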