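import Fermat.Agent.Patch.Consequences
import Mathlib.RingTheory.Nakayama

/-!
# Crossing a wall in the patched modules

`full` is block triangular with a block equal to two copies of `old` and a block `new`; a
surjective intertwiner `full → old²` restricted to the first block is `(a b; c e)`. A prime of the
support of `old` containing `a e - b c` lies in the support of `new`.
-/

set_option autoImplicit false

noncomputable section

open IsLocalRing

namespace FA.Patch

/-- The free module underlying a matrix representation. -/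
def ActMod {S P : Type*} [CommRing S] [CommRing P] {d : ℕ}
    (_act : P →+* Matrix (Fin d) (Fin d) S) : Type _ := Fin d → S

namespace ActMod

variable {S P : Type*} [CommRing S] [CommRing P] {d : ℕ} (act : P →+* Matrix (Fin d) (Fin d) S)

instance : AddCommGroup (ActMod act) := inferInstanceAs (AddCommGroup (Fin d → S))

instance : Module P (ActMod act) :=
  Module.compHom (Fin d → S)
    ((Matrix.toLinAlgEquiv' : Matrix (Fin d) (Fin d) S ≃ₐ[S] _).toRingEquiv.toRingHom.comp act)

/-- Vectors as elements. -/
def of : (Fin d → S) ≃+ ActMod act := AddEquiv.refl _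

lemma smul_of (x : P) (v : Fin d → S) : x • of act v = of act ((act x).mulVec v) := rfl

lemma ker_le_annihilator : RingHom.ker act ≤ Module.annihilator P (ActMod act) := fun x hx =>
  Module.mem_annihilator.mpr fun m => by
    obtain ⟨v, rfl⟩ := (of act).surjective m
    rw [smul_of, RingHom.mem_ker.mp hx, Matrix.zero_mulVec]
    exact map_zero _

lemma annihilator_eq : Module.annihilator P (ActMod act) = RingHom.ker act := by
  refine le_antisymm (fun x hx => ?_) (ker_le_annihilator act)
  rw [RingHom.mem_ker]
  ext u v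
  have h := congrFun ((of act).injective
    ((smul_of act x (Pi.single v 1)).symm.trans
      ((Module.mem_annihilator.mp hx _).trans (map_zero (of act)).symm))) u
  simpa using h

theorem finite {j : S →+* P} (hj : IsScalarLift act j) : Module.Finite P (ActMod act) := by
  classical
  refine Module.Finite.of_fg_top ⟨Finset.univ.image fun i => of act (Pi.single i 1), ?_⟩
  refine eq_top_iff.mpr fun m _ => ?_
  obtain ⟨v, rfl⟩ := (of act).surjective m
  have hv : of act v = ∑ i, j (v i) • of act (Pi.single i 1) := by
    simp only [smul_of, hj (v _), ← map_sum]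
    congr 1
    ext k
    simp [Matrix.algebraMap_eq_diagonal, Matrix.mulVec_diagonal, Pi.single_apply]
  rw [hv]
  exact Submodule.sum_mem _ fun i _ => Submodule.smul_mem _ _
    (Submodule.subset_span (Finset.mem_coe.mpr (Finset.mem_image_of_mem _ (Finset.mem_univ i))))

end ActMod

variable {S P : Type*} [CommRing S] [CommRing P] {j : S →+* P}
  {d₀ d dₙ : ℕ} (act₀ : P →+* Matrix (Fin d₀) (Fin d₀) S) (act : P →+* Matrix (Fin d) (Fin d) S)
  (actn : P →+* Matrix (Fin dₙ) (Fin dₙ) S)

/-- **Wall crossing for matrix representations.** -/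
theorem ker_le_of_crossing (hj : IsScalarLift act₀ j)
    (e : (Fin d₀ ⊕ Fin d₀) ⊕ Fin dₙ ≃ Fin d)
    (h₁₁ : ∀ x u u', act x (e (.inl u)) (e (.inl u')) =
      Matrix.fromBlocks (act₀ x) 0 0 (act₀ x) u u')
    (h₂₁ : ∀ x w u, act x (e (.inr w)) (e (.inl u)) = 0)
    (h₂₂ : ∀ x w w', act x (e (.inr w)) (e (.inr w')) = actn x w w')
    (Y : Matrix (Fin d₀ ⊕ Fin d₀) (Fin d) S)
    (hY : ∀ x, Y * act x = Matrix.fromBlocks (act₀ x) 0 0 (act₀ x) * Y)
    (hsurj : Function.Surjective Y.mulVec) (a b c g : P)
    (hK : ∀ u u', Y u (e (.inl u')) =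
      Matrix.fromBlocks (act₀ a) (act₀ b) (act₀ c) (act₀ g) u u')
    {Q : Ideal P} [Q.IsPrime] (hQ : RingHom.ker act₀ ≤ Q) (hdet : a * g - b * c ∈ Q) :
    RingHom.ker actn ≤ Q := by
  classical
  let M := ActMod act₀
  let N := ActMod act
  have : Module.Finite P M := ActMod.finite act₀ hj
  -- the inclusion of two copies of `old`
  let inc : (Fin d₀ → S) → (Fin d₀ → S) → (Fin d → S) := fun u v k =>
    Sum.elim (Sum.elim u v) 0 (e.symm k)
  have hinc : ∀ x u v, (act x).mulVec (inc u v) = inc ((act₀ x).mulVec u) ((act₀ x).mulVec v) := by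
    intro x u v
    ext k
    obtain ⟨k, rfl⟩ := e.surjective k
    rw [Matrix.mulVec, dotProduct, ← e.sum_comp, Fintype.sum_sum_type]
    rcases k with k | w
    · simp only [h₁₁, inc, Equiv.symm_apply_apply, Sum.elim_inl, Sum.elim_inr, Pi.zero_apply,
        mul_zero, Finset.sum_const_zero, add_zero]
      rcases k with k | k <;>
        simp [Matrix.fromBlocks, Fintype.sum_sum_type, Matrix.mulVec, dotProduct]
    · simp [h₂₁, inc]
  let i : (M × M) →ₗ[P] N :=
    { toFun := fun m => ActMod.of act
        (inc ((ActMod.of act₀).symm m.1) ((ActMod.of act₀).symm m.2))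
      map_add' := fun m m' => by
        rw [← map_add]
        congr 1
        ext k
        simp only [inc, Prod.fst_add, Prod.snd_add, map_add, Pi.add_apply]
        rcases e.symm k with (_ | _) | _ <;> simp
      map_smul' := fun x m => by
        obtain ⟨u, hu⟩ := (ActMod.of act₀).surjective m.1
        obtain ⟨v, hv⟩ := (ActMod.of act₀).surjective m.2
        show ActMod.of act (inc ((ActMod.of act₀).symm (x • m.1)) ((ActMod.of act₀).symm (x • m.2))) =
          x • ActMod.of act (inc ((ActMod.of act₀).symm m.1) ((ActMod.of act₀).symm m.2))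
        rw [← hu, ← hv, ActMod.smul_of, ActMod.smul_of, AddEquiv.symm_apply_apply,
          AddEquiv.symm_apply_apply, ActMod.smul_of, AddEquiv.symm_apply_apply,
          AddEquiv.symm_apply_apply, hinc] }
  let iStar : N →ₗ[P] (M × M) :=
    { toFun := fun n => (ActMod.of act₀ fun k => Y.mulVec ((ActMod.of act).symm n) (.inl k),
        ActMod.of act₀ fun k => Y.mulVec ((ActMod.of act).symm n) (.inr k))
      map_add' := fun n n' => by
        rw [Prod.mk_add_mk, ← map_add, ← map_add, map_add (ActMod.of act).symm, Matrix.mulVec_add]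
        rfl
      map_smul' := fun x n => by
        obtain ⟨w, rfl⟩ := (ActMod.of act).surjective n
        show (ActMod.of act₀ fun k => Y.mulVec ((ActMod.of act).symm (x • ActMod.of act w)) (.inl k),
            ActMod.of act₀ fun k => Y.mulVec ((ActMod.of act).symm (x • ActMod.of act w)) (.inr k)) =
          (x • ActMod.of act₀ fun k => Y.mulVec ((ActMod.of act).symm (ActMod.of act w)) (.inl k),
            x • ActMod.of act₀ fun k => Y.mulVec ((ActMod.of act).symm (ActMod.of act w)) (.inr k))
        rw [ActMod.smul_of, AddEquiv.symm_apply_apply, AddEquiv.symm_apply_apply,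
          Matrix.mulVec_mulVec, hY, ← Matrix.mulVec_mulVec, ActMod.smul_of, ActMod.smul_of]
        refine Prod.ext ?_ ?_ <;> refine congrArg (ActMod.of act₀) (funext fun k => ?_) <;>
          simp [Matrix.fromBlocks, Matrix.mulVec, dotProduct, Fintype.sum_sum_type] }
  have hsurj' : Function.Surjective iStar := by
    rintro ⟨m, m'⟩
    obtain ⟨u, rfl⟩ := (ActMod.of act₀).surjective m
    obtain ⟨v, rfl⟩ := (ActMod.of act₀).surjective m'
    obtain ⟨w, hw⟩ := hsurj (Sum.elim u v)
    refine ⟨ActMod.of act w, ?_⟩
    simp [iStar, hw]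
  have hcomp : ∀ m m' : M, iStar (i (m, m')) = (a • m + b • m', c • m + g • m') := by
    intro m m'
    obtain ⟨u, rfl⟩ := (ActMod.of act₀).surjective m
    obtain ⟨v, rfl⟩ := (ActMod.of act₀).surjective m'
    show (ActMod.of act₀ fun k => Y.mulVec ((ActMod.of act).symm (ActMod.of act
          (inc ((ActMod.of act₀).symm (ActMod.of act₀ u)) ((ActMod.of act₀).symm (ActMod.of act₀ v)))))
          (.inl k),
        ActMod.of act₀ fun k => Y.mulVec ((ActMod.of act).symm (ActMod.of act
          (inc ((ActMod.of act₀).symm (ActMod.of act₀ u)) ((ActMod.of act₀).symm (ActMod.of act₀ v)))))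
          (.inr k)) = _
    rw [AddEquiv.symm_apply_apply, AddEquiv.symm_apply_apply, AddEquiv.symm_apply_apply,
      ActMod.smul_of, ActMod.smul_of, ActMod.smul_of, ActMod.smul_of, ← map_add, ← map_add]
    refine Prod.ext ?_ ?_ <;> refine congrArg (ActMod.of act₀) (funext fun k => ?_) <;>
      rw [Matrix.mulVec, dotProduct, ← e.sum_comp, Fintype.sum_sum_type] <;>
      simp [inc, hK, Matrix.fromBlocks, Matrix.mulVec, dotProduct, Fintype.sum_sum_type]
  refine le_trans ?_ (annihilator_coker_le_of_det_mem i iStar hsurj' a b c g hcomp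
    (p := Q) ((ActMod.annihilator_eq act₀).trans_le hQ) hdet)
  intro x hx
  rw [Module.mem_annihilator]
  intro q
  obtain ⟨n, rfl⟩ := Submodule.Quotient.mk_surjective _ q
  obtain ⟨w, rfl⟩ := (ActMod.of act).surjective n
  rw [← Submodule.Quotient.mk_smul, Submodule.Quotient.mk_eq_zero, ActMod.smul_of]
  refine ⟨(ActMod.of act₀ fun k => (act x).mulVec w (e (.inl (.inl k))),
    ActMod.of act₀ fun k => (act x).mulVec w (e (.inl (.inr k)))), ?_⟩
  simp only [i, LinearMap.coe_mk, AddHom.coe_mk, AddEquiv.symm_apply_apply]
  congr 1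
  ext k
  obtain ⟨k, rfl⟩ := e.surjective k
  rcases k with (k | k) | k
  · simp [inc]
  · simp [inc]
  · simp only [inc, Equiv.symm_apply_apply, Sum.elim_inr, Pi.zero_apply]
    rw [Matrix.mulVec, dotProduct, ← e.sum_comp, Fintype.sum_sum_type]
    simp [h₂₁, h₂₂, RingHom.mem_ker.mp hx]

/-- A matrix surjective modulo the maximal ideal is surjective. -/
theorem surjective_mulVec_of_residue {S : Type*} [CommRing S] [IsLocalRing S]
    {m n : Type*} [Fintype m] [Fintype n] (Y : Matrix m n S)
    (h : Function.Surjective (Y.map (residue S)).mulVec) : Function.Surjective Y.mulVec := by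
  classical
  have hle : (⊤ : Submodule S (m → S)) ≤
      LinearMap.range Y.mulVecLin ⊔ maximalIdeal S • (⊤ : Submodule S (m → S)) := by
    intro v _
    obtain ⟨w, hw⟩ := h fun k => residue S (v k)
    choose w' hw' using fun k => residue_surjective (R := S) (w k)
    have hd : v - Y.mulVec w' ∈ maximalIdeal S • (⊤ : Submodule S (m → S)) := by
      rw [show v - Y.mulVec w' = ∑ k, (v - Y.mulVec w') k • (Pi.single k 1 : m → S) from
        (pi_eq_sum_univ' _).trans (by simp [Pi.single_apply, Pi.smul_apply])]
      refine Submodule.sum_mem _ fun k _ => Submodule.smul_mem_smul ?_ Submodule.mem_top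
      rw [← residue_eq_zero_iff, Pi.sub_apply, map_sub, sub_eq_zero, ← congrFun hw k]
      simp [Matrix.mulVec, dotProduct, map_sum, hw']
    exact add_sub_cancel (Y.mulVec w') v ▸ Submodule.add_mem_sup ⟨w', rfl⟩ hd
  have := Submodule.le_of_le_smul_of_le_jacobson_bot (Module.Finite.fg_top (R := S) (M := m → S))
    (IsLocalRing.maximalIdeal_le_jacobson _) hle
  intro v
  exact this (Submodule.mem_top (x := v))

end FA.Patch
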