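import Mathlib.Algebra.MvPolynomial.Division
import Mathlib.RingTheory.MvPolynomial.Basic
import Mathlib.RingTheory.MvPolynomial.Homogeneous
import Mathlib.RingTheory.Ideal.Quotient.Operations
import Mathlib.LinearAlgebra.BilinearForm.Orthogonal
import Mathlib.LinearAlgebra.Matrix.Adjugate
import Mathlib.RingTheory.MvPolynomial.Ideal
import Mathlib.Data.Finsupp.Interval

/-!
# The socle of a triangular complete intersection over a field

For `f i = X i ^ e + ∑ j, r i j * X j` with `totalDegree (r i j) + 1 < e`, the ring `κ[X]/(f)` has the
monomials with all exponents `< e` as basis, the coefficient of `∏ X i ^ (e-1)` is a perfect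
functional, and every ideal not containing the determinant `θ` of the presentation matrix is
killed by an element not vanishing at the origin.
-/

set_option autoImplicit false

noncomputable section

open MvPolynomial Finset

namespace FA.Patch.SocleCI

variable {κ : Type*} [Field κ] {k : ℕ}

/-- Exponents lying in the box `[0, e)^k`. -/
def InBox (e : ℕ) (m : Fin k →₀ ℕ) : Prop := ∀ i, m i < e

/-- The corner of the box. -/
def top (k e : ℕ) : Fin k →₀ ℕ := Finsupp.equivFunOnFinite.symm fun _ => e - 1

lemma top_apply (e : ℕ) (i : Fin k) : top k e i = e - 1 := rfl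

/-- Polynomials supported in the box. -/
def boxSub (k e : ℕ) : Submodule κ (MvPolynomial (Fin k) κ) where
  carrier := {g | ∀ m, coeff m g ≠ 0 → InBox e m}
  add_mem' {a b} ha hb m hm := by
    by_cases h : coeff m a = 0
    · exact hb m (by simpa [coeff_add, h] using hm)
    · exact ha m h
  zero_mem' m hm := by simp at hm
  smul_mem' c a ha m hm := ha m fun h => hm (by simp [coeff_smul, h])

/-- Some coordinate of a monomial outside the box. -/
def pivot (e : ℕ) (m : Fin k →₀ ℕ) : Option (Fin k) := by
  classical
  exact if h : ∃ i, e ≤ m i then some h.choose else none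

lemma pivot_spec {e : ℕ} {m : Fin k →₀ ℕ} {i : Fin k} (h : pivot e m = some i) : e ≤ m i := by
  rw [pivot] at h
  split at h
  · next hx => exact (Option.some.inj h) ▸ hx.choose_spec
  · cases h

lemma exists_pivot_of_le {e : ℕ} {m : Fin k →₀ ℕ} {i : Fin k} (h : e ≤ m i) :
    ∃ j, pivot e m = some j := by
  rw [pivot, dif_pos ⟨i, h⟩]
  exact ⟨_, rfl⟩

/-- Projection onto the monomials with given pivot. -/
def proj (e : ℕ) (i : Fin k) : MvPolynomial (Fin k) κ →ₗ[κ] MvPolynomial (Fin k) κ :=
  (basisMonomials (Fin k) κ).constr κ fun m =>
    if pivot e m = some i then monomial m (1 : κ) else 0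

lemma proj_monomial (e : ℕ) (i : Fin k) (m : Fin k →₀ ℕ) (c : κ) :
    proj e i (monomial m c) = if pivot e m = some i then monomial m c else 0 := by
  have h1 : monomial m c = c • (basisMonomials (Fin k) κ) m := by
    rw [coe_basisMonomials, smul_monomial, smul_eq_mul, mul_one]
  rw [h1, map_smul, proj, Module.Basis.constr_basis]
  split
  · rw [coe_basisMonomials]
  · rw [smul_zero]

lemma coeff_proj (e : ℕ) (i : Fin k) (g : MvPolynomial (Fin k) κ) (m : Fin k →₀ ℕ) :
    coeff m (proj e i g) = if pivot e m = some i then coeff m g else 0 := by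
  classical
  induction g using MvPolynomial.induction_on' with
  | monomial u a =>
    rw [proj_monomial]
    by_cases hum : u = m
    · subst hum
      split <;> simp
    · split <;> simp [hum]
  | add p q hp hq => rw [map_add, coeff_add, hp, hq, coeff_add]; split <;> simp

/-- Koszul: relations between the pure powers are generated by the trivial ones. -/
lemma koszul (e : ℕ) (b : Fin k → MvPolynomial (Fin k) κ) (hb : ∑ i, b i * X i ^ e = 0) :
    ∃ c : Fin k → Fin k → MvPolynomial (Fin k) κ, (∀ i j, c i j = -c j i) ∧ (∀ i, c i i = 0) ∧
      ∀ i, b i = ∑ j, c i j * X j ^ e := by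
  classical
  have hXe : ∀ i : Fin k, (X i : MvPolynomial (Fin k) κ) ^ e = monomial (Finsupp.single i e) 1 :=
    fun i => by rw [X_pow_eq_monomial]
  -- `p i j` is the part of `b i * X i ^ e` with pivot `j`
  let p : Fin k → Fin k → MvPolynomial (Fin k) κ := fun i j => proj e j (b i * X i ^ e)
  let q : Fin k → Fin k → MvPolynomial (Fin k) κ := fun i j =>
    if i = j then 0 else
      (p i j).divMonomial (Finsupp.single i e + Finsupp.single j e)
  have hq : ∀ i j, i ≠ j → q i j * (X i ^ e * X j ^ e) = p i j := by
    intro i j hij
    have hd : monomial (Finsupp.single i e + Finsupp.single j e) (1 : κ) ∣ p i j := by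
      rw [MvPolynomial.monomial_one_dvd_iff_modMonomial_eq_zero]
      ext m
      rw [coeff_zero]
      by_cases hle : Finsupp.single i e + Finsupp.single j e ≤ m
      · exact coeff_modMonomial_of_le _ hle
      · rw [coeff_modMonomial_of_not_le _ hle, coeff_proj]
        split
        · next hp =>
          by_contra hne
          apply hle
          have h1 : Finsupp.single i e ≤ m := by
            rw [hXe, coeff_mul_monomial'] at hne
            by_contra h
            simp [h] at hne
          have h2 := pivot_spec hp
          intro l
          have h1i := h1 i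
          simp only [Finsupp.single_eq_same] at h1i
          by_cases hli : l = i
          · subst hli; simp [hij]; omega
          · by_cases hlj : l = j
            · subst hlj; simp [hli]; omega
            · simp [hli, hlj]
        · rfl
    have := (p i j).divMonomial_add_modMonomial (Finsupp.single i e + Finsupp.single j e)
    rw [(MvPolynomial.monomial_one_dvd_iff_modMonomial_eq_zero).mp hd, add_zero] at this
    simp only [q, if_neg hij]
    rw [hXe, hXe, monomial_mul, one_mul, mul_comm]
    exact this
  have hqq : ∀ i, q i i = 0 := fun i => by simp [q]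
  refine ⟨fun i j => q i j - q j i, fun i j => by ring, fun i => sub_self _, fun i => ?_⟩
  have hsum : ∀ g : MvPolynomial (Fin k) κ, (∀ m, coeff m g ≠ 0 → ∃ l, e ≤ m l) →
      ∑ j, proj e j g = g := by
    intro g hg
    ext m
    rw [coeff_sum]
    simp_rw [coeff_proj]
    by_cases h0 : coeff m g = 0
    · simp [h0]
    · obtain ⟨l, hl⟩ := hg m h0
      obtain ⟨j, hj⟩ := exists_pivot_of_le hl
      simp [hj]
  have hdec : ∑ j, p i j = b i * X i ^ e := by
    refine hsum _ fun m hm => ⟨i, ?_⟩
    rw [hXe, coeff_mul_monomial'] at hm
    by_cases hle : Finsupp.single i e ≤ m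
    · simpa using hle i
    · simp [hle] at hm
  have hzero : ∑ l, p l i = 0 := by
    rw [← map_sum, hb, map_zero]
  refine mul_right_cancel₀ (pow_ne_zero e (X_ne_zero i)) ?_
  have h1 : ∀ j, (q i j - q j i) * X j ^ e * X i ^ e =
      (if i = j then 0 else p i j) - (if i = j then 0 else p j i) := by
    intro j
    by_cases hij : i = j
    · subst hij; simp [hqq]
    · rw [if_neg hij, if_neg hij, ← hq i j hij, ← hq j i (Ne.symm hij)]
      ring
  rw [Finset.sum_mul, Finset.sum_congr rfl (fun j _ => h1 j), Finset.sum_sub_distrib]
  have h2 : ∀ g : Fin k → MvPolynomial (Fin k) κ,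
      ∑ j, (if i = j then 0 else g j) = (∑ j, g j) - g i := by
    intro g
    rw [eq_sub_iff_add_eq,
      show g i = ∑ j, (if i = j then g j else 0) by simp, ← Finset.sum_add_distrib]
    refine Finset.sum_congr rfl fun j _ => ?_
    split <;> simp
  rw [h2, h2, hdec, hzero]
  ring

variable (e : ℕ) (r : Fin k → Fin k → MvPolynomial (Fin k) κ)

/-- The `i`-th relation. -/
def rel (i : Fin k) : MvPolynomial (Fin k) κ := X i ^ e + ∑ j, r i j * X j

/-- The ideal of relations. -/
def relIdeal : Ideal (MvPolynomial (Fin k) κ) := Ideal.span (Set.range (rel e r))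

/-- The matrix with `rel i = ∑ j, pres i j * X j`. -/
def pres : Matrix (Fin k) (Fin k) (MvPolynomial (Fin k) κ) :=
  Matrix.of fun i j => (if i = j then X i ^ (e - 1) else 0) + r i j

/-- Degrees of the lower terms are small. -/
def Small : Prop := ∀ i j, (r i j).totalDegree + 1 < e

variable {e r}

lemma rel_eq_pres (he : 1 ≤ e) (i : Fin k) : rel e r i = ∑ j, pres e r i j * X j := by
  simp only [rel, pres, Matrix.of_apply, add_mul, Finset.sum_add_distrib, ite_mul, zero_mul,
    Finset.sum_ite_eq, Finset.mem_univ, if_true]
  rw [← pow_succ, Nat.sub_add_cancel he]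

lemma totalDegree_lower (hs : Small e r) (i : Fin k) :
    (∑ j, r i j * X j).totalDegree < e := by
  have he : 0 < e := by have := hs i i; omega
  refine lt_of_le_of_lt (totalDegree_finsetSum _ _) ((Finset.sup_lt_iff he).mpr fun j _ => ?_)
  refine lt_of_le_of_lt (totalDegree_mul _ _) ?_
  rw [totalDegree_X]
  exact hs i j

lemma coeff_eq_zero_of_lt {g : MvPolynomial (Fin k) κ} {m : Fin k →₀ ℕ}
    (h : g.totalDegree < Finsupp.degree m) : coeff m g = 0 := by
  by_contra hne
  have := le_totalDegree (mem_support_iff.mpr hne)
  rw [Finsupp.degree_eq_sum] at h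
  rw [Finsupp.sum_fintype _ _ (fun _ => rfl)] at this
  omega

lemma exists_box_rep (hs : Small e r) (g : MvPolynomial (Fin k) κ) :
    ∃ b ∈ boxSub k e, b.totalDegree ≤ g.totalDegree ∧ g - b ∈ relIdeal e r := by
  classical
  suffices H : ∀ D : ℕ, ∀ m : Fin k →₀ ℕ, Finsupp.degree m ≤ D →
      ∃ b ∈ boxSub (κ := κ) k e, b.totalDegree ≤ Finsupp.degree m ∧
        monomial m (1 : κ) - b ∈ relIdeal e r by
    choose b hb hdeg hmem using fun m => H _ m le_rfl
    refine ⟨∑ m ∈ g.support, coeff m g • b m, Submodule.sum_mem _ fun m _ =>
      Submodule.smul_mem _ _ (hb m), ?_, ?_⟩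
    · refine (totalDegree_finsetSum _ _).trans (Finset.sup_le fun m hm => ?_)
      refine (totalDegree_smul_le _ _).trans ((hdeg m).trans ?_)
      have := le_totalDegree hm
      rw [Finsupp.sum_fintype _ _ (fun _ => rfl)] at this
      rw [Finsupp.degree_eq_sum]
      exact this
    · have hg : g - ∑ m ∈ g.support, coeff m g • b m =
          ∑ m ∈ g.support, C (coeff m g) * (monomial m 1 - b m) := by
        simp only [mul_sub, Finset.sum_sub_distrib, ← smul_eq_C_mul]
        congr 1
        conv_lhs => rw [as_sum g]
        exact Finset.sum_congr rfl fun m _ => by simp [smul_monomial]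
      rw [hg]
      exact Ideal.sum_mem _ fun m _ => Ideal.mul_mem_left _ _ (hmem m)
  intro D
  induction D using Nat.strong_induction_on with
  | _ D ih =>
    intro m hm
    by_cases hbox : InBox e m
    · refine ⟨monomial m 1, fun u hu => ?_, ?_, by simp⟩
      · rw [coeff_monomial] at hu
        split at hu
        · next h => exact h ▸ hbox
        · exact absurd rfl hu
      · rw [totalDegree_monomial _ one_ne_zero, Finsupp.sum_fintype _ _ (fun _ => rfl),
          Finsupp.degree_eq_sum]
    · simp only [InBox, not_forall, not_lt] at hbox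
      obtain ⟨i, hi⟩ := hbox
      set n := m - Finsupp.single i e with hn
      have hmn : Finsupp.single i e + n = m := by
        rw [hn]
        exact add_tsub_cancel_of_le (Finsupp.single_le_iff.mpr hi)
      let h := monomial n (1 : κ) * ∑ j, r i j * X j
      have hdeg_m : Finsupp.degree m = e + Finsupp.degree n := by
        rw [← hmn, map_add, Finsupp.degree_single]
      have hlow : h.totalDegree < Finsupp.degree m := by
        refine lt_of_le_of_lt (totalDegree_mul _ _) ?_
        rw [totalDegree_monomial _ one_ne_zero, Finsupp.sum_fintype _ _ (fun _ => rfl),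
          ← Finsupp.degree_eq_sum, hdeg_m]
        have := totalDegree_lower hs i
        omega
      have key : ∀ u ∈ h.support, ∃ b ∈ boxSub (κ := κ) k e,
          b.totalDegree ≤ Finsupp.degree m ∧ monomial u (1 : κ) - b ∈ relIdeal e r := by
        intro u hu
        have hu' : Finsupp.degree u < Finsupp.degree m := by
          by_contra hle
          exact mem_support_iff.mp hu (coeff_eq_zero_of_lt (lt_of_lt_of_le hlow (not_lt.mp hle)))
        obtain ⟨b, hb, hbd, hbm⟩ := ih (Finsupp.degree u) (by omega) u le_rfl
        exact ⟨b, hb, hbd.trans hu'.le, hbm⟩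
      choose b hb hbd hbm using key
      refine ⟨-∑ u ∈ h.support.attach, coeff u.1 h • b u.1 u.2, Submodule.neg_mem _
        (Submodule.sum_mem _ fun u _ => Submodule.smul_mem _ _ (hb u.1 u.2)), ?_, ?_⟩
      · rw [totalDegree_neg]
        exact (totalDegree_finsetSum _ _).trans (Finset.sup_le fun u _ =>
          (totalDegree_smul_le _ _).trans (hbd u.1 u.2))
      · have h1 : monomial m (1 : κ) + h ∈ relIdeal e r := by
          have : monomial m (1 : κ) + h = monomial n 1 * rel e r i := by
            rw [rel, mul_add, X_pow_eq_monomial, monomial_mul, one_mul, add_comm n, hmn]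
          rw [this]
          exact Ideal.mul_mem_left _ _ (Ideal.subset_span ⟨i, rfl⟩)
        have h2 : h - ∑ u ∈ h.support.attach, coeff u.1 h • b u.1 u.2 ∈ relIdeal e r := by
          have hh : h = ∑ u ∈ h.support.attach, C (coeff u.1 h) * monomial u.1 1 := by
            conv_lhs => rw [as_sum h, ← Finset.sum_attach]
            exact Finset.sum_congr rfl fun u _ => by simp [C_mul_monomial]
          nth_rw 1 [hh]
          rw [← Finset.sum_sub_distrib]
          refine Ideal.sum_mem _ fun u _ => ?_
          rw [smul_eq_C_mul, ← mul_sub]
          exact Ideal.mul_mem_left _ _ (hbm u.1 u.2)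
        have := sub_mem h1 h2
        convert this using 1
        ring

lemma eq_zero_of_mem_box (hs : Small e r) {g : MvPolynomial (Fin k) κ} (hg : g ∈ boxSub k e)
    (hgI : g ∈ relIdeal e r) : g = 0 := by
  classical
  obtain ⟨b, rfl⟩ := (Ideal.mem_span_range_iff_exists_fun).mp hgI
  suffices H : ∀ D : ℕ, ∀ b : Fin k → MvPolynomial (Fin k) κ, (∀ i, (b i).totalDegree ≤ D) →
      (∑ i, b i * rel e r i) ∈ boxSub k e → ∑ i, b i * rel e r i = 0 by
    exact H _ b (fun i => Finset.le_sup (f := fun i => (b i).totalDegree) (Finset.mem_univ i)) hg
  intro D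
  induction D with
  | zero =>
    intro b hb hbox
    have hconst : ∀ i, b i = C (coeff 0 (b i)) := fun i =>
      totalDegree_eq_zero_iff_eq_C.mp (Nat.le_zero.mp (hb i))
    have hz : ∀ i, b i = 0 := by
      intro i
      have he : 1 < e := by have := hs i i; omega
      have hc : coeff (Finsupp.single i e) (∑ l, b l * rel e r l) = coeff 0 (b i) := by
        rw [coeff_sum, Finset.sum_eq_single i]
        · conv_lhs => rw [hconst i, coeff_C_mul, rel, coeff_add, coeff_X_pow, if_pos rfl]
          rw [coeff_eq_zero_of_lt (g := ∑ j, r i j * X j)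
              (by rw [Finsupp.degree_single]; exact totalDegree_lower hs i)]
          ring
        · intro l _ hl
          rw [hconst l, coeff_C_mul, rel, coeff_add, coeff_X_pow,
            if_neg (fun h => hl (Finsupp.single_left_injective (show e ≠ 0 by omega) h)),
            coeff_eq_zero_of_lt (g := ∑ j, r l j * X j)
              (by rw [Finsupp.degree_single]; exact totalDegree_lower hs l)]
          ring
        · simp
      by_contra hne
      have h0 : coeff 0 (b i) ≠ 0 := fun h => hne (by rw [hconst i, h, map_zero])
      have := hbox _ (by rw [hc]; exact h0) i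
      simp at this
    simp [hz]
  | succ D ih =>
    intro b hb hbox
    let B : Fin k → MvPolynomial (Fin k) κ := fun i => homogeneousComponent (D + 1) (b i)
    have hBtop : ∑ i, B i * X i ^ e = 0 := by
      ext m
      rw [coeff_zero, coeff_sum]
      by_cases hd : Finsupp.degree m = D + 1 + e
      · have hterm : ∀ i, coeff m (B i * X i ^ e) = coeff m (b i * rel e r i) := by
          intro i
          have hrest : coeff m (b i * ∑ j, r i j * X j) = 0 := by
            refine coeff_eq_zero_of_lt (lt_of_le_of_lt (totalDegree_mul _ _) ?_)
            have := totalDegree_lower hs i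
            have := hb i
            omega
          rw [rel, mul_add, coeff_add, hrest, add_zero, X_pow_eq_monomial, coeff_mul_monomial',
            coeff_mul_monomial']
          by_cases hle : Finsupp.single i e ≤ m
          · rw [if_pos hle, if_pos hle, coeff_homogeneousComponent, if_pos]
            have := congrArg Finsupp.degree (tsub_add_cancel_of_le hle)
            rw [map_add, Finsupp.degree_single] at this
            omega
          · rw [if_neg hle, if_neg hle]
        by_cases hbx : InBox e m
        · refine Finset.sum_eq_zero fun i _ => ?_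
          rw [X_pow_eq_monomial, coeff_mul_monomial', if_neg]
          intro hle
          have := hle i
          have := hbx i
          simp at *
          omega
        · simp_rw [hterm, ← coeff_sum]
          by_contra hne
          exact hbx (hbox m hne)
      · refine Finset.sum_eq_zero fun i _ => ?_
        rw [X_pow_eq_monomial, coeff_mul_monomial']
        split
        · next hle =>
          rw [coeff_homogeneousComponent, if_neg, zero_mul]
          intro h
          apply hd
          have := congrArg Finsupp.degree (tsub_add_cancel_of_le hle)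
          rw [map_add, Finsupp.degree_single] at this
          omega
        · rfl
    obtain ⟨c, hanti, hcii, hc⟩ := koszul e B hBtop
    -- replace the coefficients by the homogeneous parts of the right degree
    let c' : Fin k → Fin k → MvPolynomial (Fin k) κ :=
      fun i j => if e ≤ D + 1 then homogeneousComponent (D + 1 - e) (c i j) else 0
    have hc' : ∀ i, B i = ∑ j, c' i j * X j ^ e := by
      intro i
      ext m
      have hBm : coeff m (B i) = if Finsupp.degree m = D + 1 then coeff m (∑ j, c i j * X j ^ e) else 0 := by
        by_cases h : Finsupp.degree m = D + 1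
        · rw [if_pos h, ← hc i]
        · rw [if_neg h]
          exact (coeff_homogeneousComponent _ _ _).trans (if_neg h)
      rw [hBm, coeff_sum, coeff_sum]
      have hj : ∀ j, coeff m (c' i j * X j ^ e) =
          if Finsupp.degree m = D + 1 then coeff m (c i j * X j ^ e) else 0 := by
        intro j
        rw [X_pow_eq_monomial, coeff_mul_monomial', coeff_mul_monomial']
        by_cases hle : Finsupp.single j e ≤ m
        · have hdm := congrArg Finsupp.degree (tsub_add_cancel_of_le hle)
          rw [map_add, Finsupp.degree_single] at hdm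
          simp only [if_pos hle, c']
          by_cases he : e ≤ D + 1
          · rw [if_pos he, coeff_homogeneousComponent]
            by_cases h : Finsupp.degree m = D + 1
            · rw [if_pos h, if_pos (by omega)]
            · rw [if_neg h, if_neg (by omega), zero_mul]
          · rw [if_neg he, coeff_zero, zero_mul, if_neg (by omega)]
        · rw [if_neg hle, if_neg hle]
          split <;> rfl
      rw [Finset.sum_congr rfl fun j _ => hj j]
      split <;> simp
    have hanti' : ∀ i j, c' i j = -c' j i := fun i j => by
      simp only [c']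
      split
      · rw [hanti i j, map_neg]
      · simp
    have hdiag : ∑ i, (∑ j, c' i j * rel e r j) * rel e r i = 0 := by
      simp_rw [Finset.sum_mul]
      have h2 : ∀ F : Fin k → Fin k → MvPolynomial (Fin k) κ, (∀ i j, F i j = -F j i) →
          (∀ i, F i i = 0) → ∑ i, ∑ j, F i j = 0 := by
        intro F hF hFd
        rw [← Finset.sum_product']
        refine Finset.sum_involution (fun p _ => (p.2, p.1)) ?_ ?_ (fun _ _ => Finset.mem_univ _)
          (fun _ _ => rfl)
        · intro p _
          rw [hF p.1 p.2]
          exact neg_add_cancel _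
        · intro p _ hp heq
          rw [Prod.ext_iff] at heq
          exact hp (heq.1 ▸ hFd p.1)
      refine h2 _ (fun i j => ?_) (fun i => by simp [c', hcii i])
      rw [hanti' i j]
      ring
    let b' : Fin k → MvPolynomial (Fin k) κ := fun i => b i - ∑ j, c' i j * rel e r j
    have heq : ∑ i, b' i * rel e r i = ∑ i, b i * rel e r i := by
      simp only [b', sub_mul, Finset.sum_sub_distrib, hdiag, sub_zero]
    rw [← heq] at hbox ⊢
    refine ih b' (fun i => ?_) hbox
    refine Finset.sup_le fun m hm => ?_
    rw [mem_support_iff] at hm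
    rw [Finsupp.sum_fintype _ _ (fun _ => rfl), ← Finsupp.degree_eq_sum]
    by_contra hlt
    apply hm
    have hcrest : coeff m (∑ j, c' i j * ∑ l, r j l * X l) = 0 := by
      rw [coeff_sum]
      refine Finset.sum_eq_zero fun j _ => ?_
      simp only [c']
      split
      · next he =>
        refine coeff_eq_zero_of_lt (lt_of_le_of_lt (totalDegree_mul _ _) ?_)
        have h1 : (homogeneousComponent (D + 1 - e) (c i j)).totalDegree ≤ D + 1 - e :=
          (homogeneousComponent_isHomogeneous _ _).totalDegree_le
        have := totalDegree_lower hs j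
        omega
      · simp
    simp only [b', rel, mul_add, Finset.sum_add_distrib, coeff_sub, coeff_add, hcrest, add_zero,
      ← hc' i]
    simp only [B, coeff_homogeneousComponent]
    split
    · exact sub_self _
    · rw [coeff_eq_zero_of_lt (by have := hb i; omega), sub_zero]

/-- The box representative of a polynomial. -/
def nf (hs : Small e r) (g : MvPolynomial (Fin k) κ) : MvPolynomial (Fin k) κ :=
  (exists_box_rep hs g).choose

lemma nf_spec (hs : Small e r) (g : MvPolynomial (Fin k) κ) :
    nf hs g ∈ boxSub k e ∧ (nf hs g).totalDegree ≤ g.totalDegree ∧ g - nf hs g ∈ relIdeal e r :=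
  (exists_box_rep hs g).choose_spec

lemma nf_eq (hs : Small e r) {g b : MvPolynomial (Fin k) κ} (hb : b ∈ boxSub k e)
    (h : g - b ∈ relIdeal e r) : nf hs g = b := by
  rw [← sub_eq_zero]
  refine eq_zero_of_mem_box hs (Submodule.sub_mem _ (nf_spec hs g).1 hb) ?_
  have := sub_mem h (nf_spec hs g).2.2
  rwa [sub_sub_sub_cancel_left] at this

/-- The functional "coefficient of the corner". -/
def corner (hs : Small e r) : MvPolynomial (Fin k) κ →ₗ[κ] κ where
  toFun g := coeff (top k e) (nf hs g)
  map_add' a b := by
    rw [nf_eq hs (Submodule.add_mem _ (nf_spec hs a).1 (nf_spec hs b).1), coeff_add]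
    rw [add_sub_add_comm]
    exact add_mem (nf_spec hs a).2.2 (nf_spec hs b).2.2
  map_smul' c a := by
    rw [nf_eq hs (Submodule.smul_mem _ c (nf_spec hs a).1), coeff_smul]
    · rfl
    rw [← smul_sub, smul_eq_C_mul]
    exact Ideal.mul_mem_left _ _ (nf_spec hs a).2.2

lemma corner_eq_zero_of_mem (hs : Small e r) {g : MvPolynomial (Fin k) κ}
    (h : g ∈ relIdeal e r) : corner hs g = 0 := by
  show coeff _ (nf hs g) = 0
  rw [nf_eq hs (Submodule.zero_mem _) (by simpa using h), coeff_zero]

lemma corner_eq_zero_of_lt (hs : Small e r) {g : MvPolynomial (Fin k) κ}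
    (h : g.totalDegree < Finsupp.degree (top k e)) : corner hs g = 0 :=
  coeff_eq_zero_of_lt (lt_of_le_of_lt (nf_spec hs g).2.1 h)

lemma inBox_top (hs : Small e r) : InBox e (top k e) := fun i => by
  have := hs i i
  rw [top_apply]
  omega

lemma corner_monomial (hs : Small e r) {m : Fin k →₀ ℕ}
    (hm : Finsupp.degree m ≤ Finsupp.degree (top k e)) :
    corner hs (monomial m (1 : κ)) = if m = top k e then 1 else 0 := by
  classical
  by_cases hbox : InBox e m
  · show coeff _ (nf hs _) = _
    rw [nf_eq hs (b := monomial m 1) (fun u hu => ?_) (by simp), coeff_monomial]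
    rw [coeff_monomial] at hu
    split at hu
    · next h => exact h ▸ hbox
    · exact absurd rfl hu
  · rw [if_neg (fun h => hbox (by rw [h]; exact inBox_top hs))]
    simp only [InBox, not_forall, not_lt] at hbox
    obtain ⟨i, hi⟩ := hbox
    set n := m - Finsupp.single i e
    have hmn : Finsupp.single i e + n = m := add_tsub_cancel_of_le (Finsupp.single_le_iff.mpr hi)
    have h1 : monomial m (1 : κ) + monomial n 1 * (∑ j, r i j * X j) ∈ relIdeal e r := by
      have : monomial m (1 : κ) + monomial n 1 * (∑ j, r i j * X j) = monomial n 1 * rel e r i := by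
        rw [rel, mul_add, X_pow_eq_monomial, monomial_mul, one_mul, add_comm n, hmn]
      rw [this]
      exact Ideal.mul_mem_left _ _ (Ideal.subset_span ⟨i, rfl⟩)
    have h2 := corner_eq_zero_of_mem hs h1
    rw [map_add, corner_eq_zero_of_lt hs (g := monomial n (1 : κ) * _) ?_, add_zero] at h2
    · exact h2
    refine lt_of_le_of_lt (totalDegree_mul _ _) ?_
    rw [totalDegree_monomial _ one_ne_zero, Finsupp.sum_fintype _ _ (fun _ => rfl),
      ← Finsupp.degree_eq_sum]
    have := totalDegree_lower hs i
    have hd := congrArg Finsupp.degree hmn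
    rw [map_add, Finsupp.degree_single] at hd
    omega

/-- The corner functional is perfect on `κ[X]/(f)`. -/
theorem mem_relIdeal_of_forall_corner (hs : Small e r) {g : MvPolynomial (Fin k) κ}
    (h : ∀ b, corner hs (g * b) = 0) : g ∈ relIdeal e r := by
  classical
  obtain ⟨hbox, -, hmem⟩ := nf_spec hs g
  suffices h0 : nf hs g = 0 by simpa [h0] using hmem
  set p := nf hs g
  by_contra hne
  have hne' : p.support.Nonempty := support_nonempty.mpr hne
  obtain ⟨m₀, hm₀, hmax⟩ := p.support.exists_max_image Finsupp.degree hne'
  have hle : m₀ ≤ top k e := fun i => by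
    have := hbox m₀ (mem_support_iff.mp hm₀) i
    rw [top_apply]
    omega
  set n := top k e - m₀ with hn
  have hnm : n + m₀ = top k e := tsub_add_cancel_of_le hle
  have hval : corner hs (p * monomial n 1) = coeff m₀ p := by
    conv_lhs => rw [as_sum p, Finset.sum_mul, map_sum]
    rw [Finset.sum_eq_single m₀]
    · rw [monomial_mul, mul_one, show monomial (m₀ + n) (coeff m₀ p) =
        coeff m₀ p • monomial (m₀ + n) (1 : κ) by simp [smul_monomial], map_smul,
        corner_monomial hs (by rw [add_comm, hnm]), if_pos (by rw [add_comm, hnm])]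
      simp
    · intro m hm hne
      have hd := hmax m hm
      have hdn := congrArg Finsupp.degree hnm
      rw [map_add] at hdn
      rw [monomial_mul, mul_one, show monomial (m + n) (coeff m p) =
        coeff m p • monomial (m + n) (1 : κ) by simp [smul_monomial], map_smul,
        corner_monomial hs (by rw [map_add]; omega), if_neg, smul_zero]
      intro heq
      exact hne (add_right_cancel (heq.trans (by rw [← hnm, add_comm])))
    · intro hm
      exact absurd hm₀ hm
  have hzero : corner hs (p * monomial n 1) = 0 := by
    have h1 : corner hs ((g - p) * monomial n 1) = 0 :=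
      corner_eq_zero_of_mem hs (Ideal.mul_mem_right _ _ hmem)
    rw [sub_mul, map_sub, h, zero_sub, neg_eq_zero] at h1
    exact h1
  exact mem_support_iff.mp hm₀ (hval.symm.trans hzero)

/-- The determinant is the dual of the corner. -/
theorem corner_det (hs : Small e r) : corner hs (pres e r).det = 1 := by
  classical
  rw [Matrix.det_apply, map_sum, Finset.sum_eq_single 1]
  · have key : ∀ s : Finset (Fin k), corner hs
        ((∏ i ∈ s, X i ^ (e - 1)) * ∏ i ∈ sᶜ, pres e r i i) = corner hs (∏ i, pres e r i i) := by
      intro s
      induction s using Finset.induction_on with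
      | empty => simp
      | @insert a s ha ih =>
        rw [← ih]
        have hsc : sᶜ = insert a (insert a s)ᶜ := by
          ext x
          by_cases hx : x = a <;> simp [hx, ha]
        conv_rhs => rw [hsc, Finset.prod_insert (by simp)]
        rw [Finset.prod_insert ha]
        have hsplit : pres e r a a = X a ^ (e - 1) + r a a := by simp [pres]
        rw [hsplit, add_mul, mul_add, map_add]
        have hlow : corner hs ((∏ i ∈ s, X i ^ (e - 1)) *
            (r a a * ∏ i ∈ (insert a s)ᶜ, pres e r i i)) = 0 := by
          refine corner_eq_zero_of_lt hs ?_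
          have hdiag : ∀ i, (pres e r i i).totalDegree ≤ e - 1 := fun i => by
            simp only [pres, Matrix.of_apply, if_true]
            refine (totalDegree_add _ _).trans (max_le ((totalDegree_pow _ _).trans ?_) ?_)
            · simp [totalDegree_X]
            · have := hs i i; omega
          refine lt_of_le_of_lt (totalDegree_mul _ _) ?_
          refine lt_of_le_of_lt (add_le_add (totalDegree_finsetProd _ _) (totalDegree_mul _ _)) ?_
          have h1 : ∑ i ∈ s, ((X i : MvPolynomial (Fin k) κ) ^ (e - 1)).totalDegree ≤
              s.card * (e - 1) := by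
            refine (Finset.sum_le_card_nsmul _ _ (e - 1) fun i _ => ?_).trans (by rw [smul_eq_mul])
            exact (totalDegree_pow _ _).trans (by simp [totalDegree_X])
          have h2 : (∏ i ∈ (insert a s)ᶜ, pres e r i i).totalDegree ≤
              ((insert a s)ᶜ).card * (e - 1) := by
            refine (totalDegree_finsetProd _ _).trans ?_
            exact (Finset.sum_le_card_nsmul _ _ (e - 1) fun i _ => hdiag i).trans
              (by rw [smul_eq_mul])
          have h3 := hs a a
          have h4 : s.card + 1 + ((insert a s)ᶜ).card = k := by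
            have := Finset.card_add_card_compl (insert a s)
            rw [Finset.card_insert_of_notMem ha, Fintype.card_fin] at this
            exact this
          have h5 : Finsupp.degree (top k e) = k * (e - 1) := by
            simp [Finsupp.degree_eq_sum, top_apply]
          rw [h5]
          have h6 : k * (e - 1) = s.card * (e - 1) + (e - 1) + ((insert a s)ᶜ).card * (e - 1) := by
            calc k * (e - 1) = (s.card + 1 + ((insert a s)ᶜ).card) * (e - 1) := by rw [h4]
              _ = _ := by ring
          omega
        rw [hlow, add_zero]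
        congr 1
        ring
    have h1 := key Finset.univ
    rw [Finset.compl_univ, Finset.prod_empty, mul_one] at h1
    have h2 : (∏ i : Fin k, (X i : MvPolynomial (Fin k) κ) ^ (e - 1)) = monomial (top k e) 1 := by
      simp_rw [X_pow_eq_monomial]
      rw [← monomial_sum_one]
      congr 2
      ext j
      rw [top_apply, Finsupp.finsetSum_apply, Finset.sum_eq_single j]
      · simp
      · intro i _ hij
        simp [hij]
      · simp
    rw [h2, corner_monomial hs le_rfl, if_pos rfl] at h1
    simpa using h1.symm
  · intro σ _ hσ
    have h0 : corner hs (∏ i, pres e r (σ i) i) = 0 := by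
      refine corner_eq_zero_of_lt hs (lt_of_le_of_lt (totalDegree_finsetProd _ _) ?_)
      obtain ⟨a, ha⟩ : ∃ a, σ a ≠ a := by
        by_contra hcon
        push Not at hcon
        exact hσ (Equiv.ext hcon)
      rw [Finsupp.degree_eq_sum]
      refine Finset.sum_lt_sum (fun i _ => ?_) ⟨a, Finset.mem_univ _, ?_⟩
      · rw [top_apply]
        simp only [pres, Matrix.of_apply]
        refine (totalDegree_add _ _).trans (max_le ?_ ?_)
        · split
          · exact (totalDegree_pow _ _).trans (by simp [totalDegree_X])
          · simp
        · have := hs (σ i) i; omega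
      · rw [top_apply]
        simp only [pres, Matrix.of_apply, if_neg ha, zero_add]
        have := hs (σ a) a
        omega
    rw [Units.smul_def, map_zsmul, h0, smul_zero]
  · simp

lemma det_mul_X_mem (he : 1 ≤ e) (j : Fin k) : (pres e r).det * X j ∈ relIdeal e r := by
  have h := congrFun (show Matrix.mulVec (pres e r).adjugate
      (Matrix.mulVec (pres e r) (fun l => (X l : MvPolynomial (Fin k) κ))) =
      (pres e r).det • fun l => (X l : MvPolynomial (Fin k) κ) by
    rw [Matrix.mulVec_mulVec, Matrix.adjugate_mul, Matrix.smul_mulVec, Matrix.one_mulVec]) j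
  rw [Pi.smul_apply, smul_eq_mul] at h
  rw [← h]
  show (∑ i, (pres e r).adjugate j i *
    Matrix.mulVec (pres e r) (fun l => (X l : MvPolynomial (Fin k) κ)) i) ∈ relIdeal e r
  refine Ideal.sum_mem _ fun i _ => Ideal.mul_mem_left _ _ ?_
  show Matrix.mulVec (pres e r) (fun l => (X l : MvPolynomial (Fin k) κ)) i ∈ relIdeal e r
  have : Matrix.mulVec (pres e r) (fun l => (X l : MvPolynomial (Fin k) κ)) i = rel e r i := by
    rw [rel_eq_pres he]
    rfl
  rw [this]
  exact Ideal.subset_span ⟨i, rfl⟩

/-- **Socle property.** Every element of an ideal `𝔞 ⊇ (f)` not containing the determinant is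
killed modulo `(f)` by an element which does not vanish at the origin. -/
theorem exists_unit_mul_mem (hs : Small e r) {𝔞 : Ideal (MvPolynomial (Fin k) κ)}
    (hI : relIdeal e r ≤ 𝔞) (hdet : (pres e r).det ∉ 𝔞) {F : MvPolynomial (Fin k) κ} (hF : F ∈ 𝔞) :
    ∃ b : MvPolynomial (Fin k) κ, constantCoeff b ≠ 0 ∧ b * F ∈ relIdeal e r := by
  classical
  by_contra hcon
  push Not at hcon
  apply hdet
  -- the determinant is orthogonal to the annihilator of `F`
  have hann : ∀ b, b * F ∈ relIdeal e r → corner hs ((pres e r).det * b) = 0 := by
    intro b hb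
    have hb0 : constantCoeff b = 0 := by
      by_contra h0
      exact hcon b h0 hb
    have hbX : b ∈ Ideal.span (Set.range (X : Fin k → MvPolynomial (Fin k) κ)) := by
      have h1 : b ∈ idealOfVars (Fin k) κ ^ 1 := by
        rw [mem_pow_idealOfVars_iff']
        intro x hx
        rw [(Finsupp.degree_eq_zero_iff x).mp (Nat.lt_one_iff.mp hx)]
        exact hb0
      rwa [pow_one] at h1
    obtain ⟨c, rfl⟩ := Ideal.mem_span_range_iff_exists_fun.mp hbX
    refine corner_eq_zero_of_mem hs ?_
    rw [Finset.mul_sum]
    refine Ideal.sum_mem _ fun j _ => ?_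
    have he : 1 ≤ e := by have := hs j j; omega
    rw [mul_left_comm]
    exact Ideal.mul_mem_left _ _ (det_mul_X_mem he j)
  -- biduality on the finite dimensional box
  let W := boxSub (κ := κ) k e
  have hfd : FiniteDimensional κ W := by
    let S : Set (Fin k →₀ ℕ) := Set.Iic (top k e)
    have hSfin : S.Finite := Set.finite_Iic _
    have hle : W ≤ Submodule.span κ ((fun m => monomial m (1 : κ)) '' S) := by
      intro g hg
      rw [as_sum g]
      refine Submodule.sum_mem _ fun m hm => ?_
      rw [show monomial m (coeff m g) = coeff m g • monomial m (1 : κ) by simp [smul_monomial]]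
      refine Submodule.smul_mem _ _ (Submodule.subset_span ⟨m, ?_, rfl⟩)
      show m ≤ top k e
      intro i
      have := hg m (mem_support_iff.mp hm) i
      rw [top_apply]
      omega
    have := FiniteDimensional.span_of_finite κ (hSfin.image fun m => monomial m (1 : κ))
    exact Submodule.finiteDimensional_of_le hle
  let B : LinearMap.BilinForm κ W :=
    LinearMap.mk₂ κ (fun a b => corner hs (a.1 * b.1))
      (fun a b c => by simp [add_mul]) (fun c a b => by simp)
      (fun a b c => by simp [mul_add]) (fun c a b => by simp)
  have hnd : B.Nondegenerate := by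
    refine ⟨fun a ha => ?_, fun a ha => ?_⟩
    all_goals
      have : a.1 = 0 := eq_zero_of_mem_box hs a.2 (mem_relIdeal_of_forall_corner hs fun b => ?_)
      · exact Subtype.ext this
      have hb := ha ⟨nf hs b, (nf_spec hs b).1⟩
      simp only [B, LinearMap.mk₂_apply] at hb
      have h1 : corner hs (a.1 * (b - nf hs b)) = 0 :=
        corner_eq_zero_of_mem hs (Ideal.mul_mem_left _ _ (nf_spec hs b).2.2)
      rw [mul_sub, map_sub, sub_eq_zero] at h1
      rw [h1]
      first | exact hb | (rw [mul_comm]; exact hb)
  have hrefl : B.IsRefl := fun a b h => by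
    simp only [B, LinearMap.mk₂_apply] at h ⊢
    rw [mul_comm]
    exact h
  let toW : MvPolynomial (Fin k) κ →ₗ[κ] W :=
    { toFun := fun g => ⟨nf hs g, (nf_spec hs g).1⟩
      map_add' := fun a b => Subtype.ext <| nf_eq hs
        (Submodule.add_mem _ (nf_spec hs a).1 (nf_spec hs b).1) (by
          rw [Submodule.coe_add, add_sub_add_comm]
          exact add_mem (nf_spec hs a).2.2 (nf_spec hs b).2.2)
      map_smul' := fun c a => Subtype.ext <| nf_eq hs
        (Submodule.smul_mem _ c (nf_spec hs a).1) (by
          simp only [RingHom.id_apply]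
          rw [Submodule.coe_smul, ← smul_sub, smul_eq_C_mul]
          exact Ideal.mul_mem_left _ _ (nf_spec hs a).2.2) }
  let G : Submodule κ W := LinearMap.range (toW.comp (LinearMap.mulRight κ F))
  have hθ : toW (pres e r).det ∈ B.orthogonal (B.orthogonal G) := by
    intro b hb
    have hbF : b.1 * F ∈ relIdeal e r := by
      refine mem_relIdeal_of_forall_corner hs fun c => ?_
      have := hb (toW (c * F)) ⟨c, rfl⟩
      simp only [B, LinearMap.mk₂_apply, toW, LinearMap.coe_mk,
        AddHom.coe_mk] at this
      have h1 : corner hs ((c * F - nf hs (c * F)) * b.1) = 0 :=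
        corner_eq_zero_of_mem hs (Ideal.mul_mem_right _ _ (nf_spec hs (c * F)).2.2)
      rw [sub_mul, map_sub, this, sub_zero] at h1
      rw [← h1]
      congr 1
      ring
    simp only [B, LinearMap.mk₂_apply, toW, LinearMap.coe_mk, AddHom.coe_mk]
    have h1 : corner hs (b.1 * ((pres e r).det - nf hs (pres e r).det)) = 0 :=
      corner_eq_zero_of_mem hs (Ideal.mul_mem_left _ _ (nf_spec hs (pres e r).det).2.2)
    rw [mul_sub, map_sub, mul_comm, hann b.1 hbF, zero_sub, neg_eq_zero] at h1
    exact h1
  rw [LinearMap.BilinForm.orthogonal_orthogonal hnd hrefl] at hθ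
  obtain ⟨c, hc⟩ := hθ
  have hc' : nf hs (c * F) = nf hs (pres e r).det := congrArg Subtype.val hc
  have h1 := sub_mem (nf_spec hs (pres e r).det).2.2 (nf_spec hs (c * F)).2.2
  rw [hc'] at h1
  simp only [sub_sub_sub_cancel_right] at h1
  have := add_mem (hI h1) (Ideal.mul_mem_left _ c hF)
  simpa using this

end FA.Patch.SocleCI
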