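import Fermat.Agent.Patch.Eval
import Fermat.Agent.Patch.Limit
import Fermat.Agent.TW.Tangent

/-!
# Generators of complete local algebras with prescribed first members

Given elements `xloc` of a complete local `O`-algebra, tangent vectors vanishing on all of them
form a space; as many further elements as its dimension complete `xloc` to generators, and the
evaluation map from the power series ring is then surjective.
-/

set_option autoImplicit false

noncomputable section

open IsLocalRing

namespace FA.Patch

variable {O : Type} [CommRing O] [IsLocalRing O] {A : Type} [CommRing A] [IsLocalRing A]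
  [Algebra O A] [IsAdicComplete (maximalIdeal A) A]

/-- Evaluation at generators modulo the square is surjective. -/
theorem evalHom_surjective_of_gen [IsAdicComplete (maximalIdeal O) O] {r : ℕ} {x : Fin r → A}
    (hx : ∀ i, x i ∈ maximalIdeal A) {ϖ : O} (hϖ : ϖ ∈ maximalIdeal O)
    (hϖA : algebraMap O A ϖ ∈ maximalIdeal A)
    (hres : Function.Surjective (residue A ∘ algebraMap O A))
    (hgen : maximalIdeal A ≤
      Ideal.span ({algebraMap O A ϖ} ∪ Set.range x) ⊔ maximalIdeal A ^ 2) :
    Function.Surjective
      (evalHom (maximalIdeal A) (algebraMap O A) x hx : MvPowerSeries (Fin r) O →+* A) := by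
  classical
  intro y
  let ev : MvPowerSeries (Fin r) O →+* A := evalHom (maximalIdeal A) (algebraMap O A) x hx
  choose! T hT hT' using fun (n : ℕ) (z : A) (hz : z ∈ maximalIdeal A ^ n) =>
    FA.TW.exists_approx x hx hϖA hres hgen n hz
  let u : ℕ → MvPolynomial (Fin r) O := fun n =>
    Nat.rec 0 (fun n un => un + T n (y - MvPolynomial.aeval x un)) n
  have husucc : ∀ n, u (n + 1) = u n + T n (y - MvPolynomial.aeval x (u n)) := fun n => rfl
  have hu : ∀ n, y - MvPolynomial.aeval x (u n) ∈ maximalIdeal A ^ n := by
    intro n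
    induction n with
    | zero => simp
    | succ n ih =>
      rw [husucc, map_add, ← sub_sub]
      exact hT' n _ ih
  have hev : ∀ p : MvPolynomial (Fin r) O, ev p = MvPolynomial.aeval x p := fun p => by
    rw [MvPolynomial.aeval_def]
    exact evalHom_coe _ _ _ p
  have hle : (FA.TW.varIdeal ϖ r).map
      (MvPolynomial.coeToMvPowerSeries.ringHom (σ := Fin r) (R := O)) ≤
      maximalIdeal (MvPowerSeries (Fin r) O) := by
    rw [FA.TW.varIdeal, Ideal.map_span, Ideal.span_le]
    rintro _ ⟨p, hp | ⟨i, rfl⟩, rfl⟩
    · rw [Set.mem_singleton_iff.mp hp]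
      exact mem_maximalIdeal_iff_coeff.mpr (by simpa using hϖ)
    · exact mem_maximalIdeal_iff_coeff.mpr (by simp)
  obtain ⟨s, hs⟩ := exists_lim (maximalIdeal (MvPowerSeries (Fin r) O))
    (fun n => MvPolynomial.coeToMvPowerSeries.ringHom (u n)) fun n => by
    rw [← map_sub, husucc, add_sub_cancel_left]
    have h := Ideal.mem_map_of_mem (MvPolynomial.coeToMvPowerSeries.ringHom (σ := Fin r) (R := O))
      (hT n _ (hu n))
    rw [Ideal.map_pow] at h
    exact Ideal.pow_right_mono hle n h
  have hloc : ∀ w ∈ maximalIdeal (MvPowerSeries (Fin r) O), ev w ∈ maximalIdeal A := by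
    intro w hw
    have hc := mem_maximalIdeal_iff_coeff.mp hw
    have h1 : w - MvPowerSeries.C (MvPowerSeries.constantCoeff w) ∈
        Ideal.span (Set.range (MvPowerSeries.X : Fin r → MvPowerSeries (Fin r) O)) := by
      rw [← pow_one (Ideal.span _)]
      refine mem_span_X_pow fun v hv => ?_
      obtain rfl := (Finsupp.degree_eq_zero_iff v).mp (Nat.lt_one_iff.mp hv)
      simp
    have h2 : ev (w - MvPowerSeries.C (MvPowerSeries.constantCoeff w)) ∈ maximalIdeal A := by
      have h3 := Ideal.mem_map_of_mem ev h1
      rw [Ideal.map_span] at h3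
      refine Ideal.span_le.mpr ?_ h3
      rintro _ ⟨_, ⟨i, rfl⟩, rfl⟩
      simpa [ev] using hx i
    rw [map_sub] at h2
    have h4 : ev (MvPowerSeries.C (MvPowerSeries.constantCoeff w)) ∈ maximalIdeal A := by
      obtain ⟨b, hb⟩ : ∃ b, b = MvPowerSeries.constantCoeff w := ⟨_, rfl⟩
      rw [← hb] at hc ⊢
      simp only [ev, evalHom_C]
      by_contra hu
      rw [mem_maximalIdeal, mem_nonunits_iff, not_not] at hu
      obtain ⟨v, hv⟩ := hu.exists_right_inv
      obtain ⟨v', hv'⟩ := hres (residue A v)
      have h5 : residue A (algebraMap O A (b * v')) = 1 := by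
        rw [map_mul, map_mul, show residue A (algebraMap O A v') = residue A v from hv', ← map_mul,
          hv, map_one]
      have h6 : IsUnit (1 - b * v') := IsLocalRing.isUnit_one_sub_self_of_mem_nonunits _
        (Ideal.mul_mem_right _ _ hc)
      have h7 : residue A (algebraMap O A (1 - b * v')) = 0 := by
        rw [map_sub, map_one, map_sub, map_one, h5, sub_self]
      exact (IsLocalRing.mem_maximalIdeal _).mp
        ((residue_eq_zero_iff _).mp h7) (h6.map (algebraMap O A))
    simpa using add_mem h2 h4
  refine ⟨s, eq_of_forall_sub_mem (maximalIdeal A) fun n => ?_⟩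
  have h1 : ev (s - MvPolynomial.coeToMvPowerSeries.ringHom (u n)) ∈ maximalIdeal A ^ n :=
    map_mem_pow ev hloc (hs n)
  rw [map_sub, MvPolynomial.coeToMvPowerSeries.ringHom_apply, hev] at h1
  have := sub_mem h1 (hu n)
  rwa [sub_sub_sub_cancel_right] at this

variable {k : Type} [Field k] {red : O →+* k} (π : A →+* k)

open FA.TW in
/-- **Completing to generators.** -/
theorem exists_extra_generators [IsAdicComplete (maximalIdeal O) O]
    (hred : Function.Surjective red) (hπ : π.comp (algebraMap O A) = red)
    {ϖ : O} (hker : RingHom.ker red = Ideal.span {ϖ})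
    {m g : ℕ} (xloc : Fin m → A) (hloc : ∀ i, xloc i ∈ maximalIdeal A)
    (W : Submodule k ↥(tangent π O)) [FiniteDimensional k W] (hg : Module.finrank k W ≤ g)
    (hW : ∀ d, (∀ i, d.1 (xloc i) = 0) → d ∈ W) :
    ∃ x : Fin g → A, ∃ hx : ∀ i, Fin.append xloc x i ∈ maximalIdeal A,
      Function.Surjective (evalHom (maximalIdeal A) (algebraMap O A) (Fin.append xloc x) hx :
        MvPowerSeries (Fin (m + g)) O →+* A) := by
  obtain ⟨x, hx, hdet⟩ := exists_detect hred hπ g W inferInstance hg
  have hsurj : Function.Surjective π := fun a => by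
    obtain ⟨c, rfl⟩ := hred a
    exact ⟨algebraMap O A c, RingHom.congr_fun hπ c⟩
  have hmem : ∀ i, Fin.append xloc x i ∈ maximalIdeal A := fun i => by
    induction i using Fin.addCases with
    | left i => simpa using hloc i
    | right i => simpa using hx i
  have hϖ : ϖ ∈ maximalIdeal O := by
    have h := (eq_maximalIdeal (RingHom.ker_isMaximal_of_surjective red hred)).symm
    rw [h, hker]
    exact Ideal.mem_span_singleton_self ϖ
  have hϖA : algebraMap O A ϖ ∈ maximalIdeal A := by
    rw [← ker_eq_maximalIdeal hsurj, RingHom.mem_ker, ← RingHom.comp_apply, hπ, ← RingHom.mem_ker,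
      hker]
    exact Ideal.mem_span_singleton_self ϖ
  refine ⟨x, hmem, evalHom_surjective_of_gen hmem hϖ hϖA (fun a => ?_)
    (maximalIdeal_le_of_detect hred hπ hker _ fun d hd => hdet d (hW d fun i => ?_) fun i => ?_)⟩
  · obtain ⟨b, rfl⟩ := residue_surjective a
    obtain ⟨c, hc⟩ := hred (π b)
    refine ⟨c, ?_⟩
    rw [Function.comp_apply, ← sub_eq_zero, ← map_sub, residue_eq_zero_iff,
      ← ker_eq_maximalIdeal hsurj, RingHom.mem_ker, map_sub, ← RingHom.comp_apply, hπ, hc, sub_self]
  · simpa using hd (Fin.castAdd g i)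
  · simpa using hd (Fin.natAdd m i)

end FA.Patch
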